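import Fermat.Agent.Carayol.OddPts.Branches
import Fermat.Agent.Carayol.Model.CountDefs

/-!
# A point where the Hasse invariant does not vanish: one component
-/

set_option autoImplicit false
set_option linter.unusedSectionVars false
set_option linter.style.haveILetI false

noncomputable section

namespace FA.Carayol.OddP

open CongruenceSubgroup ModularCurve FA.Level
open scoped MatrixGroups

local notation "Qb" => AlgebraicClosure ℚ

variable [Algebra Qb ℂ] {A : ValuationSubring Qb} {q : ℕ} [hq : Fact q.Prime] {N g : ℕ} [NeZero N]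
  {hN : N = 4 * g} {hζ : ∀ b : ℤ, FA.Mazur.Wp.eta N b ∈ constK A q}
  {ϖ : baseO A (constL A q).toSubfield}

namespace OddCtx

variable {m : ℕ} {p : Pt A q (lamF hN hζ)} (C : OddCtx (hN := hN) (hζ := hζ) m p ϖ)
  (hord : (hasse q (IsLocalRing.ResidueField A)).eval C.val ≠ 0)
include C hord

theorem ord_top {R : ValuationSubring (flN N (constK A q))} (hR : AbovePt C.hp R) :
    R.valuation C.topF = 1 := by
  rw [topF, ← C.coe_psiP]
  refine val_eq_one_of_ptRes_ne C.hC C.hp hR ?_
  rw [ptRes_psiP]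
  exact hord

theorem exists_ord_line : ∃ l : Option (ZMod q),
    ∀ u, ptRes C.hC C.hp (C.zq u) = 0 ↔ ∃ a : ZMod q, u = a • lineVec l := by
  obtain ⟨V, hV⟩ := C.exists_centred
  obtain ⟨l, hl⟩ := C.exists_kerLine hV.1 (val_cF_pi C.hC C.hp hV) (C.ord_top hord hV.1)
  exact ⟨l, fun u => by rw [← C.mem_kerR_iff_res hV]; exact hl u⟩

/-- At most `q` automorphisms fix the point. -/
theorem ord_card : Nat.card (stabSet (galLvl A q 2) (ptSet p)) ≤ q := by
  obtain ⟨l, hl⟩ := C.exists_ord_line hord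
  obtain ⟨V, hV⟩ := C.exists_centred
  set e := lineVec l with he
  set π := cF A q N ϖ with hπ
  have hπ0 : π ≠ 0 := cF_pi_ne_zero C.hC
  have he0 : e ≠ 0 := lineVec_ne_zero l
  have hres : ptRes C.hC C.hp (C.zq e) = 0 := (hl e).2 ⟨1, (one_smul _ _).symm⟩
  have hlineV : C.IsKerLine hV.1 l := fun u => by rw [C.mem_kerR_iff_res hV]; exact hl u
  have hline : ∀ R : ValuationSubring (flN N (constK A q)), ∀ hR : AbovePt C.hp R,
      R.valuation π < 1 → R.valuation (C.zq e : flN N (constK A q)) = R.valuation π :=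
    fun R hR hlt => by
      obtain ⟨l', hl'⟩ := C.exists_kerLine hR hlt (C.ord_top hord hR)
      obtain ⟨a, ha⟩ := (hl _).1 (C.res_zero_of_mem hR (IsKerLine.mem C hR hl'))
      obtain rfl := lineVec_inj ha
      exact IsKerLine.val_line C hR hl' (C.card_halfKer hR hlt (C.ord_top hord hR)).1
  have hν : (C.zq e : flN N (constK A q)) / π ∈ locPt C.hp :=
    mem_loc_of_forall C.hp fun R hR => by
      rw [← R.valuation_le_one_iff, map_div₀]
      rcases (val_cF_le C.hC C.hp hR ϖ).lt_or_eq with h | h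
      · rw [hline R hR h, div_self ((Valuation.ne_zero_iff _).2 hπ0)]
      · rw [show R.valuation π = 1 from h, div_one]
        exact (R.valuation_le_one_iff _).2 (hR _ (C.zq e).2)
  have hVπ : V.valuation π < 1 := val_cF_pi C.hC C.hp hV
  have hVz : V.valuation (C.zq e : flN N (constK A q)) = V.valuation π := hline V hV.1 hVπ
  refine (C.card_le _ le_rfl {M | rowMul e M = e} fun γ hγ hs => ?_).trans
    (card_fix_le he0 _ fun M hM => hM)
  obtain ⟨a, ha⟩ := (hl (rowMul e (redSL γ))).1 (by rw [C.res_rowMul hγ hs]; exact hres)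
  -- the residue of the quotient by the uniformiser is kept
  obtain ⟨hl', hr⟩ := stab_loc C.hz C.hC C.hp hs ⟨_, hν⟩
  have e1 : (flEquiv γ ((C.zq e : flN N (constK A q)) / π) : flN N (constK A q)) =
      (C.zq (a • e) : flN N (constK A q)) / π := by
    rw [flEquiv_apply, map_div₀, C.act_zq hγ, ha, hπ, flAct_cF]
  replace hr : V.valuation (flEquiv γ ((C.zq e : flN N (constK A q)) / π) -
      (C.zq e : flN N (constK A q)) / π) < 1 := by
    rw [← sub_eq_zero, ← map_sub, ← hV.lt_iff] at hr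
    exact hr
  rw [e1, ← sub_div, map_div₀,
    div_lt_one₀ (zero_lt_iff.2 ((Valuation.ne_zero_iff _).2 hπ0)), ← hVz] at hr
  have ha0 : a ≠ 0 := fun h0 => by
    rw [h0, zero_smul, coe_zq, C.zq_zero, zero_sub, Valuation.map_neg, coe_zq] at hr
    exact lt_irrefl _ hr
  have hek : e ∈ C.kerR hV.1 := IsKerLine.mem C hV.1 hlineV
  have hs' := tq_smul C.hNqm ((a.val : ℕ) : ℤ) e
  rw [Int.cast_natCast, ZMod.natCast_zmod_val] at hs'
  have hmul := (C.kerFacts hV.1).zF_mul _ hek ((isVec_tq C.hNqm).2 he0) ((a.val : ℕ) : ℤ)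
  rw [← zF_congr hs', ← coe_zq C, ← coe_zq C, Int.cast_natCast] at hmul
  have h2 := V.valuation.map_sub_lt hr hmul
  rw [show (C.zq (a • e) : flN N (constK A q)) - C.zq e - ((C.zq (a • e) : flN N (constK A q)) -
    (a.val : flN N (constK A q)) * C.zq e) =
      ((a.val : flN N (constK A q)) - 1) * C.zq e by ring, map_mul] at h2
  have hpos : 0 < a.val := Nat.pos_of_ne_zero fun h => ha0 ((ZMod.val_eq_zero a).1 h)
  have hval : a.val = 1 := by
    by_contra hne
    have hn : ¬ q ∣ a.val - 1 := fun hd => by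
      have := Nat.eq_zero_of_dvd_of_lt hd (lt_of_le_of_lt (Nat.sub_le _ _) a.val_lt)
      omega
    have h3 := val_natCast C.hC C.hp hV.1 C.hA hn
    rw [Nat.cast_sub hpos, Nat.cast_one] at h3
    rw [h3, one_mul] at h2
    exact lt_irrefl _ h2
  have ha1 : a = 1 := by rw [← ZMod.natCast_zmod_val a, hval, Nat.cast_one]
  show rowMul e (redSL γ) = e
  rw [ha, ha1, one_smul]

variable (hI : OddInfty A q hN hζ ϖ) (hCnt : CountHolds A q ϖ (lamF hN hζ) 2)
  (hV : ∃ W₀, VertFacts A q 2 ϖ (lamF hN hζ) W₀)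
include hI hCnt hV

theorem exists_ord_par {W : ValuationSubring (flN N (constK A q))}
    (hW : W ∈ vertsAt A q ϖ (lamF hN hζ) p) :
    ∃ r π c' V, BrPar A q (lamF hN hζ) p W 1 r π c' V := by
  obtain ⟨a, ha⟩ := exists_coord_residue C.hC C.hp
  obtain ⟨r, c', h1, h2, h3, -⟩ := C.exists_frob hW (hI.frob p.1 W hW.1) ha
  obtain ⟨V, hle, hVc⟩ := exists_centred_le C.hC C.hp (C.above hW)
  exact ⟨r, r - cstB A q _ c', c', V,
    { frob := h1
      le := hle
      mem := fun x hx => hVc.1 _ (chart_le_loc C.hp hx)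
      centre := fun x => hVc.centre _ _ x
      par_mem := h3
      par_unit := h2
      rho := (hVc.centre _ _ _).2 h3
      order := pow_one _ }⟩

theorem ord_count :
    (vertsAt A q ϖ (lamF hN hζ) p).Nonempty ∧
    (∀ W ∈ vertsAt A q ϖ (lamF hN hζ) p, ∀ W' ∈ vertsAt A q ϖ (lamF hN hζ) p, W = W') ∧
      ∀ W ∈ vertsAt A q ϖ (lamF hN hζ) p,
        ∃ π : chartF A q (coordB A q (lamF hN hζ) p.1), π ∈ p.2 ∧
          W.valuation (π : flN N (constK A q)) = 1 ∧ RegularAt A q (lamF hN hζ) p W π := by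
  obtain ⟨hne, hrest⟩ := hCnt C.hC C.hz hV p C.hp
  obtain ⟨W, hW⟩ := hne
  haveI := finite_galLvl (A := A) (q := q) (N := N) (ℓ := 2)
  haveI : Finite (stabSet (galLvl (N := N) A q 2) (ptSet p)) :=
    Finite.of_injective _ (Subgroup.inclusion_injective (fun x hx => hx.1 :
      stabSet (galLvl (N := N) A q 2) (ptSet p) ≤ galLvl A q 2))
  have hb : Nat.card ↥(stabSet (galLvl A q 2) (ptSet p) ⊓ stabVal (galLvl A q 2) W) ≤ 1 * q := by
    rw [one_mul]
    exact (Nat.card_le_card_of_injective _ (Subgroup.inclusion_injective inf_le_left)).trans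
      (C.ord_card hord)
  obtain ⟨-, -, hcount, hreg⟩ :=
    hrest 1 one_pos W hW (C.exists_ord_par hord hI hCnt hV hW) hb
  refine ⟨⟨W, hW⟩, ?_, fun W' hW' => ?_⟩
  · haveI : Finite (vertsAt A q ϖ (lamF hN hζ) p) :=
      ((finite_verts C.hz C.hC).subset fun x hx => hx.1).to_subtype
    have h1 : Nat.card (vertsAt A q ϖ (lamF hN hζ) p) ≤ 1 := by
      have h := C.ord_card hord
      rw [← hcount, one_mul] at h
      exact Nat.le_of_mul_le_mul_right (h.trans_eq (one_mul q).symm) hq.out.pos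
    haveI := (Finite.card_le_one_iff_subsingleton).1 h1
    exact fun W₁ h₁ W₂ h₂ => congrArg Subtype.val
      (Subsingleton.elim (⟨W₁, h₁⟩ : vertsAt A q ϖ (lamF hN hζ) p) ⟨W₂, h₂⟩)
  · obtain ⟨r, π, c', V, hpar⟩ := C.exists_ord_par hord hI hCnt hV hW'
    exact ⟨π, hpar.par_mem, hpar.par_unit, hreg W' hW' r π c' V hpar⟩

theorem ord_local (hL : LocalHolds A q ϖ (lamF hN hζ) 2) : PtLocal ϖ p := by
  obtain ⟨hne, huniq, hreg⟩ := C.ord_count hord hI hCnt hV
  refine hL C.hC C.hz hV p C.hp hne fun W hW => ?_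
  obtain ⟨π, h1, h2, h3⟩ := hreg W hW
  refine ⟨cstB A q _ ϖ, π, by rw [coe_cstB], fun W' hW' h => absurd (huniq W' hW' W hW) h,
    ⟨1, 1, 1, fun h => C.hp.1.ne_top (Ideal.eq_top_of_isUnit_mem _ h isUnit_one), ?_⟩, h1, h2, h3⟩
  rw [coe_cstB, OneMemClass.coe_one, mul_one, mul_one, pow_one]

end OddCtx

end FA.Carayol.OddP

end
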