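import Fermat.Agent.Carayol.OddPts.Transport
import Fermat.Agent.Carayol.Const.Main
import Fermat.Agent.Carayol.Field.Conj

/-!
# Inertia acting on the coefficients: scaling the second coordinate of the vectors
-/

set_option autoImplicit false
set_option linter.unusedSectionVars false
set_option linter.style.haveILetI false

noncomputable section

namespace FA.Carayol.OddP

open CongruenceSubgroup ModularCurve FA.Level
open scoped MatrixGroups

local notation "Qb" => AlgebraicClosure ℚ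

theorem vscale_add (s : ℤ) (v w : ℤ × ℤ) : vscale s (v + w) = vscale s v + vscale s w := by
  simp [vscale, mul_add]

theorem vscale_sub (s : ℤ) (v w : ℤ × ℤ) : vscale s (v - w) = vscale s v - vscale s w := by
  simp [vscale, mul_sub]

variable [Algebra Qb ℂ] {A : ValuationSubring Qb} {q : ℕ} [hq : Fact q.Prime] {N g : ℕ} [NeZero N]
  {hN : N = 4 * g} {hζ : ∀ b : ℤ, FA.Mazur.Wp.eta N b ∈ constK A q}
  {ϖ : baseO A (constL A q).toSubfield}

theorem exists_scalar {m : ℕ} (hqm : ¬ q ∣ m) (t : ZMod q) :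
    ∃ s : ℤ, (s : ZMod q) = t ∧ (m : ℤ) ∣ s - 1 := by
  obtain ⟨b, hb⟩ := coprime_lift hqm (t - 1)
  refine ⟨1 + ((m * b : ℕ) : ℤ), ?_, ⟨(b : ℤ), by push_cast; ring⟩⟩
  rw [Int.cast_add, Int.cast_one, Int.cast_natCast, hb, add_sub_cancel]

/-- Residually trivial automorphisms of the constants preserve the integral constants. -/
theorem exists_cst_image (σ : constK A q ≃+* constK A q)
    (hres : ∀ x y : Qb, ∀ hx : algebraMap Qb ℂ x ∈ constK A q,
      algebraMap Qb ℂ y = (σ ⟨algebraMap Qb ℂ x, hx⟩ : ℂ) → x ∈ A → A.valuation (y - x) < 1)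
    (a : baseO A (constL A q).toSubfield) :
    ∃ a' : baseO A (constL A q).toSubfield,
      baseK A q a' = σ (baseK A q a) ∧ resO A q a' = resO A q a := by
  obtain ⟨y, hy, hye⟩ := mem_constK.1 (σ (baseK A q a)).2
  have hx : algebraMap Qb ℂ (a : Qb) ∈ constK A q := (baseK A q a).2
  have hlt := hres a y hx hye a.2.1
  have hyA : y ∈ A := by
    rw [← sub_add_cancel y (a : Qb)]
    exact add_mem ((A.valuation_le_one_iff _).1 hlt.le) a.2.1
  refine ⟨⟨y, hyA, hy⟩, Subtype.ext hye, ?_⟩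
  show IsLocalRing.residue A ⟨y, hyA⟩ = IsLocalRing.residue A ⟨(a : Qb), a.2.1⟩
  rw [← sub_eq_zero, ← map_sub, FA.CurveRed.residue_eq_zero_iff]
  exact hlt

/-- The inverse also preserves them. -/
theorem exists_cst_preimage (σ : constK A q ≃+* constK A q)
    (hres : ∀ x y : Qb, ∀ hx : algebraMap Qb ℂ x ∈ constK A q,
      algebraMap Qb ℂ y = (σ ⟨algebraMap Qb ℂ x, hx⟩ : ℂ) → x ∈ A → A.valuation (y - x) < 1)
    (a : baseO A (constL A q).toSubfield) :
    ∃ b : baseO A (constL A q).toSubfield,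
      σ (baseK A q b) = baseK A q a ∧ resO A q b = resO A q a := by
  obtain ⟨y, hy, hye⟩ := mem_constK.1 (σ.symm (baseK A q a)).2
  have hyA : y ∈ A := by
    by_contra hn
    have hinvA : y⁻¹ ∈ A := (A.mem_or_inv_mem y).resolve_left hn
    have hK : algebraMap Qb ℂ y⁻¹ ∈ constK A q :=
      mem_constK.2 ⟨_, (constL A q).inv_mem hy, rfl⟩
    have e : (⟨algebraMap Qb ℂ y⁻¹, hK⟩ : constK A q) = (σ.symm (baseK A q a))⁻¹ :=
      Subtype.ext (by
        show algebraMap Qb ℂ y⁻¹ = ((σ.symm (baseK A q a) : constK A q) : ℂ)⁻¹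
        rw [map_inv₀, hye])
    have h1 := hres y⁻¹ (a : Qb)⁻¹ hK (by
      rw [e, map_inv₀ σ, RingEquiv.apply_symm_apply, map_inv₀]; rfl) hinvA
    have h2 : A.valuation y⁻¹ < 1 := by
      rw [map_inv₀]
      exact inv_lt_one_of_one_lt₀ (lt_of_not_ge fun h => hn ((A.valuation_le_one_iff y).1 h))
    have h3 := A.valuation.map_add_lt h1 h2
    rw [sub_add_cancel, map_inv₀] at h3
    rcases eq_or_ne (a : Qb) 0 with ha | ha
    · refine hn ?_
      have : σ.symm (baseK A q a) = 0 := by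
        rw [show a = 0 from Subtype.ext ha, map_zero, map_zero]
      rw [this] at hye
      rw [show y = 0 from (algebraMap Qb ℂ).injective (hye.trans (map_zero _).symm)]
      exact zero_mem A
    · exact not_lt.2 ((A.valuation_le_one_iff _).2 a.2.1)
        ((inv_lt_one₀ (zero_lt_iff.2 ((Valuation.ne_zero_iff _).2 ha))).1 h3)
  set b : baseO A (constL A q).toSubfield := ⟨y, hyA, hy⟩
  have hb : σ (baseK A q b) = baseK A q a := by
    rw [show baseK A q b = σ.symm (baseK A q a) from Subtype.ext hye, RingEquiv.apply_symm_apply]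
  obtain ⟨a', e, e'⟩ := exists_cst_image σ hres b
  exact ⟨b, hb, by rw [← e', baseK_injective (e.trans hb)]⟩

theorem exists_scaleAut {m : ℕ} (hA : A.LiesOverPrime q) (hNqm : N = q * m) (hqm : ¬ q ∣ m)
    (h4m : 4 ∣ m) {s : ℤ} (hsq : (s : ZMod q) ≠ 0) (hsm : (m : ℤ) ∣ s - 1) :
    ∃ φ : flN N (constK A q) ≃+* flN N (constK A q),
      (∀ f, (∀ i, (((ser f).coeff i : constK A q) : ℂ) ∈ constK0 A) → φ f = f) ∧
      MovesCst φ ∧ MovesCst φ.symm ∧ φ (lamF hN hζ) = lamF hN hζ ∧
      (∀ v, φ (xF hN hζ v) = xF hN hζ (vscale s v)) ∧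
      ∀ v, φ (zF hN hζ v) = zF hN hζ (vscale s v) := by
  have hm0 : m ≠ 0 := fun h => NeZero.ne N (by rw [hNqm, h, mul_zero])
  have hqs : ¬ (q : ℤ) ∣ s := fun h => hsq ((ZMod.intCast_zmod_eq_zero_iff_dvd s q).2 h)
  obtain ⟨σ, hroots, hK0, hres⟩ := (constHolds q A hA m hm0 hqm).inertia s hqs hsm
  obtain ⟨s', hs'⟩ : ∃ s' : ℤ, (N : ℤ) ∣ s' * s - 1 := by
    have h1 : IsCoprime s (q : ℤ) :=
      (((Nat.prime_iff_prime_int.1 hq.out).coprime_iff_not_dvd).2 hqs).symm
    have h2 : IsCoprime s (m : ℤ) := by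
      obtain ⟨k, hk⟩ := hsm
      exact ⟨1, -k, by linear_combination hk⟩
    obtain ⟨a, b, hab⟩ := h1.mul_right h2
    refine ⟨a, ⟨-b, ?_⟩⟩
    rw [hNqm, Nat.cast_mul]
    linear_combination hab
  let S : CoeffAut N (constK A q) hζ :=
    { σ := σ
      s := s
      s' := s'
      scales := fun b => Subtype.ext (by
        have h := hroots b (by rw [← hNqm]; exact hζ b)
        simp only [← hNqm] at h
        exact h)
      inv := hs' }
  have hg : 2 ≤ 2 * g := by have := g_pos hN; omega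
  set φ := conjAut (two_g hN) hg hζ S
  have hcF : ∀ a b : baseO A (constL A q).toSubfield, σ (baseK A q a) = baseK A q b →
      φ (cF A q N a) = cF A q N b := fun a b e => by
    show conjAut (two_g hN) hg hζ S (toFl (rC (baseK A q a))) = toFl (rC (baseK A q b))
    rw [conjAut_rC, ← e]
  have hX : ∀ v, φ (xF hN hζ v) = xF hN hζ (vscale s v) := fun v => by
    by_cases hv : IsVec N v
    · rw [xF_of_isVec hN hζ hv, xF_of_isVec hN hζ (isVec_vscale S.inv hv)]
      exact conjAut_rat (two_g hN) hg hζ S hv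
    · rw [xF_of_not hN hζ hv, map_zero, xF_of_not hN hζ (v := vscale s v) fun h => h
        ⟨(not_not.1 hv).1, (not_not.1 hv).2.mul_left s⟩]
  have hlam : φ (lamF hN hζ) = lamF hN hζ := conjAut_lam (two_g hN) hg hζ S
  have hQ : ¬ IsVec N (vscale s (qV g) - qV g) := by
    obtain ⟨k, hk⟩ := (Int.natCast_dvd_natCast.2 h4m : ((4 : ℕ) : ℤ) ∣ (m : ℤ)).trans hsm
    rw [IsVec, not_not]
    refine ⟨by simp [vscale, qV], ⟨k, ?_⟩⟩
    simp only [vscale, qV, Prod.snd_sub, hN]
    push_cast at hk ⊢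
    linear_combination (g : ℤ) * hk
  refine ⟨φ, fun f hf => ser_injective ?_, fun a => ?_, fun a => ?_, hlam, hX, fun v => ?_⟩
  · rw [ser_conjAut]
    ext i
    rw [coeffMap_coeff]
    exact congrArg Subtype.val (hK0 _ (hf i))
  · obtain ⟨a', e, e'⟩ := exists_cst_image σ hres a
    exact ⟨a', hcF a a' e.symm, e'⟩
  · obtain ⟨b, e, e'⟩ := exists_cst_preimage σ hres a
    exact ⟨b, (RingEquiv.symm_apply_eq _).2 (hcF b a e).symm, e'⟩
  · have hd : φ (dF hN hζ) = dF hN hζ := by
      simp only [dF, map_mul, map_sub, map_one, hX, hlam, xF_congr hN hζ hQ]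
    have hadd : ¬ IsVec N (vscale s (v + qV g) - (vscale s v + qV g)) := by
      rwa [vscale_add, add_sub_add_left_eq_sub]
    have hsub : ¬ IsVec N (vscale s (v - qV g) - (vscale s v - qV g)) := by
      rw [vscale_sub, sub_sub_sub_cancel_left, ← neg_sub, isVec_neg]
      exact hQ
    have hiff : ∀ w, IsVec N (vscale s w) ↔ IsVec N w := fun w =>
      ⟨fun h hd => h ⟨hd.1, hd.2.mul_left s⟩, isVec_vscale hs'⟩
    have h1 : IsVec N (v - qV g) ↔ IsVec N (vscale s v - qV g) := by
      rw [← isVec_congr hsub, hiff]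
    have h2 : IsVec N (v + qV g) ↔ IsVec N (vscale s v + qV g) := by
      rw [← isVec_congr hadd, hiff]
    have hy : φ (yF hN hζ v) = yF hN hζ (vscale s v) := by
      by_cases a1 : IsVec N (v - qV g)
      · by_cases a2 : IsVec N (v + qV g)
        · rw [yF, if_pos a1, if_pos a2, yF, if_pos (h1.1 a1), if_pos (h2.1 a2)]
          simp only [map_div₀, map_neg, map_mul, map_sub, map_pow, map_ofNat, hd, hX,
            xF_congr hN hζ hadd, xF_congr hN hζ hsub, xF_congr hN hζ hQ]
        · rw [yF, if_pos a1, if_neg a2, yF, if_pos (h1.1 a1), if_neg fun h => a2 (h2.2 h),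
            map_neg, map_one]
      · rw [yF, if_neg a1, yF, if_neg fun h => a1 (h1.2 h), map_one]
    rw [zF, zF, map_div₀, map_neg, hX, hy]

end FA.Carayol.OddP

end
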