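import Fermat.Agent.Carayol.OddPts.Super
import Fermat.Agent.Carayol.OddPts.Ordinary
import Fermat.Agent.Carayol.OddPts.Scale

/-!
# An odd prime: the points of the special fibre are as wanted
-/

set_option autoImplicit false
set_option linter.unusedSectionVars false
set_option linter.style.haveILetI false

noncomputable section

namespace FA.Carayol.OddP

open CongruenceSubgroup ModularCurve FA.Level
open scoped MatrixGroups

local notation "Qb" => AlgebraicClosure ℚ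

variable [Algebra Qb ℂ] {A : ValuationSubring Qb} {q : ℕ} [hq : Fact q.Prime] {N g : ℕ} [NeZero N]
  {hN : N = 4 * g} {hζ : ∀ b : ℤ, FA.Mazur.Wp.eta N b ∈ constK A q}
  {ϖ : baseO A (constL A q).toSubfield}

theorem rowMul_ne_zero {u : ZMod q × ZMod q} (hu : u ≠ 0)
    (M : Matrix.SpecialLinearGroup (Fin 2) (ZMod q)) : rowMul u M ≠ 0 := fun h => by
  obtain ⟨f, hf⟩ := exists_frame hu
  have h1 := det2_rowMul u f M
  rw [hf, h] at h1
  simp [det2] at h1

theorem flEquiv_mem_galLvl {γ : SL(2, ℤ)} (hγ : γ ∈ Gamma 2) :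
    flEquiv γ ∈ galLvl (N := N) A q 2 :=
  ⟨γ⁻¹, inv_mem hγ, by show flEquiv γ⁻¹⁻¹ = _; rw [inv_inv]⟩

/-- A point where the Hasse invariant vanishes. -/
def SSPt (m : ℕ) (ϖ : baseO A (constL A q).toSubfield) (p : Pt A q (lamF hN hζ)) : Prop :=
  ∃ C : OddCtx (hN := hN) (hζ := hζ) m p ϖ,
    (hasse q (IsLocalRing.ResidueField A)).eval C.val = 0

open Classical in
/-- The component of a line. -/
def ssW (m : ℕ) (ϖ : baseO A (constL A q).toSubfield) (p : Pt A q (lamF hN hζ))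
    (l : Option (ZMod q)) : ValuationSubring (flN N (constK A q)) :=
  if h : ∃ W, ∃ C : OddCtx (hN := hN) (hζ := hζ) m p ϖ,
      ∃ hW : W ∈ vertsAt A q ϖ (lamF hN hζ) p, C.lineOf hW = l then h.choose else ⊤

variable {m : ℕ} (hI : OddInfty A q hN hζ ϖ) (hCnt : CountHolds A q ϖ (lamF hN hζ) 2)
  (hV : ∃ W₀, VertFacts A q 2 ϖ (lamF hN hζ) W₀)
include hI hCnt hV

section point

variable {p : Pt A q (lamF hN hζ)} (C : OddCtx (hN := hN) (hζ := hζ) m p ϖ)
  (hss : (hasse q (IsLocalRing.ResidueField A)).eval C.val = 0)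
include C hss

theorem ssW_spec (l : Option (ZMod q)) :
    ∃ hW : ssW m ϖ p l ∈ vertsAt A q ϖ (lamF hN hζ) p, C.lineOf hW = l := by
  have h : ∃ W, ∃ C : OddCtx (hN := hN) (hζ := hζ) m p ϖ,
      ∃ hW : W ∈ vertsAt A q ϖ (lamF hN hζ) p, C.lineOf hW = l := by
    obtain ⟨W, hW, e⟩ := C.ss_line_exists hss hI hCnt hV l
    exact ⟨W, C, hW, e⟩
  rw [ssW, dif_pos h]
  obtain ⟨C', hW, e⟩ := h.choose_spec
  exact ⟨hW, e⟩

theorem ssW_small (l : Option (ZMod q)) :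
    (ssW m ϖ p l).valuation (zF hN hζ (tq q m (lineVec l))) < 1 := by
  obtain ⟨hW, e⟩ := ssW_spec hI hCnt hV C hss l
  have h := (C.mem_kerR_iff_lt (C.above hW)).1
    (OddCtx.IsKerLine.mem C (C.above hW) (C.lineOf_spec hW))
  rwa [e, C.coe_zq] at h

/-- The component with a small parameter on a line is the component of that line. -/
theorem eq_ssW {W : ValuationSubring (flN N (constK A q))}
    (hW : W ∈ vertsAt A q ϖ (lamF hN hζ) p) {u : ZMod q × ZMod q} {a : ZMod q}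
    {l : Option (ZMod q)} (hu : u = a • lineVec l) (hu0 : u ≠ 0)
    (h : W.valuation (zF hN hζ (tq q m u)) < 1) : W = ssW m ϖ p l := by
  obtain ⟨hW', e⟩ := ssW_spec hI hCnt hV C hss l
  refine (C.ss_count hss hI hCnt hV).2.1 W _ hW hW' (e.symm ▸ ?_)
  have ha : a ≠ 0 := fun h0 => hu0 (by rw [hu, h0, zero_smul])
  have hk : u ∈ C.kerR (C.above hW) := (C.mem_kerR_iff_lt (C.above hW)).2 h
  have hl := smul_mem_addSubgroup _ a⁻¹ hk
  rw [hu, smul_smul, inv_mul_cancel₀ ha, one_smul] at hl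
  exact (C.line_eq_of_mem (C.above hW) (C.lineOf_spec hW) hl).symm

theorem gamma_mem_stab {γ : SL(2, ℤ)} (hγ : γ ∈ Gamma m) :
    flEquiv γ ∈ stabSet (galLvl A q 2) (ptSet p) :=
  (C.ss_count hss hI hCnt hV).2.2.1 γ hγ

theorem fixesPt_gamma {γ : SL(2, ℤ)} (hγ : γ ∈ Gamma m) : FixesPt (flEquiv γ) p := by
  have hs := gamma_mem_stab hI hCnt hV C hss hγ
  exact fixesPt_of_le (movesCst_galLvl hs.1) (galLvl_coord C.hz hs.1 false) C.hC C.hp
    fun x hx => (galB_mem_iff C.hz C.hC C.hp hs x).2 hx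

/-- Translation by `Γ(m)` permutes the components by the action on lines. -/
theorem move_gamma {γ : SL(2, ℤ)} (hγ : γ ∈ Gamma m) (l l' : Option (ZMod q)) (a : ZMod q)
    (hl : rowMul (lineVec l) (redSL γ) = a • lineVec l') {x : flN N (constK A q)}
    (hx : (ssW m ϖ p l).valuation x < 1) :
    (ssW m ϖ p l').valuation (flEquiv γ x) < 1 := by
  obtain ⟨hW, -⟩ := ssW_spec hI hCnt hV C hss l
  have hfix := fixesPt_gamma hI hCnt hV C hss hγ
  have hs := gamma_mem_stab hI hCnt hV C hss hγ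
  have hlam : flEquiv γ (lamF hN hζ) = lamF hN hζ := galLvl_coord C.hz hs.1 false
  have hs' := movesCst_galLvl ((stabSet (galLvl A q 2) (ptSet p)).inv_mem hs).1
  set ψ := (flEquiv (N := N) (K := constK A q) γ).symm
  have hψlam : ψ (lamF hN hζ) = lamF hN hζ := (RingEquiv.symm_apply_eq _).2 hlam.symm
  have hW2 := verts_comap hs' hψlam C.hC C.hp
    (fixes_symm (movesCst_galLvl hs.1) hlam C.hC C.hp hfix hs') hW
  set W2 := (ssW m ϖ p l).comap (ψ : flN N (constK A q) →+* flN N (constK A q))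
  have key : ∀ y, (ssW m ϖ p l).valuation y < 1 → W2.valuation (flEquiv γ y) < 1 := fun y hy =>
    val_comap_lt.2 (by
      show (ssW m ϖ p l).valuation ((flEquiv γ).symm (flEquiv γ y)) < 1
      rwa [RingEquiv.symm_apply_apply])
  rw [← eq_ssW hI hCnt hV C hss hW2 hl (rowMul_ne_zero (lineVec_ne_zero l) _) ?_]
  · exact key x hx
  · have h := key _ (ssW_small hI hCnt hV C hss l)
    rwa [flEquiv_apply, ← C.coe_zq, C.act_zq hγ, C.coe_zq] at h

/-- **Scaling.** -/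
theorem fixesPt_scale {φ : flN N (constK A q) ≃+* flN N (constK A q)} {s : ℤ}
    (hsm : (m : ℤ) ∣ s - 1) (hφ : MovesCst φ) (hlam : φ (lamF hN hζ) = lamF hN hζ)
    (hX : ∀ v, φ (xF hN hζ v) = xF hN hζ (vscale s v)) : FixesPt φ p := by
  obtain ⟨a, ha⟩ := exists_coord_residue C.hC C.hp
  set w : chartF A q (coordB A q (lamF hN hζ) p.1) := ⟨_, self_mem_chart _⟩
  haveI := C.hp.1.isPrime
  set p' := p.2.comap (moveB hφ hlam p.1) with hp'
  have hϖ : cstB A q _ ϖ ∈ p' := by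
    rw [hp', Ideal.mem_comap]
    have h1 := add_mem (moveB_cstB_sub hφ hlam C.hC C.hp ϖ)
      ((cstB_mem_iff C.hC C.hp ϖ).2 (resO_pi C.hC))
    rwa [sub_add_cancel] at h1
  have ha' : w - cstB A q _ a ∈ p' := by
    rw [hp', Ideal.mem_comap, map_sub,
      show moveB hφ hlam p.1 w = w from Subtype.ext (fix_coordB hlam p.1)]
    have h1 := sub_mem ha (moveB_cstB_sub hφ hlam C.hC C.hp a)
    rwa [sub_sub, add_sub_cancel] at h1
  obtain ⟨σ, hσ, hσp⟩ := exists_conj_pt C.hz C.hC C.hp (Ideal.comap_isPrime _ p.2) a ha hϖ ha'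
  have hψc : MovesCst (σ.trans φ) := (movesCst_galLvl hσ).trans hφ
  have hψlam : (σ.trans φ) (lamF hN hζ) = lamF hN hζ := by
    rw [RingEquiv.trans_apply, show σ (lamF hN hζ) = lamF hN hζ from galLvl_coord C.hz hσ false,
      hlam]
  have hψ : FixesPt (σ.trans φ) p := fixesPt_of_le hψc hψlam C.hC C.hp fun x hx => by
    have h := (hσp x).1 hx
    rw [Ideal.mem_comap] at h
    convert h using 1
    exact Subtype.ext rfl
  obtain ⟨δ, hδ, hδσ⟩ := hσ
  have hσe : σ = flEquiv δ⁻¹ := hδσ.symm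
  have hkeep : C.KeepsRes δ⁻¹ := fun v hv => by
    obtain ⟨hl, he⟩ := fixes_res hψc hψlam C.hC C.hp hψ ⟨_, C.xF_mem_loc hv⟩
    rw [← he]
    refine congrArg _ (Subtype.ext ?_)
    show xF hN hζ (vmul v δ⁻¹) = φ (σ (xF hN hζ v))
    rw [hσe, flEquiv_apply, actX hN hζ (inv_mem hδ), hX]
    refine (xF_congr hN hζ ?_).symm
    have hw := not_not.1 (C.xF_vmul_mtor (γ := δ⁻¹) hv)
    simp only [Prod.smul_snd, smul_eq_mul] at hw
    rw [IsVec, not_not]
    refine ⟨by simp [vscale], ?_⟩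
    rw [Prod.snd_sub, show (vscale s (vmul v δ⁻¹)).2 = s * (vmul v δ⁻¹).2 from rfl, ← sub_one_mul]
    exact hw.2.trans (mul_dvd_mul_right hsm _)
  have hst : flEquiv δ⁻¹ ∈ stabSet (galLvl (N := N) A q 2) (ptSet p) := by
    rcases C.gamma_pm hkeep with h | h
    · exact gamma_mem_stab hI hCnt hV C hss h
    · rw [show flEquiv (N := N) (K := constK A q) δ⁻¹ = flEquiv (-δ⁻¹) from
        RingEquiv.ext fun x => (flAct_neg δ⁻¹ x).symm]
      exact gamma_mem_stab hI hCnt hV C hss h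
  rw [← hσe] at hst
  have hσs := (stabSet (galLvl A q 2) (ptSet p)).inv_mem hst
  refine fixesPt_of_le hφ hlam C.hC C.hp fun x hx => ?_
  have hy : galB C.hz hσs.1 p.1 x ∈ p.2 := (galB_mem_iff C.hz C.hC C.hp hσs x).2 hx
  refine (fixes_iff hψ (x := galB C.hz hσs.1 p.1 x) ?_).2 hy
  rw [coe_moveB, coe_galB, RingEquiv.trans_apply]
  exact congrArg φ (σ.apply_symm_apply (x : flN N (constK A q))).symm

theorem move_scale {φ : flN N (constK A q) ≃+* flN N (constK A q)} {s : ℤ}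
    (hφ : MovesCst φ) (hφ' : MovesCst φ.symm) (hlam : φ (lamF hN hζ) = lamF hN hζ)
    (hZ : ∀ v, φ (zF hN hζ v) = zF hN hζ (vscale s v)) (hf : FixesPt φ p) {t : ZMod q}
    (ht : t ≠ 0) (hs : (s : ZMod q) = t⁻¹) (l : Option (ZMod q)) {x : flN N (constK A q)}
    (hx : (ssW m ϖ p l).valuation x < 1) :
    (ssW m ϖ p (scaleLine t ht l)).valuation (φ x) < 1 := by
  obtain ⟨hW, -⟩ := ssW_spec hI hCnt hV C hss l
  have hW2 := verts_comap hφ' ((RingEquiv.symm_apply_eq _).2 hlam.symm) C.hC C.hp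
    (fixes_symm hφ hlam C.hC C.hp hf hφ') hW
  set W2 := (ssW m ϖ p l).comap (φ.symm : flN N (constK A q) →+* flN N (constK A q))
  have key : ∀ y, (ssW m ϖ p l).valuation y < 1 → W2.valuation (φ y) < 1 := fun y hy =>
    val_comap_lt.2 (by
      show (ssW m ϖ p l).valuation (φ.symm (φ y)) < 1
      rwa [RingEquiv.symm_apply_apply])
  obtain ⟨a, ha⟩ := exists_scaleLine t ht l
  have hu0 : ((lineVec l).1, t⁻¹ * (lineVec l).2) ≠ (0 : ZMod q × ZMod q) := fun h => by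
    simp only [Prod.ext_iff, Prod.fst_zero, Prod.snd_zero, mul_eq_zero, inv_eq_zero, ht,
      false_or] at h
    exact lineVec_ne_zero l (Prod.ext h.1 h.2)
  rw [← eq_ssW hI hCnt hV C hss hW2 ha hu0 ?_]
  · exact key x hx
  · have h := key _ (ssW_small hI hCnt hV C hss l)
    have hcong : ¬ IsVec N (vscale s (tq q m (lineVec l)) -
        tq q m ((lineVec l).1, t⁻¹ * (lineVec l).2)) := by
      simp only [tq_eq C.hNqm, vscale, mul_left_comm s (m : ℤ)]
      exact congr_of_zmod C.hNqm (by simp) (by simp [hs, ZMod.natCast_zmod_val])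
    rwa [hZ, zF_congr hcong] at h

end point

omit hCnt hV in
theorem mem_cases (hA : A.LiesOverPrime q) (hC : ConstHyp A (constL A q).toSubfield ϖ)
    (hϖ : A.valuation ((ϖ : Qb)) ^ (q - 1) = A.valuation (q : Qb)) (hq2 : q ≠ 2)
    (hNqm : N = q * m) (hqm : ¬ q ∣ m) (h4m : 4 ∣ m) (p : Pt A q (lamF hN hζ))
    (hp : IsPtF ϖ p) :
    IsCuspPt A q p ∨ ∃ C : OddCtx (hN := hN) (hζ := hζ) m p ϖ, True := by
  by_cases hc : IsCuspPt A q p
  · exact Or.inl hc
  · exact Or.inr ⟨⟨hA, hC, hϖ, hq2, hNqm, hqm, h4m, hI.coord, hp, hc⟩, trivial⟩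

theorem ptsHolds (hL : LocalHolds A q ϖ (lamF hN hζ) 2) (hA : A.LiesOverPrime q)
    (hC : ConstHyp A (constL A q).toSubfield ϖ)
    (hϖ : A.valuation ((ϖ : Qb)) ^ (q - 1) = A.valuation (q : Qb)) (hq2 : q ≠ 2)
    (hNqm : N = q * m) (hqm : ¬ q ∣ m) (h4m : 4 ∣ m) :
    PtsHolds ϖ (lamF hN hζ) m := by
  have hcases := mem_cases hI hA hC hϖ hq2 hNqm hqm h4m
  refine ⟨fun p hp => ?_, {p | SSPt m ϖ p}, ssW m ϖ, ?_⟩
  · rcases hcases p hp with hc | ⟨C, -⟩
    · exact (hI.cusp p hp hc).1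
    · by_cases h : (hasse q (IsLocalRing.ResidueField A)).eval C.val = 0
      · exact C.ss_local h hI hCnt hV hL
      · exact C.ord_local h hI hCnt hV hL
  refine ⟨fun p hp => hp.choose.hp, fun p ⟨C, hss⟩ l => ?_, fun p ⟨C, hss⟩ V hVv hT => ?_,
    fun p hp hnss V V' hV1 hV2 hT1 hT2 => ?_, ?_, ?_, fun t ht => ?_, fun t => ?_, fun t => ?_⟩
  · exact (ssW_spec hI hCnt hV C hss l).1
  · refine ⟨C.lineOf (W := V) ⟨hVv, hT⟩, eq_ssW hI hCnt hV C hss ⟨hVv, hT⟩ (one_smul _ _).symm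
      (lineVec_ne_zero _) ?_⟩
    rw [← C.coe_zq]
    exact (C.mem_kerR_iff_lt (C.above ⟨hVv, hT⟩)).1
      (OddCtx.IsKerLine.mem C (C.above ⟨hVv, hT⟩) (C.lineOf_spec ⟨hVv, hT⟩))
  · rcases hcases p hp with hc | ⟨C, -⟩
    · exact (hI.cusp p hp hc).2 V ⟨hV1, hT1⟩ V' ⟨hV2, hT2⟩
    · have h : (hasse q (IsLocalRing.ResidueField A)).eval C.val ≠ 0 := fun h => hnss ⟨C, h⟩
      exact (C.ord_count h hI hCnt hV).2.1 V ⟨hV1, hT1⟩ V' ⟨hV2, hT2⟩
  · rintro p ⟨C, hss⟩ p' ⟨C', hss'⟩ l l' e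
    obtain ⟨hWl, -⟩ := ssW_spec hI hCnt hV C hss l
    obtain ⟨hWl', -⟩ := ssW_spec hI hCnt hV C hss l'
    obtain ⟨σ, hσ, hσW⟩ := (C.ss_count hss hI hCnt hV).2.2.2 _ hWl _ hWl'
    obtain ⟨γ, hγ, he⟩ := C.exists_gamma ((stabSet (galLvl A q 2) (ptSet p)).inv_mem hσ)
    have hfix := fixesPt_gamma hI hCnt hV C' hss' hγ
    have hs := gamma_mem_stab hI hCnt hV C' hss' hγ
    obtain ⟨hW', -⟩ := ssW_spec hI hCnt hV C' hss' l
    rw [← e] at hW'
    have h2 := verts_comap (movesCst_galLvl hs.1) (galLvl_coord C'.hz hs.1 false) C'.hC C'.hp hfix hW'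
    have hcomap : ssW m ϖ p l' =
        (ssW m ϖ p l).comap
          (flEquiv (N := N) (K := constK A q) γ : flN N (constK A q) →+* flN N (constK A q)) := by
      ext y
      rw [ValuationSubring.mem_comap]
      show y ∈ _ ↔ flEquiv γ y ∈ _
      rw [← he]
      have := hσW (σ⁻¹ y)
      rwa [show σ (σ⁻¹ y) = y from σ.apply_symm_apply y] at this
    rw [← hcomap] at h2
    exact eq_ssW hI hCnt hV C' hss' h2 (one_smul _ _).symm (lineVec_ne_zero _)
      (ssW_small hI hCnt hV C hss l')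
  · rintro p ⟨C, hss⟩ p' ⟨C', hss'⟩ l l' e
    obtain ⟨hW, e1⟩ := ssW_spec hI hCnt hV C hss l
    have h' := ssW_small hI hCnt hV C' hss' l'
    rw [← e, ← C.coe_zq, ← C.mem_kerR_iff_lt (C.above hW)] at h'
    rw [← e1]
    exact (C.line_eq_of_mem (C.above hW) (C.lineOf_spec hW) h').symm
  · obtain ⟨s, hs, hsm⟩ := exists_scalar (q := q) hqm t⁻¹
    obtain ⟨φ, hfix, hφ, hφ', hlam, hX, hZ⟩ := exists_scaleAut (hN := hN) (hζ := hζ) hA hNqm hqm h4m
      (by rw [hs]; exact inv_ne_zero ht) hsm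
    refine ⟨φ, hfix, fun p ⟨C, hss⟩ => ?_⟩
    have hf := fixesPt_scale hI hCnt hV C hss hsm hφ hlam hX
    exact ⟨hf, fun l x hx => move_scale hI hCnt hV C hss hφ hφ' hlam hZ hf ht hs l hx⟩
  · obtain ⟨b, hb⟩ := coprime_lift hqm t
    have hk : (((m * b : ℕ) : ℤ) : ZMod q) = t := by rw [Int.cast_natCast, hb]
    refine ⟨((m * b : ℕ) : ℤ), ⟨(b : ℤ), by push_cast; ring⟩, hk, fun p ⟨C, hss⟩ =>
      ⟨fixesPt_gamma hI hCnt hV C hss (upU_mem b), fun l x hx => ?_⟩⟩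
    obtain ⟨a, ha⟩ := exists_upLine (q := q) _ ((m * b : ℕ) : ℤ) rfl l
    rw [hk] at ha
    exact move_gamma hI hCnt hV C hss (upU_mem b) l _ a ha hx
  · obtain ⟨b, hb⟩ := coprime_lift hqm t
    have hk : (((m * b : ℕ) : ℤ) : ZMod q) = t := by rw [Int.cast_natCast, hb]
    refine ⟨((m * b : ℕ) : ℤ), ⟨(b : ℤ), by push_cast; ring⟩, hk, fun p ⟨C, hss⟩ =>
      ⟨fixesPt_gamma hI hCnt hV C hss (lowU_mem b), fun l x hx => ?_⟩⟩
    obtain ⟨a, ha⟩ := exists_lowLine (q := q) _ ((m * b : ℕ) : ℤ) rfl l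
    rw [hk] at ha
    exact move_gamma hI hCnt hV C hss (lowU_mem b) l _ a ha hx

end FA.Carayol.OddP

namespace FA.Carayol

open CongruenceSubgroup ModularCurve FA.Level
open scoped MatrixGroups

local notation "Qb" => AlgebraicClosure ℚ

variable [Algebra Qb ℂ] {A : ValuationSubring Qb} {q : ℕ} {N g : ℕ} [NeZero N]
  {hN : N = 4 * g} {hζ : ∀ b : ℤ, FA.Mazur.Wp.eta N b ∈ constK A q}
  {ϖ : baseO A (constL A q).toSubfield}

/-- **The points for an odd prime.** -/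
theorem oddPtsHolds_of (hI : OddInftyHolds A q hN hζ ϖ)
    (hC : CountHolds A q ϖ (lamF hN hζ) 2) (hL : LocalHolds A q ϖ (lamF hN hζ) 2)
    (hV : VertHolds (N := N) A q) : OddPtsHolds A q hN hζ ϖ := by
  intro _ m hq2 hm hqm h4 hA hK hϖ
  have hI' := hI m hq2 hm hqm h4 hA hK hϖ
  exact OddP.ptsHolds hI' hC (hV ϖ hK 2 _ hI'.coord) hL hA hK hϖ hq2 hm hqm h4

end FA.Carayol

end
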