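import Fermat.Agent.Carayol.Final.Main
import Fermat.Agent.Carayol.OddInf.Main
import Fermat.Agent.Carayol.Count.Main
import Fermat.Agent.Carayol.Count.Local
import Fermat.Agent.Carayol.OddPts.Main

/-!
# The points at an odd prime, in all levels
-/

set_option autoImplicit false
set_option linter.unusedSectionVars false

noncomputable section

namespace FA.Carayol

open FA.Level FA.JTorsion FA.Mazur.Wp

/-- **The points at an odd prime.** -/
theorem oddPtsAll : OddPtsAll := by
  intro _ A q N g _ hN hζ ϖ _ m hq2 hm hqm h4 hA hC hϖ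
  exact oddPtsHolds_of (oddInfty A q hN hζ ϖ) (countHolds A q hA ϖ _ 2) (localHolds A q ϖ _ 2)
    (vertHolds A q N) m hq2 hm hqm h4 hA hC hϖ

end FA.Carayol

end
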