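import Fermat.Agent.Carayol.Model.PtDefs
import Fermat.Agent.Carayol.Vert.Main
import Fermat.Agent.CurveRed.Residue
import Mathlib.RingTheory.Valuation.LocalSubring

/-!
# The local ring at a point of the special fibre

Its elements, its residue map to the residue field of the constants, and the valuation rings above
it.
-/

set_option autoImplicit false
set_option linter.unusedSectionVars false
set_option linter.style.haveILetI false

noncomputable section

namespace FA.Carayol.OddP

open CongruenceSubgroup ModularCurve FA.Level Polynomial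
open scoped MatrixGroups

local notation "Qb" => AlgebraicClosure ℚ

variable [Algebra Qb ℂ] {A : ValuationSubring Qb} {q : ℕ} {N : ℕ} [NeZero N]
  {z : flN N (constK A q)} {ϖ : baseO A (constL A q).toSubfield}

/-- The polynomials in a coordinate, in its chart. -/
def polyB (w : flN N (constK A q)) :
    (baseO A (constL A q).toSubfield)[X] →+* chartF A q w :=
  (eval₂RingHom (cF A q N) w).codRestrict (chartF A q w)
    fun _ => RingHom.isIntegralElem_map _

theorem coe_polyB (w : flN N (constK A q)) (P : (baseO A (constL A q).toSubfield)[X]) :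
    (polyB w P : flN N (constK A q)) = P.eval₂ (cF A q N) w := rfl

theorem polyB_integral (w : flN N (constK A q)) : (polyB (A := A) (q := q) w).IsIntegral := fun x => by
  obtain ⟨P, hP, he⟩ := x.2
  refine ⟨P, hP, Subtype.ext ?_⟩
  rw [ZeroMemClass.coe_zero, ← he, ← Subring.coe_subtype, hom_eval₂]
  rfl

theorem cF_mem_chart (w : flN N (constK A q)) (a : baseO A (constL A q).toSubfield) :
    cF A q N a ∈ chartF A q w := by
  have h := (polyB w (C a)).2
  rwa [coe_polyB, eval₂_C] at h

theorem self_mem_chart (w : flN N (constK A q)) : w ∈ chartF A q w := by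
  have h := (polyB w (X : (baseO A (constL A q).toSubfield)[X])).2
  rwa [coe_polyB, eval₂_X] at h

/-- What is integral over the chart is in it. -/
theorem mem_chart_of_isIntegral {w : flN N (constK A q)} {x : flN N (constK A q)}
    (hx : IsIntegral (chartF A q w) x) : x ∈ chartF A q w := by
  letI : Algebra (baseO A (constL A q).toSubfield)[X] (chartF A q w) := (polyB w).toAlgebra
  letI : Algebra (baseO A (constL A q).toSubfield)[X] (flN N (constK A q)) :=
    (eval₂RingHom (cF A q N) w).toAlgebra
  haveI : IsScalarTower (baseO A (constL A q).toSubfield)[X] (chartF A q w) (flN N (constK A q)) :=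
    IsScalarTower.of_algebraMap_eq fun _ => rfl
  haveI : Algebra.IsIntegral (baseO A (constL A q).toSubfield)[X] (chartF A q w) :=
    ⟨polyB_integral w⟩
  exact isIntegral_trans (R := (baseO A (constL A q).toSubfield)[X]) x hx

/-- The constants are closed to residues. -/
theorem resO_surjective (hC : ConstHyp A (constL A q).toSubfield ϖ) :
    Function.Surjective (resO A q) := fun x => by
  obtain ⟨a, rfl⟩ := IsLocalRing.residue_surjective x
  obtain ⟨b, hb⟩ := hC.residue a a.2
  refine ⟨b, ?_⟩
  show IsLocalRing.residue A _ = IsLocalRing.residue A a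
  rw [← sub_eq_zero, ← map_sub, FA.CurveRed.residue_eq_zero_iff]
  show A.valuation ((b : Qb) - (a : Qb)) < 1
  rwa [Valuation.map_sub_swap]

/-- A constant with zero residue is a multiple of the uniformiser. -/
theorem resO_eq_zero_iff (hC : ConstHyp A (constL A q).toSubfield ϖ)
    {a : baseO A (constL A q).toSubfield} : resO A q a = 0 ↔ ϖ ∣ a := by
  haveI := hC.dvr
  refine ⟨fun h => ?_, fun ⟨b, hb⟩ => by rw [hb, map_mul, resO_pi hC, zero_mul]⟩
  rw [← Ideal.mem_span_singleton, ← hC.irreducible.maximalIdeal_eq, IsLocalRing.mem_maximalIdeal]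
  exact fun hu => resO_ne_of_isUnit hu h

theorem isUnit_of_resO_ne (hC : ConstHyp A (constL A q).toSubfield ϖ)
    {a : baseO A (constL A q).toSubfield} (h : resO A q a ≠ 0) : IsUnit a := by
  haveI := hC.dvr
  by_contra hu
  have hm : a ∈ IsLocalRing.maximalIdeal _ := (IsLocalRing.mem_maximalIdeal _).2 hu
  rw [hC.irreducible.maximalIdeal_eq, Ideal.mem_span_singleton] at hm
  exact h ((resO_eq_zero_iff hC).2 hm)

variable (A q) in
/-- The constants at the chart. -/
def cstB (w : flN N (constK A q)) : baseO A (constL A q).toSubfield →+* chartF A q w :=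
  (cF A q N).codRestrict (chartF A q w) (cF_mem_chart w)

theorem coe_cstB (w : flN N (constK A q)) (a : baseO A (constL A q).toSubfield) :
    (cstB A q w a : flN N (constK A q)) = cF A q N a := rfl

theorem cstB_eq (w : flN N (constK A q)) (a : baseO A (constL A q).toSubfield) :
    cstB A q w a = polyB w (C a) := Subtype.ext (by rw [coe_cstB, coe_polyB, eval₂_C])

section point

variable (hC : ConstHyp A (constL A q).toSubfield ϖ) {p : Pt A q z} (hp : IsPtF ϖ p)
include hC hp

theorem cstB_mem_iff (a : baseO A (constL A q).toSubfield) :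
    cstB A q _ a ∈ p.2 ↔ resO A q a = 0 := by
  obtain ⟨hmax, y, hy, hyϖ⟩ := hp
  constructor
  · intro h
    by_contra hne
    exact hmax.ne_top (Ideal.eq_top_of_isUnit_mem _ h ((isUnit_of_resO_ne hC hne).map _))
  · intro h
    obtain ⟨b, rfl⟩ := (resO_eq_zero_iff hC).1 h
    rw [map_mul]
    exact Ideal.mul_mem_right _ _ ((Subtype.ext hyϖ : y = cstB A q _ ϖ) ▸ hy)

theorem cstB_ker : RingHom.ker (resO A q) ≤
    RingHom.ker ((Ideal.Quotient.mk p.2).comp (cstB A q (coordB A q z p.1))) := fun a ha => by
  rw [RingHom.mem_ker, RingHom.comp_apply, Ideal.Quotient.eq_zero_iff_mem, cstB_mem_iff hC hp]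
  exact ha

/-- The residue field of the constants in the one of the point. -/
def kToPt : IsLocalRing.ResidueField A →+* chartF A q (coordB A q z p.1) ⧸ p.2 :=
  RingHom.liftOfRightInverse (resO A q) (Function.surjInv (resO_surjective hC))
    (Function.rightInverse_surjInv (resO_surjective hC))
    ⟨(Ideal.Quotient.mk p.2).comp (cstB A q (coordB A q z p.1)), cstB_ker hC hp⟩

theorem kToPt_resO (a : baseO A (constL A q).toSubfield) :
    kToPt hC hp (resO A q a) = Ideal.Quotient.mk p.2 (cstB A q _ a) :=
  RingHom.liftOfRightInverse_comp_apply _ _ _ _ a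

/-- The coordinate has a constant residue. -/
theorem exists_coord_residue : ∃ a : baseO A (constL A q).toSubfield,
    (⟨_, self_mem_chart _⟩ : chartF A q (coordB A q z p.1)) - cstB A q _ a ∈ p.2 := by
  haveI : IsAlgClosed (IsLocalRing.ResidueField A) := FA.CurveRed.isAlgClosed_residueField A
  haveI := hp.1
  set J := p.2.comap (polyB (coordB A q z p.1))
  have hJ : J.IsMaximal :=
    Ideal.isMaximal_comap_of_isIntegral_of_isMaximal' _ (polyB_integral _) p.2
  set g : (baseO A (constL A q).toSubfield)[X] →+* (IsLocalRing.ResidueField A)[X] :=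
    mapRingHom (resO A q) with hg
  have hgs : Function.Surjective g := Polynomial.map_surjective _ (resO_surjective hC)
  have hker : RingHom.ker g ≤ J := fun P hP => by
    have hc : ∀ n, ϖ ∣ P.coeff n := fun n => by
      refine (resO_eq_zero_iff hC).1 ?_
      have := congrArg (fun Q : (IsLocalRing.ResidueField A)[X] => Q.coeff n) (RingHom.mem_ker.1 hP)
      simpa [hg] using this
    obtain ⟨R, rfl⟩ := C_dvd_iff_dvd_coeff ϖ P |>.2 hc
    refine Ideal.mul_mem_right _ _ ?_
    show polyB _ (C ϖ) ∈ p.2
    rw [← cstB_eq, cstB_mem_iff hC hp]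
    exact resO_pi hC
  haveI hM : (J.map g).IsMaximal :=
    (Ideal.map_eq_top_or_isMaximal_of_surjective g hgs hJ).resolve_left fun h => by
      apply hJ.ne_top
      have h1 := congrArg (Ideal.comap g) h
      rw [Ideal.comap_map_of_surjective g hgs, ← RingHom.ker_eq_comap_bot, Ideal.comap_top,
        sup_eq_left.2 hker] at h1
      exact h1
  obtain ⟨P, hP⟩ := IsPrincipalIdealRing.principal (J.map g)
  rw [Ideal.submodule_span_eq] at hP
  have hP0 : P ≠ 0 := by
    intro h0
    rw [h0, Ideal.span_singleton_zero] at hP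
    exact Ring.ne_bot_of_isMaximal_of_not_isField hM (Polynomial.not_isField _) hP
  have hdeg : P.degree ≠ 0 := fun h0 =>
    hM.ne_top (by rw [hP, Ideal.span_singleton_eq_top, isUnit_iff_degree_eq_zero]; exact h0)
  obtain ⟨c, hc⟩ := IsAlgClosed.exists_root P hdeg
  obtain ⟨a, rfl⟩ := resO_surjective hC c
  have hmem : g (X - C a) ∈ J.map g := by
    have hle : J.map g ≤ Ideal.span {X - C (resO A q a)} := by
      rw [hP, Ideal.span_singleton_le_span_singleton]
      exact dvd_iff_isRoot.2 hc
    have hne : Ideal.span {X - C (resO A q a)} ≠ ⊤ := by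
      rw [Ne, Ideal.span_singleton_eq_top]
      exact not_isUnit_X_sub_C _
    rw [hM.eq_of_le hne hle, hg, coe_mapRingHom, Polynomial.map_sub, Polynomial.map_X,
      Polynomial.map_C]
    exact Ideal.mem_span_singleton_self _
  have hmem' : X - C a ∈ J := by
    have h1 : X - C a ∈ (J.map g).comap g := hmem
    rwa [Ideal.comap_map_of_surjective g hgs, ← RingHom.ker_eq_comap_bot, sup_eq_left.2 hker] at h1
  refine ⟨a, ?_⟩
  have h2 : polyB (coordB A q z p.1) (X - C a) ∈ p.2 := hmem'
  convert h2 using 1
  refine Subtype.ext ?_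
  rw [coe_polyB, AddSubgroupClass.coe_sub, coe_cstB, eval₂_sub, eval₂_X, eval₂_C]

theorem kToPt_bijective : Function.Bijective (kToPt hC hp) := by
  haveI : IsAlgClosed (IsLocalRing.ResidueField A) := FA.CurveRed.isAlgClosed_residueField A
  haveI := hp.1
  letI := Ideal.Quotient.field p.2
  refine ⟨(kToPt hC hp).injective, fun y => ?_⟩
  obtain ⟨x, rfl⟩ := Ideal.Quotient.mk_surjective y
  obtain ⟨a, ha⟩ := exists_coord_residue hC hp
  obtain ⟨P, hP, he⟩ := polyB_integral (coordB A q z p.1) x
  set f : (baseO A (constL A q).toSubfield)[X] →+* IsLocalRing.ResidueField A :=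
    (resO A q).comp (evalRingHom a)
  have hcomp : (Ideal.Quotient.mk p.2).comp (polyB (coordB A q z p.1)) = (kToPt hC hp).comp f := by
    refine Polynomial.ringHom_ext (fun c => ?_) ?_
    · simp only [f, RingHom.comp_apply, coe_evalRingHom, eval_C, kToPt_resO, cstB_eq]
    · simp only [f, RingHom.comp_apply, coe_evalRingHom, eval_X, kToPt_resO]
      refine Ideal.Quotient.eq.2 ?_
      convert ha using 2
      exact Subtype.ext (by rw [coe_polyB, eval₂_X])
  have he' := congrArg (Ideal.Quotient.mk p.2) he
  rw [hom_eval₂, map_zero, hcomp, ← eval₂_map,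
    (IsAlgClosed.splits (P.map f)).eq_prod_roots_of_monic (hP.map f), eval₂_multiset_prod,
    Multiset.prod_eq_zero_iff, Multiset.map_map, Multiset.mem_map] at he'
  obtain ⟨r, -, hr⟩ := he'
  refine ⟨r, ?_⟩
  simp only [Function.comp_apply, eval₂_sub, eval₂_X, eval₂_C, sub_eq_zero] at hr
  exact hr.symm

/-- The residue at a point. -/
def ptResB : chartF A q (coordB A q z p.1) →+* IsLocalRing.ResidueField A :=
  (RingEquiv.ofBijective (kToPt hC hp) (kToPt_bijective hC hp)).symm.toRingHom.comp
    (Ideal.Quotient.mk p.2)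

theorem ptResB_cstB (a : baseO A (constL A q).toSubfield) :
    ptResB hC hp (cstB A q _ a) = resO A q a := by
  simp only [ptResB, RingHom.comp_apply, RingEquiv.toRingHom_eq_coe, RingEquiv.coe_toRingHom,
    RingEquiv.symm_apply_eq, RingEquiv.ofBijective_apply, kToPt_resO]

theorem ptResB_eq_zero {x : chartF A q (coordB A q z p.1)} : ptResB hC hp x = 0 ↔ x ∈ p.2 := by
  simp only [ptResB, RingHom.comp_apply, RingEquiv.toRingHom_eq_coe, RingEquiv.coe_toRingHom,
    map_eq_zero_iff _ (RingEquiv.injective _), Ideal.Quotient.eq_zero_iff_mem]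

theorem exists_pt_residue (x : chartF A q (coordB A q z p.1)) :
    ∃ a, x - cstB A q _ a ∈ p.2 := by
  obtain ⟨a, ha⟩ := resO_surjective hC (ptResB hC hp x)
  refine ⟨a, ?_⟩
  rw [← ptResB_eq_zero hC hp, map_sub, ptResB_cstB, ha, sub_self]

omit hC in
/-- The local ring. -/
def locPt : Subring (flN N (constK A q)) where
  carrier := {x | InLoc p x}
  one_mem' := ⟨1, 1, fun h => hp.1.ne_top (Ideal.eq_top_of_isUnit_mem _ h isUnit_one), by simp⟩
  zero_mem' := ⟨0, 1, fun h => hp.1.ne_top (Ideal.eq_top_of_isUnit_mem _ h isUnit_one), by simp⟩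
  add_mem' := by
    rintro x y ⟨a, c, hc, h⟩ ⟨b, d, hd, h'⟩
    refine ⟨a * d + b * c, c * d, fun hm => (hp.1.isPrime.mem_or_mem hm).elim hc hd, ?_⟩
    push_cast
    rw [← h, ← h']
    ring
  mul_mem' := by
    rintro x y ⟨a, c, hc, h⟩ ⟨b, d, hd, h'⟩
    refine ⟨a * b, c * d, fun hm => (hp.1.isPrime.mem_or_mem hm).elim hc hd, ?_⟩
    push_cast
    rw [← h, ← h']
    ring
  neg_mem' := by
    rintro x ⟨a, c, hc, h⟩
    exact ⟨-a, c, hc, by push_cast; rw [← h, neg_mul]⟩

omit hC in
theorem chart_le_loc : chartF A q (coordB A q z p.1) ≤ locPt hp := fun x hx =>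
  ⟨⟨x, hx⟩, 1, fun h => hp.1.ne_top (Ideal.eq_top_of_isUnit_mem _ h isUnit_one), by simp⟩

omit hC in
theorem inv_mem_loc {c : chartF A q (coordB A q z p.1)} (hc : c ∉ p.2) :
    (c : flN N (constK A q))⁻¹ ∈ locPt hp := by
  refine ⟨1, c, hc, ?_⟩
  rw [OneMemClass.coe_one, inv_mul_cancel₀]
  exact fun h => hc ((Subtype.ext h : c = 0) ▸ p.2.zero_mem)

/-- The residue as a fraction. -/
def ptResFun (x : locPt hp) : IsLocalRing.ResidueField A :=
  ptResB hC hp x.2.choose / ptResB hC hp x.2.choose_spec.choose

theorem ptResFun_eq {x : locPt hp} {a c : chartF A q (coordB A q z p.1)} (hc : c ∉ p.2)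
    (h : (x : flN N (constK A q)) * c = a) :
    ptResFun hC hp x = ptResB hC hp a / ptResB hC hp c := by
  obtain ⟨hd, h'⟩ := x.2.choose_spec.choose_spec
  rw [ptResFun, div_eq_div_iff (mt (ptResB_eq_zero hC hp).1 hd) (mt (ptResB_eq_zero hC hp).1 hc),
    ← map_mul, ← map_mul]
  refine congrArg _ (Subtype.ext ?_)
  push_cast
  linear_combination ((x.2.choose_spec.choose : chartF A q (coordB A q z p.1)) : flN N (constK A q))
    * h - (c : flN N (constK A q)) * h'

/-- **The residue map of the local ring.** -/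
def ptRes : locPt hp →+* IsLocalRing.ResidueField A where
  toFun := ptResFun hC hp
  map_one' := by
    rw [ptResFun_eq hC hp (a := 1) (c := 1)
      (fun h => hp.1.ne_top (Ideal.eq_top_of_isUnit_mem _ h isUnit_one)) (by simp), map_one, div_one]
  map_zero' := by
    rw [ptResFun_eq hC hp (a := 0) (c := 1)
      (fun h => hp.1.ne_top (Ideal.eq_top_of_isUnit_mem _ h isUnit_one)) (by simp), map_zero,
      zero_div]
  map_add' x y := by
    obtain ⟨a, c, hc, h⟩ := x.2
    obtain ⟨b, d, hd, h'⟩ := y.2
    rw [ptResFun_eq hC hp hc h, ptResFun_eq hC hp hd h',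
      ptResFun_eq hC hp (a := a * d + b * c) (c := c * d)
        (fun hm => (hp.1.isPrime.mem_or_mem hm).elim hc hd) (by push_cast; rw [← h, ← h']; ring),
      div_add_div _ _ (mt (ptResB_eq_zero hC hp).1 hc) (mt (ptResB_eq_zero hC hp).1 hd)]
    simp only [map_add, map_mul]
    ring
  map_mul' x y := by
    obtain ⟨a, c, hc, h⟩ := x.2
    obtain ⟨b, d, hd, h'⟩ := y.2
    rw [ptResFun_eq hC hp hc h, ptResFun_eq hC hp hd h',
      ptResFun_eq hC hp (a := a * b) (c := c * d)
        (fun hm => (hp.1.isPrime.mem_or_mem hm).elim hc hd) (by push_cast; rw [← h, ← h']; ring),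
      div_mul_div_comm]
    simp only [map_mul]

theorem ptRes_chart (x : chartF A q (coordB A q z p.1)) :
    ptRes hC hp ⟨x, chart_le_loc hp x.2⟩ = ptResB hC hp x := by
  show ptResFun hC hp _ = _
  rw [ptResFun_eq hC hp (a := x) (c := 1)
    (fun h => hp.1.ne_top (Ideal.eq_top_of_isUnit_mem _ h isUnit_one)) (by simp), map_one, div_one]

theorem ptRes_cF (a : baseO A (constL A q).toSubfield) :
    ptRes hC hp ⟨cF A q N a, chart_le_loc hp (cF_mem_chart _ a)⟩ = resO A q a := by
  rw [← ptResB_cstB hC hp a, ← ptRes_chart]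
  rfl

omit hC in
/-- The valuation rings above the local ring. -/
def AbovePt (R : ValuationSubring (flN N (constK A q))) : Prop :=
  ∀ x ∈ locPt hp, x ∈ R

/-- The valuation rings centred at the point. -/
def CentredPt (R : ValuationSubring (flN N (constK A q))) : Prop :=
  AbovePt hp R ∧ ∀ x : locPt hp, ptRes hC hp x = 0 → R.valuation (x : flN N (constK A q)) < 1

theorem ptRes_eq_zero_of_lt {R : ValuationSubring (flN N (constK A q))} (hR : AbovePt hp R)
    {x : locPt hp} (hx : R.valuation (x : flN N (constK A q)) < 1) : ptRes hC hp x = 0 := by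
  by_contra hne
  obtain ⟨a, c, hc, h⟩ := x.2
  have ha : a ∉ p.2 := fun hm => hne (by
    show ptResFun hC hp x = 0
    rw [ptResFun_eq hC hp hc h, (ptResB_eq_zero hC hp).2 hm, zero_div])
  have hinv : (x : flN N (constK A q))⁻¹ ∈ R := by
    refine hR _ ?_
    have e : (x : flN N (constK A q))⁻¹ = (c : flN N (constK A q)) * (a : flN N (constK A q))⁻¹ := by
      rw [← h, mul_inv, mul_left_comm, mul_inv_cancel₀
        (fun e => hc ((Subtype.ext e : c = 0) ▸ p.2.zero_mem)), mul_one]
    rw [e]
    exact mul_mem (chart_le_loc hp c.2) (inv_mem_loc hp ha)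
  rcases val_lt_one_iff_inv.1 hx with h0 | h0
  · refine hne ?_
    rw [show x = 0 from Subtype.ext h0, map_zero]
  · exact h0 hinv

theorem CentredPt.lt_iff {R : ValuationSubring (flN N (constK A q))} (hR : CentredPt hC hp R)
    (x : locPt hp) : R.valuation (x : flN N (constK A q)) < 1 ↔ ptRes hC hp x = 0 :=
  ⟨ptRes_eq_zero_of_lt hC hp hR.1, hR.2 x⟩

theorem CentredPt.centre {R : ValuationSubring (flN N (constK A q))} (hR : CentredPt hC hp R)
    (x : chartF A q (coordB A q z p.1)) : R.valuation (x : flN N (constK A q)) < 1 ↔ x ∈ p.2 := by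
  rw [← ptResB_eq_zero hC hp, ← ptRes_chart, ← hR.lt_iff]

/-- A valuation ring centred at the point inside a given one. -/
theorem exists_centred_le {R : ValuationSubring (flN N (constK A q))} (hR : AbovePt hp R) :
    ∃ V ≤ R, CentredPt hC hp V := by
  have hsub : ∀ l : flN N (constK A q), l ∈ locPt hp → R.valuation l ≤ 1 :=
    fun l hl => (R.valuation_le_one_iff l).2 (hR l hl)
  let T : Subring (flN N (constK A q)) :=
    { carrier := {x | ∃ l : locPt hp, R.valuation (x - l) < 1}
      one_mem' := ⟨1, by simp⟩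
      zero_mem' := ⟨0, by simp⟩
      add_mem' := by
        rintro x y ⟨l, hl⟩ ⟨k, hk⟩
        refine ⟨l + k, ?_⟩
        push_cast
        rw [add_sub_add_comm]
        exact R.valuation.map_add_lt hl hk
      mul_mem' := by
        rintro x y ⟨l, hl⟩ ⟨k, hk⟩
        refine ⟨l * k, ?_⟩
        push_cast
        rw [show x * y - (l : flN N (constK A q)) * k = (x - l) * y + l * (y - k) by ring]
        have hy : R.valuation y ≤ 1 := by
          rw [← sub_add_cancel y (k : flN N (constK A q))]
          exact R.valuation.map_add_le hk.le (hsub _ k.2)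
        refine R.valuation.map_add_lt ?_ ?_ <;> rw [map_mul]
        · exact (mul_le_of_le_one_right' hy).trans_lt hl
        · exact (mul_le_of_le_one_left' (hsub _ l.2)).trans_lt hk
      neg_mem' := by
        rintro x ⟨l, hl⟩
        refine ⟨-l, ?_⟩
        push_cast
        rwa [← neg_sub', Valuation.map_neg] }
  have hlocT : ∀ l : locPt hp, (l : flN N (constK A q)) ∈ T := fun l => ⟨l, by simp⟩
  have hT1 : ∀ x ∈ T, R.valuation x ≤ 1 := fun x ⟨l, hl⟩ => by
    rw [← sub_add_cancel x (l : flN N (constK A q))]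
    exact R.valuation.map_add_le hl.le (hsub _ l.2)
  let I : Ideal T :=
    { carrier := {x | ∃ l : locPt hp, ptRes hC hp l = 0 ∧
        R.valuation ((x : flN N (constK A q)) - l) < 1}
      zero_mem' := ⟨0, map_zero _, by simp⟩
      add_mem' := by
        rintro x y ⟨l, hl0, hl⟩ ⟨k, hk0, hk⟩
        refine ⟨l + k, by rw [map_add, hl0, hk0, add_zero], ?_⟩
        push_cast
        rw [add_sub_add_comm]
        exact R.valuation.map_add_lt hl hk
      smul_mem' := by
        rintro ⟨c, m, hm⟩ x ⟨l, hl0, hl⟩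
        refine ⟨m * l, by rw [map_mul, hl0, mul_zero], ?_⟩
        show R.valuation (c * (x : flN N (constK A q)) - ((m : flN N (constK A q)) * l)) < 1
        rw [show c * (x : flN N (constK A q)) - (m : flN N (constK A q)) * l =
          (c - m) * x + m * ((x : flN N (constK A q)) - l) by ring]
        refine R.valuation.map_add_lt ?_ ?_ <;> rw [map_mul]
        · exact (mul_le_of_le_one_right' (hT1 _ x.2)).trans_lt hm
        · exact (mul_le_of_le_one_left' (hsub _ m.2)).trans_lt hl }
  have hI : I ≠ ⊤ := fun h => by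
    obtain ⟨l, hl0, hl⟩ : (1 : T) ∈ I := h ▸ Submodule.mem_top
    have h1 := ptRes_eq_zero_of_lt hC hp hR (x := 1 - l) (by push_cast; exact hl)
    rw [map_sub, map_one, hl0, sub_zero] at h1
    exact one_ne_zero h1
  obtain ⟨V, hTV, hIV⟩ := Ideal.image_subset_nonunits_valuationSubring I hI
  have hsmallV : ∀ x, R.valuation x < 1 → V.valuation x < 1 := fun x hx => by
    rw [← ValuationSubring.mem_nonunits_iff]
    exact hIV ⟨⟨x, 0, by simpa using hx⟩, ⟨0, map_zero _, by simpa using hx⟩, rfl⟩
  refine ⟨V, fun x hx => ?_, fun l hl => hTV (hlocT ⟨l, hl⟩), fun l hl => ?_⟩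
  · by_contra hxR
    have hx0 : x ≠ 0 := fun e => hxR (e ▸ zero_mem R)
    have h1 : R.valuation x⁻¹ < 1 := by
      rw [map_inv₀]
      exact inv_lt_one_of_one_lt₀ (lt_of_not_ge fun h => hxR ((R.valuation_le_one_iff x).1 h))
    rcases val_lt_one_iff_inv.1 (hsmallV _ h1) with h | h
    · exact inv_ne_zero hx0 h
    · exact h (by rwa [inv_inv])
  · rw [← ValuationSubring.mem_nonunits_iff]
    exact hIV ⟨⟨l, hlocT l⟩, ⟨l, hl, by simp⟩, rfl⟩

omit hC in
/-- **The local ring is the intersection of the valuation rings above it.** -/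
theorem mem_loc_of_forall {x : flN N (constK A q)}
    (h : ∀ R, AbovePt hp R → x ∈ R) : InLoc p x := by
  haveI := hp.1.isPrime
  haveI : IsIntegrallyClosedIn (locPt hp) (flN N (constK A q)) := by
    refine Subring.isIntegrallyClosedIn_iff.2 fun {y} hy => ?_
    obtain ⟨P, hP, he⟩ := hy
    classical
    -- clear the denominators
    have hden : ∃ c : chartF A q (coordB A q z p.1), c ∉ p.2 ∧
        ∀ i, ((P.coeff i : locPt hp) : flN N (constK A q)) * c ∈ chartF A q (coordB A q z p.1) := by
      choose a c hc h using fun i => (P.coeff i).2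
      refine ⟨∏ i ∈ P.support, c i, fun hm => ?_, fun i => ?_⟩
      · obtain ⟨i, -, hi⟩ := hp.1.isPrime.prod_mem_iff.1 hm
        exact hc i hi
      · by_cases hi : i ∈ P.support
        · rw [← Finset.mul_prod_erase _ _ hi]
          push_cast
          rw [← mul_assoc, h i]
          exact mul_mem (a i).2 (prod_mem fun j _ => (c j).2)
        · rw [notMem_support_iff.1 hi, ZeroMemClass.coe_zero, zero_mul]
          exact zero_mem _
    obtain ⟨c, hc, hcP⟩ := hden
    have hcy : (c : flN N (constK A q)) * y ∈ chartF A q (coordB A q z p.1) := by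
      refine mem_chart_of_isIntegral ?_
      have h1 : IsIntegral (chartF A q (coordB A q z p.1)) ((c : flN N (constK A q)) * y) := by
        set n := P.natDegree
        set S : (chartF A q (coordB A q z p.1))[X] := X ^ n + ∑ i ∈ Finset.range n,
          C (⟨_, hcP i⟩ * c ^ (n - i - 1)) * X ^ i
        refine ⟨S, monic_X_pow_add ((degree_sum_le _ _).trans_lt
          ((Finset.sup_lt_iff (WithBot.bot_lt_coe n)).2 fun i hi =>
            (degree_C_mul_X_pow_le _ _).trans_lt (Nat.cast_lt.2 (Finset.mem_range.1 hi)))), ?_⟩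
        rw [eval₂_eq_sum_range, Finset.sum_range_succ, hP.coeff_natDegree, map_one, one_mul] at he
        simp only [S, eval₂_add, eval₂_pow, eval₂_X, eval₂_finsetSum, eval₂_mul, eval₂_C]
        have : ∀ i ∈ Finset.range n, algebraMap (chartF A q (coordB A q z p.1)) (flN N (constK A q))
            (⟨_, hcP i⟩ * c ^ (n - i - 1)) * ((c : flN N (constK A q)) * y) ^ i =
              (c : flN N (constK A q)) ^ n *
                (algebraMap (locPt hp) (flN N (constK A q)) (P.coeff i) * y ^ i) := fun i hi => by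
          have hin := Finset.mem_range.1 hi
          show ((P.coeff i : locPt hp) : flN N (constK A q)) * c *
            (c : flN N (constK A q)) ^ (n - i - 1) * _ = _ * (((P.coeff i : locPt hp) : _) * _)
          rw [mul_pow, show n = i + ((n - i - 1) + 1) by omega, pow_add _ i, pow_add _ (n - i - 1)]
          simp only [show i + ((n - i - 1) + 1) - i - 1 = n - i - 1 by omega, pow_one]
          ring
        rw [Finset.sum_congr rfl this, ← Finset.mul_sum, mul_pow, ← mul_add, add_comm, he, mul_zero]
      exact h1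
    exact ⟨⟨_, hcy⟩, c, hc, mul_comm _ _⟩
  by_contra hx
  obtain ⟨V, hV, hxV⟩ := Subring.exists_le_valuationSubring_of_isIntegrallyClosedIn
    (R := locPt hp) (x := x) hx
  exact hxV (h V fun y hy => hV hy)

end point

/-- Reflection of the coordinate. -/
theorem eval_inv_mul_pow {w : flN N (constK A q)} (hw : w ≠ 0)
    (P : (baseO A (constL A q).toSubfield)[X]) :
    P.eval₂ (cF A q N) w⁻¹ * w ^ P.natDegree = P.reverse.eval₂ (cF A q N) w := by
  letI : Invertible w⁻¹ := invertibleOfNonzero (inv_ne_zero hw)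
  have h := eval₂_reverse_mul_pow (cF A q N) w⁻¹ P
  rw [invOf_eq_inv, inv_inv] at h
  rw [← h, mul_assoc, ← mul_pow, inv_mul_cancel₀ hw, one_pow, mul_one]

/-- A component in one coordinate is one in the other. -/
theorem vert_coordB {W : ValuationSubring (flN N (constK A q))} (hW : IsVertF A q ϖ z W)
    (b : Bool) : IsVertF A q ϖ (coordB A q z b) W := by
  cases b
  · exact hW
  refine ⟨hW.1, fun P ⟨i, hi⟩ => ?_⟩
  have hz : W.valuation z = 1 := by
    have h := hW.2 X ⟨1, by rw [coeff_X_one]; exact isUnit_one⟩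
    rwa [eval₂_X] at h
  have hz0 : z ≠ 0 := fun h => by simp [h] at hz
  have hr := hW.2 P.reverse ⟨revAt P.natDegree i, by rw [coeff_reverse, revAt_invol]; exact hi⟩
  rw [← eval_inv_mul_pow hz0, map_mul, map_pow, hz, one_pow, mul_one] at hr
  exact hr

theorem vert_mem_chart (hC : ConstHyp A (constL A q).toSubfield ϖ)
    {W : ValuationSubring (flN N (constK A q))} (hW : IsVertF A q ϖ z W) (b : Bool)
    {x : flN N (constK A q)} (hx : x ∈ chartF A q (FA.Carayol.coordB A q z b)) : x ∈ W := by
  obtain ⟨P, hP, he⟩ := hx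
  let g : (baseO A (constL A q).toSubfield)[X] →+* W :=
    (eval₂RingHom (cF A q N) (FA.Carayol.coordB A q z b)).codRestrict W.toSubring
      (poly_mem hC (vert_coordB hW b))
  have hint : IsIntegral W x := ⟨P.map g, hP.map _, by
    rw [eval₂_map]
    exact he⟩
  obtain ⟨y, hy⟩ := IsIntegrallyClosed.isIntegral_iff.1 hint
  exact hy ▸ y.2

/-- A component through a point is above its local ring. -/
theorem abovePt_of_thru (hC : ConstHyp A (constL A q).toSubfield ϖ) {p : Pt A q z}
    (hp : IsPtF ϖ p) {W : ValuationSubring (flN N (constK A q))} (hW : IsVertF A q ϖ z W)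
    (hT : Thru p W) : AbovePt hp W := by
  rintro x ⟨a, c, hc, h⟩
  have hcW : W.valuation (c : flN N (constK A q)) = 1 :=
    le_antisymm ((W.valuation_le_one_iff _).2 (vert_mem_chart hC hW p.1 c.2))
      (not_lt.1 fun hlt => hc (hT c hlt))
  have h1 := congrArg W.valuation h
  rw [map_mul, hcW, mul_one] at h1
  rw [← W.valuation_le_one_iff, h1]
  exact (W.valuation_le_one_iff _).2 (vert_mem_chart hC hW p.1 a.2)

end FA.Carayol.OddP

end
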