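import Fermat.Agent.Carayol.Model.OddDefs
import Fermat.Agent.Carayol.OddPts.Local
import Fermat.Agent.Carayol.OddInf.Ints
import Fermat.Agent.Carayol.Curve.Kernel
import Fermat.Agent.Carayol.Curve.Psi
import Fermat.Agent.Carayol.Hasse.Main

/-!
# A point away from the cusps: the coordinate, its value and the division polynomial
-/

set_option autoImplicit false
set_option linter.unusedSectionVars false
set_option linter.style.haveILetI false

noncomputable section

namespace FA.Carayol.OddP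

open CongruenceSubgroup ModularCurve FA.Level Polynomial
open scoped MatrixGroups

local notation "Qb" => AlgebraicClosure ℚ

variable [Algebra Qb ℂ] {A : ValuationSubring Qb} {q : ℕ} [hq : Fact q.Prime] {N g : ℕ} [NeZero N]
  {hN : N = 4 * g} {hζ : ∀ b : ℤ, FA.Mazur.Wp.eta N b ∈ constK A q}
  {ϖ : baseO A (constL A q).toSubfield}

section general

variable {z : flN N (constK A q)} (hC : ConstHyp A (constL A q).toSubfield ϖ) {p : Pt A q z}
  (hp : IsPtF ϖ p)
include hC hp

theorem locRes_eq {x : locPt hp} {a c : chartF A q (coordB A q z p.1)} (hc : c ∉ p.2)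
    (h : (x : flN N (constK A q)) * c = a) :
    ptRes hC hp x = ptResB hC hp a / ptResB hC hp c :=
  ptResFun_eq hC hp hc h

theorem inv_mem_of_ptRes_ne {x : locPt hp} (hx : ptRes hC hp x ≠ 0) :
    (x : flN N (constK A q))⁻¹ ∈ locPt hp := by
  obtain ⟨a, c, hc, h⟩ := x.2
  have ha : a ∉ p.2 := fun hm => hx (by
    rw [locRes_eq hC hp hc h, (ptResB_eq_zero hC hp).2 hm, zero_div])
  have hc0 : (c : flN N (constK A q)) ≠ 0 := fun e =>
    hc ((Subtype.ext e : c = 0) ▸ p.2.zero_mem)
  rw [show (x : flN N (constK A q))⁻¹ = (c : flN N (constK A q)) * (a : flN N (constK A q))⁻¹ by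
    rw [← h, mul_inv, mul_left_comm, mul_inv_cancel₀ hc0, mul_one]]
  exact mul_mem (chart_le_loc hp c.2) (inv_mem_loc hp ha)

theorem val_eq_one_of_ptRes_ne {R : ValuationSubring (flN N (constK A q))} (hR : AbovePt hp R)
    {x : locPt hp} (hx : ptRes hC hp x ≠ 0) : R.valuation (x : flN N (constK A q)) = 1 :=
  le_antisymm ((R.valuation_le_one_iff _).2 (hR _ x.2))
    (not_lt.1 fun h => hx (ptRes_eq_zero_of_lt hC hp hR h))

variable (A q) in
/-- The constants in the local ring. -/
def cstL : baseO A (constL A q).toSubfield →+* locPt hp :=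
  (cF A q N).codRestrict (locPt hp) fun a => chart_le_loc hp (cF_mem_chart _ a)

theorem coe_cstL (a : baseO A (constL A q).toSubfield) :
    (cstL A q hp a : flN N (constK A q)) = cF A q N a := rfl

theorem ptRes_cstL (a : baseO A (constL A q).toSubfield) :
    ptRes hC hp (cstL A q hp a) = resO A q a := ptRes_cF hC hp a

theorem val_cF_unit {R : ValuationSubring (flN N (constK A q))} (hR : AbovePt hp R)
    {a : baseO A (constL A q).toSubfield} (ha : IsUnit a) : R.valuation (cF A q N a) = 1 := by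
  rw [← coe_cstL hC hp a]
  refine val_eq_one_of_ptRes_ne hC hp hR ?_
  rw [ptRes_cstL]
  exact resO_ne_of_isUnit ha

theorem val_cF_le {R : ValuationSubring (flN N (constK A q))} (hR : AbovePt hp R)
    (a : baseO A (constL A q).toSubfield) : R.valuation (cF A q N a) ≤ 1 :=
  (R.valuation_le_one_iff _).2 (hR _ (cstL A q hp a).2)

theorem val_cF_pi {V : ValuationSubring (flN N (constK A q))} (hV : CentredPt hC hp V) :
    V.valuation (cF A q N ϖ) < 1 :=
  hV.2 (cstL A q hp ϖ) (by rw [ptRes_cstL]; exact resO_pi hC)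

theorem val_natCast {R : ValuationSubring (flN N (constK A q))} (hR : AbovePt hp R)
    (hA : A.LiesOverPrime q) {n : ℕ} (hn : ¬ q ∣ n) :
    R.valuation (n : flN N (constK A q)) = 1 := by
  rw [← map_natCast (cF A q N)]
  exact val_cF_unit hC hp hR (isUnit_natCast_base hA hn)

end general

/-- The standing hypotheses at a point away from the cusps. -/
structure OddCtx (m : ℕ) (p : Pt A q (lamF hN hζ)) (ϖ : baseO A (constL A q).toSubfield) :
    Prop where
  hA : A.LiesOverPrime q
  hC : ConstHyp A (constL A q).toSubfield ϖ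
  hϖ : A.valuation ((ϖ : Qb)) ^ (q - 1) = A.valuation (q : Qb)
  hq2 : q ≠ 2
  hNqm : N = q * m
  hqm : ¬ q ∣ m
  h4m : 4 ∣ m
  hz : Coord A q 2 (lamF hN hζ)
  hp : IsPtF ϖ p
  nocusp : ¬ IsCuspPt A q p

namespace OddCtx

variable {m : ℕ} {p : Pt A q (lamF hN hζ)} (C : OddCtx (hN := hN) (hζ := hζ) m p ϖ)
include C

theorem coordUnits : (⟨_, self_mem_chart _⟩ : chartF A q (coordB A q (lamF hN hζ) p.1)) ∉ p.2 ∧
    1 - (⟨_, self_mem_chart _⟩ : chartF A q (coordB A q (lamF hN hζ) p.1)) ∉ p.2 :=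
  ⟨fun h => C.nocusp ⟨_, p.2.mul_mem_right (1 - ⟨_, self_mem_chart _⟩) h, rfl⟩,
    fun h => C.nocusp ⟨_, p.2.mul_mem_left ⟨_, self_mem_chart _⟩ h, rfl⟩⟩

theorem lam_mem : lamF hN hζ ∈ locPt C.hp := by
  obtain ⟨h0, -⟩ := C.coordUnits
  obtain ⟨_ | _, P⟩ := p
  · exact chart_le_loc C.hp (self_mem_chart _)
  · have h := inv_mem_loc C.hp h0
    rwa [show ((⟨_, self_mem_chart _⟩ : chartF A q (coordB A q (lamF hN hζ) true)) :
      flN N (constK A q)) = (lamF hN hζ)⁻¹ from rfl, inv_inv] at h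

/-- `λ` in the local ring. -/
def lamL : locPt C.hp := ⟨lamF hN hζ, C.lam_mem⟩

/-- The value of `λ`. -/
def val : IsLocalRing.ResidueField A := ptRes C.hC C.hp C.lamL

theorem val_spec : C.val ≠ 0 ∧ C.val ≠ 1 := by
  obtain ⟨h0, h1⟩ := C.coordUnits
  obtain ⟨_ | _, P⟩ := p
  · have e : C.val = ptResB C.hC C.hp ⟨_, self_mem_chart _⟩ :=
      ptRes_chart C.hC C.hp ⟨_, self_mem_chart _⟩
    refine ⟨fun h => h0 ((ptResB_eq_zero C.hC C.hp).1 (e ▸ h)),
      fun h => h1 ((ptResB_eq_zero C.hC C.hp).1 ?_)⟩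
    rw [map_sub, map_one, ← e, h, sub_self]
  · set w : chartF A q (coordB A q (lamF hN hζ) true) := ⟨_, self_mem_chart _⟩ with hw
    have e : C.val = ptResB C.hC C.hp 1 / ptResB C.hC C.hp w :=
      locRes_eq C.hC C.hp h0 (by
        show lamF hN hζ * (lamF hN hζ)⁻¹ = 1
        rw [mul_inv_cancel₀ (lamF_ne_zero hN hζ)])
    have hw0 : ptResB C.hC C.hp w ≠ 0 := fun h => h0 ((ptResB_eq_zero C.hC C.hp).1 h)
    rw [e, map_one]
    refine ⟨div_ne_zero one_ne_zero hw0, fun h => h1 ((ptResB_eq_zero C.hC C.hp).1 ?_)⟩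
    rw [map_sub, map_one, ← (div_eq_one_iff_eq hw0).1 h, sub_self]

theorem val_lam {R : ValuationSubring (flN N (constK A q))} (hR : AbovePt C.hp R) :
    R.valuation (lamF hN hζ) = 1 :=
  val_eq_one_of_ptRes_ne C.hC C.hp hR (x := C.lamL) C.val_spec.1

theorem val_one_sub_lam {R : ValuationSubring (flN N (constK A q))} (hR : AbovePt C.hp R) :
    R.valuation (1 - lamF hN hζ) = 1 :=
  val_eq_one_of_ptRes_ne C.hC C.hp hR (x := 1 - C.lamL) (by
    rw [map_sub, map_one]
    exact sub_ne_zero.2 (Ne.symm C.val_spec.2))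

theorem not_dvd_two : ¬ q ∣ 2 := fun h =>
  C.hq2 ((Nat.prime_dvd_prime_iff_eq hq.out Nat.prime_two).1 h)

theorem val_two {R : ValuationSubring (flN N (constK A q))} (hR : AbovePt C.hp R) :
    R.valuation (2 : flN N (constK A q)) = 1 := by
  have h := val_natCast C.hC C.hp hR C.hA C.not_dvd_two
  rwa [Nat.cast_two] at h

theorem val_m {R : ValuationSubring (flN N (constK A q))} (hR : AbovePt C.hp R) :
    R.valuation (m : flN N (constK A q)) = 1 :=
  val_natCast C.hC C.hp hR C.hA C.hqm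

theorem kerFacts {R : ValuationSubring (flN N (constK A q))} (hR : AbovePt C.hp R) :
    KerFacts hN hζ R :=
  kerHolds hN hζ R (hR _ C.lam_mem)

theorem charP_res : CharP (IsLocalRing.ResidueField A) q := charP_resField C.hA

theorem hasseFacts : HasseFacts q (IsLocalRing.ResidueField A) := by
  haveI := C.charP_res
  haveI : IsAlgClosed (IsLocalRing.ResidueField A) := FA.CurveRed.isAlgClosed_residueField A
  exact hasseHolds q C.hq2 _

/-- Evaluation of a polynomial at `λ`. -/
def evalLam : (baseO A (constL A q).toSubfield)[X] →+* locPt C.hp :=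
  eval₂RingHom (cstL A q C.hp) C.lamL

theorem coe_evalLam (P : (baseO A (constL A q).toSubfield)[X]) :
    (C.evalLam P : flN N (constK A q)) = P.eval₂ (cF A q N) (lamF hN hζ) := by
  rw [evalLam, coe_eval₂RingHom, ← Subring.coe_subtype, hom_eval₂]
  rfl

theorem ptRes_evalLam (P : (baseO A (constL A q).toSubfield)[X]) :
    ptRes C.hC C.hp (C.evalLam P) = (P.map (resO A q)).eval C.val := by
  rw [evalLam, coe_eval₂RingHom, hom_eval₂, eval_map]
  congr 1
  exact RingHom.ext fun a => ptRes_cstL C.hC C.hp a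

/-- The coefficient of the division polynomial as a polynomial in `λ`. -/
def psiP (_ : OddCtx (hN := hN) (hζ := hζ) m p ϖ) (i : ℕ) :
    (baseO A (constL A q).toSubfield)[X] :=
  (psiQ q (baseO A (constL A q).toSubfield)).coeff i

theorem psiP_map (i : ℕ) :
    (C.psiP i).map (resO A q) = (psiQ q (IsLocalRing.ResidueField A)).coeff i := by
  have h := WeierstrassCurve.map_preΨ' (legendre (X : (baseO A (constL A q).toSubfield)[X]))
    (mapRingHom (resO A q)) q
  rw [FA.Carayol.legendre_map, coe_mapRingHom, Polynomial.map_X] at h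
  have h1 := congrArg (fun T => Polynomial.coeff T i) h
  simp only [coeff_map, coe_mapRingHom] at h1
  exact h1.symm

theorem coe_psiP (i : ℕ) :
    (C.evalLam (C.psiP i) : flN N (constK A q)) = ((legendre (lamF hN hζ)).preΨ' q).coeff i := by
  set f := (locPt C.hp).subtype.comp C.evalLam
  have hf : f X = lamF hN hζ := by
    simp only [f, RingHom.comp_apply, evalLam, coe_eval₂RingHom, eval₂_X]
    rfl
  have h := WeierstrassCurve.map_preΨ' (legendre (X : (baseO A (constL A q).toSubfield)[X])) f q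
  rw [FA.Carayol.legendre_map, hf] at h
  rw [h, coeff_map]
  rfl

theorem ptRes_psiP (i : ℕ) :
    ptRes C.hC C.hp (C.evalLam (C.psiP i)) =
      ((psiQ q (IsLocalRing.ResidueField A)).coeff i).eval C.val := by
  rw [ptRes_evalLam, psiP_map]

/-- The top index. -/
abbrev top (_ : OddCtx (hN := hN) (hζ := hζ) m p ϖ) : ℕ := q * ((q - 1) / 2)

theorem psiP_top_map : (C.psiP C.top).map (resO A q) = hasse q (IsLocalRing.ResidueField A) :=
  C.psiP_map _

theorem exists_pi_mul_high {i : ℕ} (hi : C.top < i) :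
    ∃ P, C.psiP i = Polynomial.C ϖ * P := by
  refine (C_dvd_iff_dvd_coeff ϖ _).2 fun j => (resO_eq_zero_iff C.hC).1 ?_
  rw [← coeff_map, psiP_map, coeff_eq_zero_of_natDegree_lt (C.hasseFacts.natDegree_le.trans_lt hi),
    coeff_zero]

theorem psi_le {R : ValuationSubring (flN N (constK A q))} (hR : AbovePt C.hp R) (i : ℕ) :
    R.valuation (((legendre (lamF hN hζ)).preΨ' q).coeff i) ≤ 1 := by
  rw [← C.coe_psiP]
  exact (R.valuation_le_one_iff _).2 (hR _ (C.evalLam _).2)

theorem psi_high {R : ValuationSubring (flN N (constK A q))} (hR : AbovePt C.hp R)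
    (hπ : R.valuation (cF A q N ϖ) < 1) {i : ℕ} (hi : C.top < i) :
    R.valuation (((legendre (lamF hN hζ)).preΨ' q).coeff i) < 1 := by
  obtain ⟨P, hP⟩ := C.exists_pi_mul_high hi
  rw [← C.coe_psiP, coe_evalLam, hP, eval₂_mul, eval₂_C, map_mul]
  refine (mul_le_of_le_one_right' ?_).trans_lt hπ
  rw [← C.coe_evalLam]
  exact (R.valuation_le_one_iff _).2 (hR _ (C.evalLam _).2)

theorem psi_exists_unit {R : ValuationSubring (flN N (constK A q))} (hR : AbovePt C.hp R) :
    ∃ i, R.valuation (((legendre (lamF hN hζ)).preΨ' q).coeff i) = 1 := by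
  obtain ⟨i, hi⟩ : ∃ i, ((psiQ q (IsLocalRing.ResidueField A)).coeff i).eval C.val ≠ 0 := by
    by_cases h : (hasse q (IsLocalRing.ResidueField A)).eval C.val = 0
    · exact ⟨0, (C.hasseFacts.of_root _ C.val_spec.1 C.val_spec.2 h).2⟩
    · exact ⟨_, h⟩
  refine ⟨i, ?_⟩
  rw [← C.coe_psiP]
  exact val_eq_one_of_ptRes_ne C.hC C.hp hR (by rwa [ptRes_psiP])

end OddCtx

end FA.Carayol.OddP

end
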