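import Fermat.Agent.Carayol.OddPts.Stab
import Mathlib.Algebra.CharP.Lemmas

/-!
# Components at a point away from the cusps, and the inseparable coordinate on them
-/

set_option autoImplicit false
set_option linter.unusedSectionVars false
set_option linter.style.haveILetI false

noncomputable section

namespace FA.Carayol.OddP

open CongruenceSubgroup ModularCurve FA.Level Polynomial
open scoped MatrixGroups

local notation "Qb" => AlgebraicClosure ℚ

section valuations

variable {F : Type} [Field F] {V W : ValuationSubring F}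

theorem small_of_le (h : V ≤ W) {x : F} (hx : W.valuation x < 1) : V.valuation x < 1 := by
  rcases val_lt_one_iff_inv.1 hx with h0 | h0
  · exact val_lt_one_iff_inv.2 (Or.inl h0)
  · exact val_lt_one_iff_inv.2 (Or.inr fun hm => h0 (h hm))

/-- A strict inequality on a component holds inside it. -/
theorem lt_of_le_of_lt_val (h : V ≤ W) {x y : F} (hxy : W.valuation x < W.valuation y) :
    V.valuation x < V.valuation y := by
  have hy : y ≠ 0 := fun h0 => by simp [h0] at hxy
  have h1 : V.valuation (x / y) < 1 := small_of_le h (by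
    rw [map_div₀, div_lt_one₀ (zero_lt_iff.2 ((Valuation.ne_zero_iff _).2 hy))]
    exact hxy)
  rwa [map_div₀, div_lt_one₀ (zero_lt_iff.2 ((Valuation.ne_zero_iff _).2 hy))] at h1

theorem eq_of_sub_small (h : V ≤ W) {x y : F} (hy : W.valuation y = 1)
    (hxy : W.valuation (x - y) < 1) : V.valuation x = V.valuation y :=
  Valuation.map_eq_of_sub_lt _ (lt_of_le_of_lt_val h (by rwa [hy]))

theorem pow_sub_congr (W : ValuationSubring F) {p : ℕ} (hp : p.Prime) (hodd : Odd p)
    (hpW : W.valuation (p : F) < 1) {x y : F} (hx : x ∈ W) (hy : y ∈ W) :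
    W.valuation ((x - y) ^ p - (x ^ p - y ^ p)) < 1 := by
  obtain ⟨r, hr⟩ := exists_add_pow_prime_eq hp (⟨x, hx⟩ : W) (-⟨y, hy⟩)
  have h := congrArg (fun t : W => (t : F)) hr
  push_cast at h
  rw [sub_eq_add_neg x y, h, hodd.neg_pow,
    show x ^ p + -y ^ p + (p : F) * x * -y * (r : F) - (x ^ p - y ^ p) =
      (p : F) * (x * -y * (r : F)) by ring, map_mul]
  exact (mul_le_of_le_one_right' ((W.valuation_le_one_iff _).2
    (mul_mem (mul_mem hx (neg_mem hy)) r.2))).trans_lt hpW

end valuations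

variable [Algebra Qb ℂ] {A : ValuationSubring Qb} {q : ℕ} [hq : Fact q.Prime] {N g : ℕ} [NeZero N]
  {hN : N = 4 * g} {hζ : ∀ b : ℤ, FA.Mazur.Wp.eta N b ∈ constK A q}
  {ϖ : baseO A (constL A q).toSubfield}

namespace OddCtx

variable {m : ℕ} {p : Pt A q (lamF hN hζ)} (C : OddCtx (hN := hN) (hζ := hζ) m p ϖ)
include C

/-- The top coefficient of the division polynomial. -/
abbrev topF (_ : OddCtx (hN := hN) (hζ := hζ) m p ϖ) : flN N (constK A q) :=
  ((legendre (lamF hN hζ)).preΨ' q).coeff (q * ((q - 1) / 2))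

theorem vert_small {W : ValuationSubring (flN N (constK A q))}
    (hW : IsVertF A q ϖ (lamF hN hζ) W) {a : baseO A (constL A q).toSubfield}
    (ha : resO A q a = 0) : W.valuation (cF A q N a) < 1 := by
  obtain ⟨b, rfl⟩ := (resO_eq_zero_iff C.hC).1 ha
  have hb : W.valuation (cF A q N b) ≤ 1 :=
    (W.valuation_le_one_iff _).2 (vert_mem_chart C.hC hW false (cF_mem_chart _ b))
  rw [map_mul, map_mul]
  exact (mul_le_of_le_one_right' hb).trans_lt hW.1

theorem vert_q {W : ValuationSubring (flN N (constK A q))}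
    (hW : IsVertF A q ϖ (lamF hN hζ) W) : W.valuation (q : flN N (constK A q)) < 1 := by
  rw [← map_natCast (cF A q N)]
  refine C.vert_small hW ?_
  haveI := C.charP_res
  rw [map_natCast, CharP.cast_eq_zero]

theorem vert_top {W : ValuationSubring (flN N (constK A q))}
    (hW : IsVertF A q ϖ (lamF hN hζ) W) : W.valuation C.topF = 1 := by
  rw [topF, ← C.coe_psiP, C.coe_evalLam]
  refine hW.2 _ ?_
  by_contra hne
  simp only [not_exists] at hne
  refine C.hasseFacts.eval_zero_ne ?_
  rw [← C.psiP_top_map, ← coeff_zero_eq_eval_zero, coeff_map]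
  by_contra h
  exact hne 0 (isUnit_of_resO_ne C.hC h)

theorem above {W : ValuationSubring (flN N (constK A q))}
    (hW : W ∈ vertsAt A q ϖ (lamF hN hζ) p) : AbovePt C.hp W :=
  abovePt_of_thru C.hC C.hp hW.1 hW.2

theorem exists_vertLine {W : ValuationSubring (flN N (constK A q))}
    (hW : W ∈ vertsAt A q ϖ (lamF hN hζ) p) : ∃ l, C.IsKerLine (C.above hW) l :=
  C.exists_kerLine (C.above hW) hW.1.1 (C.vert_top hW.1)

/-- The line of a component. -/
def lineOf {W : ValuationSubring (flN N (constK A q))}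
    (hW : W ∈ vertsAt A q ϖ (lamF hN hζ) p) : Option (ZMod q) := (C.exists_vertLine hW).choose

theorem lineOf_spec {W : ValuationSubring (flN N (constK A q))}
    (hW : W ∈ vertsAt A q ϖ (lamF hN hζ) p) : C.IsKerLine (C.above hW) (C.lineOf hW) :=
  (C.exists_vertLine hW).choose_spec

theorem line_eq_of_mem {R : ValuationSubring (flN N (constK A q))} (hR : AbovePt C.hp R)
    {l l' : Option (ZMod q)} (h : C.IsKerLine hR l) (h' : lineVec l' ∈ C.kerR hR) : l' = l := by
  obtain ⟨a, ha⟩ := (h _).1 h'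
  exact lineVec_inj ha

theorem val_line_vert {W : ValuationSubring (flN N (constK A q))}
    (hW : W ∈ vertsAt A q ϖ (lamF hN hζ) p) :
    W.valuation (C.zq (lineVec (C.lineOf hW)) : flN N (constK A q)) =
      W.valuation (cF A q N ϖ) :=
  IsKerLine.val_line C (C.above hW) (C.lineOf_spec hW)
    (C.card_halfKer (C.above hW) hW.1.1 (C.vert_top hW.1)).1

/-- The coordinate minus its value on a component. -/
theorem vert_coord_sub {W : ValuationSubring (flN N (constK A q))}
    (hW : IsVertF A q ϖ (lamF hN hζ) W) (b : Bool) (a : baseO A (constL A q).toSubfield) :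
    W.valuation (coordB A q (lamF hN hζ) b - cF A q N a) = 1 := by
  have h := (vert_coordB hW b).2 (X - Polynomial.C a) ⟨1, by simp⟩
  rwa [eval₂_sub, eval₂_X, eval₂_C] at h

/-- The inseparable coordinate, shifted to the point. -/
theorem exists_frob {W : ValuationSubring (flN N (constK A q))}
    (hW : W ∈ vertsAt A q ϖ (lamF hN hζ) p)
    (hfr : ∃ r ∈ chartF A q (coordB A q (lamF hN hζ) p.1),
      W.valuation (r ^ q - coordB A q (lamF hN hζ) p.1) < 1)
    {a : baseO A (constL A q).toSubfield}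
    (ha : (⟨_, self_mem_chart _⟩ : chartF A q (coordB A q (lamF hN hζ) p.1)) - cstB A q _ a ∈ p.2) :
    ∃ (r : chartF A q (coordB A q (lamF hN hζ) p.1)) (c' : baseO A (constL A q).toSubfield),
      W.valuation ((r : flN N (constK A q)) ^ q - coordB A q (lamF hN hζ) p.1) < 1 ∧
      W.valuation ((r : flN N (constK A q)) - cF A q N c') = 1 ∧
      r - cstB A q _ c' ∈ p.2 ∧
      ∀ V : ValuationSubring (flN N (constK A q)), V ≤ W →
        V.valuation ((r : flN N (constK A q)) - cF A q N c') ^ q =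
          V.valuation (coordB A q (lamF hN hζ) p.1 - cF A q N a) := by
  haveI : IsAlgClosed (IsLocalRing.ResidueField A) := FA.CurveRed.isAlgClosed_residueField A
  obtain ⟨r, hr, hrf⟩ := hfr
  obtain ⟨x, hx⟩ := IsAlgClosed.exists_pow_nat_eq (resO A q a) hq.out.pos
  obtain ⟨c', rfl⟩ := resO_surjective C.hC x
  have hrW : r ∈ W := vert_mem_chart C.hC hW.1 p.1 hr
  have hcW : cF A q N c' ∈ W := vert_mem_chart C.hC hW.1 p.1 (cF_mem_chart _ c')
  have h1 := pow_sub_congr W hq.out (hq.out.odd_of_ne_two C.hq2) (C.vert_q hW.1) hrW hcW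
  have h2 : W.valuation (cF A q N (c' ^ q - a)) < 1 :=
    C.vert_small hW.1 (by rw [map_sub, map_pow, hx, sub_self])
  have key : W.valuation ((r - cF A q N c') ^ q -
      (coordB A q (lamF hN hζ) p.1 - cF A q N a)) < 1 := by
    have := W.valuation.map_add_lt (W.valuation.map_add_lt h1 hrf)
      (show W.valuation (-(cF A q N (c' ^ q - a))) < 1 by rwa [Valuation.map_neg])
    convert this using 2
    rw [map_sub, map_pow]
    ring
  have hw1 := C.vert_coord_sub hW.1 p.1 a
  have hpow : W.valuation (r - cF A q N c') ^ q = 1 := by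
    rw [← map_pow, ← hw1]
    exact Valuation.map_eq_of_sub_lt _ (by rwa [hw1])
  have hV : ∀ V : ValuationSubring (flN N (constK A q)), V ≤ W →
      V.valuation (r - cF A q N c') ^ q =
        V.valuation (coordB A q (lamF hN hζ) p.1 - cF A q N a) := fun V hle => by
    rw [← map_pow]
    exact eq_of_sub_small hle hw1 key
  obtain ⟨V, hle, hVc⟩ := exists_centred_le C.hC C.hp (C.above hW)
  refine ⟨⟨r, hr⟩, c', hrf, (pow_eq_one_iff_of_nonneg zero_le hq.out.ne_zero).1 hpow, ?_, hV⟩
  have h3 : V.valuation (coordB A q (lamF hN hζ) p.1 - cF A q N a) < 1 := (hVc.centre _ _ _).2 ha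
  refine (hVc.centre _ _ _).1 ?_
  rw [← hV V hle] at h3
  exact not_le.1 fun h => not_lt.2 (one_le_pow₀ h) h3

theorem zq_ne_zero {u : ZMod q × ZMod q} (hu : u ≠ 0) : (C.zq u : flN N (constK A q)) ≠ 0 := by
  obtain ⟨V, hV⟩ := C.exists_centred
  intro h
  by_cases hk : u ∈ C.kerR hV.1
  · have := (C.ker_zF_sq hV.1 ((isVec_tq C.hNqm).2 hu) hk).1
    rw [← coe_zq C, h, map_zero, zero_pow two_ne_zero, zero_mul] at this
    exact zero_ne_one this
  · exact hk ((C.mem_kerR_iff_lt hV.1).2 (by rw [h, map_zero]; exact zero_lt_one))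

/-- The parameters divide a power of the uniformiser. -/
theorem exists_cofactor {u : ZMod q × ZMod q} (hu : u ≠ 0) :
    ∃ y : locPt C.hp, (C.zq u : flN N (constK A q)) * y = cF A q N ϖ ^ (q - 1) := by
  refine ⟨⟨cF A q N ϖ ^ (q - 1) / (C.zq u : flN N (constK A q)),
    mem_loc_of_forall C.hp fun R hR => ?_⟩, mul_div_cancel₀ _ (C.zq_ne_zero hu)⟩
  rw [← R.valuation_le_one_iff, map_div₀, map_pow, div_le_one₀
    (zero_lt_iff.2 ((Valuation.ne_zero_iff _).2 (C.zq_ne_zero hu))), ← C.val_q hR]
  by_cases hk : u ∈ C.kerR hR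
  · obtain ⟨v, hv, hvu⟩ := exists_qHalf C.hNqm C.hq2 hu
    have hvk : InKer hN hζ R v := by
      rcases hvu with h | h
      · exact (inKer_congr h).1 hk
      · have h' := (C.kerSub hR).neg_mem ((C.mem_kerSub hR).2 ((inKer_congr h).1 hk))
        rwa [neg_neg, C.mem_kerSub hR] at h'
    have hze : R.valuation (C.zq u : flN N (constK A q)) = R.valuation (zF hN hζ v) := by
      rcases hvu with h | h
      · rw [coe_zq, zF_congr h]
      · rw [coe_zq, zF_congr h, zF, zF, xF_neg, yF_neg, div_neg, Valuation.map_neg]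
    classical
    have hle : ∀ w ∈ C.halfKer hR, R.valuation (zF hN hζ w) ≤ 1 := fun w hw => by
      obtain ⟨u', hu', -, rfl⟩ := C.exists_of_halfKer hR hw
      exact C.zF_le hR (tq_order C.hNqm u')
    rw [C.ker_prod hR, ← Finset.mul_prod_erase _ _ ((C.mem_halfKer hR).2 ⟨hv, hvk⟩), hze, sq]
    exact (mul_le_of_le_one_right' (Finset.prod_le_one' fun w hw =>
      pow_le_one₀ zero_le (hle w (Finset.erase_subset _ _ hw)))).trans
        (mul_le_of_le_one_right' (hle v ((C.mem_halfKer hR).2 ⟨hv, hvk⟩)))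
  · rw [coe_zq, C.zF_unit hR (tq_order C.hNqm u) hk, ← map_natCast (cF A q N)]
    exact val_cF_le C.hC C.hp hR _

end OddCtx

end FA.Carayol.OddP

end
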