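import Mathlib.RingTheory.Valuation.ValuationSubring
import Mathlib.Algebra.Polynomial.BigOperators
import Mathlib.RingTheory.Polynomial.Basic

/-!
# The large roots of a polynomial with integral coefficients
-/

set_option autoImplicit false

noncomputable section

namespace FA.Carayol.OddP

open Polynomial

variable {F : Type} [Field F] (R : ValuationSubring F) {ι : Type} (s : Finset ι) (x : ι → F)
  {c : F} {f : F[X]}

/-- The roots outside a valuation ring. -/
def bigRoots : Finset ι :=
  letI := Classical.decPred fun i => 1 < R.valuation (x i)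
  s.filter fun i => 1 < R.valuation (x i)

theorem mem_bigRoots {i : ι} : i ∈ bigRoots R s x ↔ i ∈ s ∧ 1 < R.valuation (x i) := by
  simp [bigRoots]

/-- **The large roots and the last unit coefficient.** -/
theorem gauss_split (hf : f = C c * ∏ i ∈ s, (X - C (x i)))
    (hle : ∀ j, R.valuation (f.coeff j) ≤ 1) {d : ℕ} (hd : R.valuation (f.coeff d) = 1)
    (hhigh : ∀ j, d < j → R.valuation (f.coeff j) < 1) :
    (bigRoots R s x).card + d = s.card ∧
      R.valuation c * ∏ i ∈ bigRoots R s x, R.valuation (x i) = 1 ∧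
      R.valuation (f.coeff d - c * ∏ i ∈ bigRoots R s x, -x i) < 1 := by
  classical
  set B := bigRoots R s x
  have hBs : B ⊆ s := fun i hi => ((mem_bigRoots R s x).1 hi).1
  have hbig : ∀ i ∈ B, x i ≠ 0 := fun i hi h0 => by
    have := ((mem_bigRoots R s x).1 hi).2
    rw [h0, map_zero] at this
    exact absurd this (not_lt.2 zero_le)
  have hsmall : ∀ i ∈ s \ B, x i ∈ R := fun i hi => by
    obtain ⟨hs, hB⟩ := Finset.mem_sdiff.1 hi
    rw [← R.valuation_le_one_iff]
    exact not_lt.1 fun h => hB ((mem_bigRoots R s x).2 ⟨hs, h⟩)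
  have hinv : ∀ i ∈ B, R.valuation (x i)⁻¹ < 1 := fun i hi => by
    rw [map_inv₀]; exact inv_lt_one_of_one_lt₀ ((mem_bigRoots R s x).1 hi).2
  let G : R[X] := (∏ i ∈ B.attach,
      (1 - C (⟨(x i)⁻¹, (R.valuation_le_one_iff _).1 (hinv i i.2).le⟩ : R) * X)) *
    ∏ i ∈ (s \ B).attach, (X - C (⟨x i, hsmall i i.2⟩ : R))
  set C' := c * ∏ i ∈ B, -x i
  have hfG : f = C C' * G.map R.subtype := by
    rw [hf, ← Finset.prod_sdiff hBs]
    simp only [G, Polynomial.map_mul, Polynomial.map_prod, Polynomial.map_sub, Polynomial.map_one,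
      Polynomial.map_C, Polynomial.map_X, R.subtype_apply]
    rw [Finset.prod_attach (s \ B) (fun i => X - C (x i)),
      Finset.prod_attach B (fun i => 1 - C (x i)⁻¹ * X), map_mul, map_prod, mul_assoc,
      ← mul_assoc (∏ i ∈ B, C (-x i)), ← Finset.prod_mul_distrib, mul_comm (∏ i ∈ s \ B, _)]
    congr 2
    refine Finset.prod_congr rfl fun i hi => ?_
    rw [mul_sub, mul_one, ← mul_assoc, ← C_mul, neg_mul, mul_inv_cancel₀ (hbig i hi), map_neg,
      map_neg, map_one]
    ring
  have hGres : G.map (IsLocalRing.residue R) =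
      ∏ i ∈ (s \ B).attach, (X - C (IsLocalRing.residue R ⟨x i, hsmall i i.2⟩)) := by
    simp only [G, Polynomial.map_mul, Polynomial.map_prod, Polynomial.map_sub, Polynomial.map_one,
      Polynomial.map_C, Polynomial.map_X]
    rw [Finset.prod_eq_one (s := B.attach), one_mul]
    intro i _
    have : IsLocalRing.residue R ⟨(x i)⁻¹, (R.valuation_le_one_iff _).1 (hinv i i.2).le⟩ = 0 := by
      rw [IsLocalRing.residue_eq_zero_iff, R.valuation_lt_one_iff]
      exact hinv i i.2
    rw [this, map_zero, zero_mul, sub_zero]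
  have hm : (∏ i ∈ (s \ B).attach,
      (X - C (IsLocalRing.residue R ⟨x i, hsmall i i.2⟩))).Monic :=
    monic_prod_of_monic _ _ fun i _ => monic_X_sub_C _
  have hn : (∏ i ∈ (s \ B).attach,
      (X - C (IsLocalRing.residue R ⟨x i, hsmall i i.2⟩))).natDegree = (s \ B).card := by
    rw [natDegree_prod_of_monic _ _ fun i _ => monic_X_sub_C _]
    simp
  set n := (s \ B).card
  have hGn : R.valuation ((G.coeff n : F) - 1) < 1 := by
    have h1 : IsLocalRing.residue R (G.coeff n) = 1 := by
      rw [← coeff_map, hGres, ← hn]; exact hm.coeff_natDegree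
    have h2 : IsLocalRing.residue R (G.coeff n - 1) = 0 := by rw [map_sub, h1, map_one, sub_self]
    rw [IsLocalRing.residue_eq_zero_iff, R.valuation_lt_one_iff] at h2
    exact h2
  have hGhigh : ∀ j, n < j → R.valuation (G.coeff j : F) < 1 := fun j hj => by
    have h1 : IsLocalRing.residue R (G.coeff j) = 0 := by
      rw [← coeff_map, hGres, coeff_eq_zero_of_natDegree_lt (by rw [hn]; exact hj)]
    rw [IsLocalRing.residue_eq_zero_iff, R.valuation_lt_one_iff] at h1
    exact h1
  have hco : ∀ j, f.coeff j = C' * (G.coeff j : F) := fun j => by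
    rw [hfG, coeff_C_mul, coeff_map]; rfl
  have hG1 : R.valuation (G.coeff n : F) = 1 := by
    rw [← sub_add_cancel (G.coeff n : F) 1, R.valuation.map_add_eq_of_lt_right (by rwa [map_one]),
      map_one]
  have hC' : R.valuation C' = 1 := by
    refine le_antisymm ?_ (not_lt.1 fun hlt => ?_)
    · have := hle n
      rwa [hco, map_mul, hG1, mul_one] at this
    · rw [hco, map_mul] at hd
      exact ((mul_le_of_le_one_right' ((R.valuation_le_one_iff _).2 (G.coeff d).2)).trans_lt hlt).ne hd
  have hdn : d = n := by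
    rcases lt_trichotomy d n with h | h | h
    · have := hhigh n h
      rw [hco, map_mul, hC', hG1, one_mul] at this
      exact absurd this (lt_irrefl _)
    · exact h
    · rw [hco, map_mul, hC', one_mul] at hd
      exact absurd hd (hGhigh d h).ne
  refine ⟨?_, ?_, ?_⟩
  · rw [hdn, add_comm]; exact Finset.card_sdiff_add_card_eq_card hBs
  · rw [← hC', map_mul, map_prod]
    simp only [Valuation.map_neg]
  · rw [hco, hdn, show C' * (G.coeff n : F) - C' = C' * ((G.coeff n : F) - 1) by ring, map_mul,
      hC', one_mul]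
    exact hGn

/-- The leading coefficient times the large roots is a unit. -/
theorem gauss_prod (hf : f = C c * ∏ i ∈ s, (X - C (x i)))
    (hle : ∀ j, R.valuation (f.coeff j) ≤ 1) (hex : ∃ j, R.valuation (f.coeff j) = 1) :
    R.valuation c * ∏ i ∈ bigRoots R s x, R.valuation (x i) = 1 := by
  classical
  obtain ⟨j, hj⟩ := hex
  set t := (Finset.range (f.natDegree + 1)).filter fun j => R.valuation (f.coeff j) = 1
  have hjn : ∀ i, R.valuation (f.coeff i) = 1 → i ∈ t := fun i hi => by
    refine Finset.mem_filter.2 ⟨Finset.mem_range.2 (Nat.lt_succ_of_le (le_natDegree_of_ne_zero ?_)), hi⟩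
    intro h0
    rw [h0, map_zero] at hi
    exact zero_ne_one hi
  have hne : t.Nonempty := ⟨j, hjn j hj⟩
  refine (gauss_split R s x hf hle (d := t.max' hne) (Finset.mem_filter.1 (t.max'_mem hne)).2
    fun i hi => lt_of_le_of_ne (hle i) fun h => ?_).2.1
  exact absurd (t.le_max' i (hjn i h)) (not_le.2 hi)

end FA.Carayol.OddP

end
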