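import Fermat.Agent.Carayol.Model.CountDefs
import Fermat.Agent.Carayol.OddPts.Local
import Mathlib.RingTheory.Polynomial.IsIntegral

/-!
# Invariants of a chart under the group, and units at a point

An element integral over the chart ring fixed by the group is a polynomial in the coordinate; points
over one value are conjugate; a divisor of a power of the uniformiser which is a unit on every
component through a point is a unit there.
-/

set_option autoImplicit false
set_option linter.unusedSectionVars false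
set_option linter.style.haveILetI false

noncomputable section

namespace FA.Carayol.OddP

open CongruenceSubgroup ModularCurve FA.Level Polynomial
open scoped MatrixGroups

local notation "Qb" => AlgebraicClosure ℚ

variable [Algebra Qb ℂ] {A : ValuationSubring Qb} {q : ℕ} {N : ℕ} [NeZero N] {ℓ : ℕ}
  {z : flN N (constK A q)} {ϖ : baseO A (constL A q).toSubfield}

theorem isIntegrallyClosed_baseO (hC : ConstHyp A (constL A q).toSubfield ϖ) :
    IsIntegrallyClosed (baseO A (constL A q).toSubfield) := by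
  haveI := hC.dvr
  infer_instance

variable (hz : Coord A q ℓ z)
include hz

theorem galLvl_coord {g : flN N (constK A q) ≃+* flN N (constK A q)} (hg : g ∈ galLvl A q ℓ)
    (b : Bool) : g (coordB A q z b) = coordB A q z b := by
  obtain ⟨γ, hγ, rfl⟩ := hg
  have h : flHom N (constK A q) γ z = z := hz.fix γ⁻¹ (inv_mem hγ)
  cases b
  · exact h
  · show flHom N (constK A q) γ z⁻¹ = z⁻¹
    rw [map_inv₀, h]

theorem galLvl_evalB {g : flN N (constK A q) ≃+* flN N (constK A q)} (hg : g ∈ galLvl A q ℓ)
    (b : Bool) (P : (baseO A (constL A q).toSubfield)[X]) :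
    g (P.eval₂ (cF A q N) (coordB A q z b)) = P.eval₂ (cF A q N) (coordB A q z b) := by
  rw [eval₂_eq_sum_range, map_sum]
  simp only [map_mul, map_pow, galLvl_cF hg, galLvl_coord hz hg b]

theorem galLvl_mem_chart {g : flN N (constK A q) ≃+* flN N (constK A q)} (hg : g ∈ galLvl A q ℓ)
    (b : Bool) {x : flN N (constK A q)} (hx : x ∈ chartF A q (coordB A q z b)) :
    g x ∈ chartF A q (coordB A q z b) := by
  obtain ⟨P, hP, he⟩ := hx
  refine ⟨P, hP, ?_⟩
  have h1 := congrArg g he
  have hcomp : (g : flN N (constK A q) →+* flN N (constK A q)).comp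
      (eval₂RingHom (cF A q N) (coordB A q z b)) = eval₂RingHom (cF A q N) (coordB A q z b) :=
    RingHom.ext fun Q => galLvl_evalB hz hg b Q
  rw [map_zero, ← RingEquiv.coe_toRingHom, hom_eval₂, hcomp] at h1
  exact h1

/-- The restriction to a chart. -/
def galB {g : flN N (constK A q) ≃+* flN N (constK A q)} (hg : g ∈ galLvl A q ℓ) (b : Bool) :
    chartF A q (coordB A q z b) →+* chartF A q (coordB A q z b) :=
  ((g : flN N (constK A q) →+* flN N (constK A q)).comp
    (chartF A q (coordB A q z b)).subtype).codRestrict _ fun x => galLvl_mem_chart hz hg b x.2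

theorem coe_galB {g : flN N (constK A q) ≃+* flN N (constK A q)} (hg : g ∈ galLvl A q ℓ) (b : Bool)
    (x : chartF A q (coordB A q z b)) : (galB hz hg b x : flN N (constK A q)) = g x := rfl

variable (hC : ConstHyp A (constL A q).toSubfield ϖ)
include hC

theorem exists_isVert : ∃ W, IsVertF A q ϖ z W := ⟨_, isVertF_inftyVal hz hC⟩

theorem evalB_injective (b : Bool) :
    Function.Injective (eval₂RingHom (cF A q N) (coordB A q z b)) := by
  obtain ⟨W, hW⟩ := exists_isVert hz hC
  refine (injective_iff_map_eq_zero _).2 fun P hP => by_contra fun hP0 => ?_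
  obtain ⟨k, hk⟩ := exists_val_poly hC (z := coordB A q z b) hP0
  have h1 := hk W (vert_coordB hW b)
  rw [show P.eval₂ (cF A q N) (coordB A q z b) = 0 from hP, map_zero] at h1
  exact pow_ne_zero _ ((Valuation.ne_zero_iff _).2 (cF_pi_ne_zero hC)) h1.symm

theorem exists_fixed_fractionB (b : Bool) {x : flN N (constK A q)}
    (hx : ∀ g ∈ galLvl A q ℓ, g x = x) :
    ∃ P Q : (baseO A (constL A q).toSubfield)[X], Q.eval₂ (cF A q N) (coordB A q z b) ≠ 0 ∧
      x * Q.eval₂ (cF A q N) (coordB A q z b) = P.eval₂ (cF A q N) (coordB A q z b) := by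
  refine exists_poly_fraction ?_
  have h := hz.closed x fun γ hγ => ?_
  · refine Subfield.closure_le.2 ?_ h
    rintro y (hy | hy)
    · exact Subfield.subset_closure (Or.inl hy)
    · rw [Set.mem_singleton_iff] at hy
      have hw : coordB A q z b ∈ Subfield.closure
          (Set.range ((toFl (N := N)).comp rC) ∪ {coordB A q z b}) :=
        Subfield.subset_closure (Or.inr rfl)
      cases b
      · exact hy ▸ hw
      · have h1 := inv_mem hw
        rw [show coordB A q z true = z⁻¹ from rfl, inv_inv] at h1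
        exact hy ▸ h1
  · have h1 := hx _ ⟨γ⁻¹, inv_mem hγ, rfl⟩
    rwa [show flHom N (constK A q) γ⁻¹ x = flAct γ⁻¹⁻¹ x from rfl, inv_inv] at h1

/-- **A fixed element of a chart is a polynomial in the coordinate.** -/
theorem fixed_mem_range (b : Bool) {x : flN N (constK A q)}
    (hx : ∀ g ∈ galLvl A q ℓ, g x = x) (hxB : x ∈ chartF A q (coordB A q z b)) :
    ∃ P : (baseO A (constL A q).toSubfield)[X], x = P.eval₂ (cF A q N) (coordB A q z b) := by
  haveI := isIntegrallyClosed_baseO hC
  set ev := eval₂RingHom (cF A q N) (coordB A q z b)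
  set j : FractionRing (baseO A (constL A q).toSubfield)[X] →+* flN N (constK A q) :=
    IsFractionRing.lift (g := ev) (evalB_injective hz hC b)
  have hj : ∀ P, j (algebraMap _ _ P) = ev P := IsFractionRing.lift_algebraMap _
  obtain ⟨P, Q, hQ, e⟩ := exists_fixed_fractionB hz hC b hx
  set y : FractionRing (baseO A (constL A q).toSubfield)[X] :=
    algebraMap _ _ P / algebraMap _ _ Q
  have hy : j y = x := by
    rw [map_div₀, hj, hj]
    exact (eq_div_of_mul_eq hQ e).symm
  have hint : IsIntegral (baseO A (constL A q).toSubfield)[X] y := by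
    obtain ⟨S, hS, he⟩ := hxB
    refine ⟨S, hS, j.injective ?_⟩
    rw [hom_eval₂, map_zero, hy, show j.comp (algebraMap _ _) = ev from RingHom.ext hj]
    exact he
  obtain ⟨R, hR⟩ := IsIntegrallyClosed.isIntegral_iff.1 hint
  exact ⟨R, by rw [← hy, ← hR, hj]; rfl⟩

theorem exists_norm (b : Bool) (x : chartF A q (coordB A q z b)) [Fintype (galLvl (N := N) A q ℓ)] :
    ∃ P : (baseO A (constL A q).toSubfield)[X],
      ∏ g : galLvl A q ℓ, galB hz g.2 b x = polyB (coordB A q z b) P := by
  classical
  set y := ∏ g : galLvl A q ℓ, galB hz g.2 b x with hy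
  have hfix : ∀ g ∈ galLvl A q ℓ, g (y : flN N (constK A q)) = y := fun g hg => by
    rw [hy, SubmonoidClass.coe_finsetProd, map_prod]
    refine Fintype.prod_equiv (Equiv.mulLeft (⟨g, hg⟩ : galLvl A q ℓ)) _ _ fun g' => ?_
    simp only [coe_galB, Equiv.coe_mulLeft, Subgroup.coe_mul]
    rfl
  obtain ⟨P, hP⟩ := fixed_mem_range hz hC b hfix y.2
  exact ⟨P, Subtype.ext (by rw [hP, coe_polyB])⟩

/-- **The points over a value of the coordinate are conjugate.** -/
theorem exists_conj_pt {p : Pt A q z} (hp : IsPtF ϖ p)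
    {p' : Ideal (chartF A q (coordB A q z p.1))} (hp' : p'.IsPrime)
    (a : baseO A (constL A q).toSubfield)
    (ha : (⟨_, self_mem_chart _⟩ : chartF A q (coordB A q z p.1)) - cstB A q _ a ∈ p.2)
    (hϖ : cstB A q _ ϖ ∈ p') (ha' : (⟨_, self_mem_chart _⟩ : chartF A q (coordB A q z p.1)) -
      cstB A q _ a ∈ p') :
    ∃ g, ∃ hg : g ∈ galLvl A q ℓ, ∀ x, x ∈ p.2 ↔ galB hz hg p.1 x ∈ p' := by
  classical
  haveI := finite_galLvl (A := A) (q := q) (N := N) (ℓ := ℓ)
  haveI := Fintype.ofFinite (galLvl (N := N) A q ℓ)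
  have hsub : (p.2 : Set (chartF A q (coordB A q z p.1))) ⊆
      ⋃ g ∈ ((Finset.univ : Finset (galLvl (N := N) A q ℓ)) : Set (galLvl (N := N) A q ℓ)),
        ((p'.comap (galB hz g.2 p.1) : Ideal _) : Set (chartF A q (coordB A q z p.1))) := by
    intro x hx
    obtain ⟨P, hP⟩ := exists_norm hz hC p.1 x
    have hres : polyB (coordB A q z p.1) P ∈ p.2 := by
      rw [← hP, ← Finset.mul_prod_erase _ _ (Finset.mem_univ (1 : galLvl (N := N) A q ℓ))]
      refine Ideal.mul_mem_right _ _ ?_
      rwa [show galB hz (1 : galLvl (N := N) A q ℓ).2 p.1 x = x from Subtype.ext rfl]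
    have hPa : ∀ I : Ideal (chartF A q (coordB A q z p.1)),
        (⟨_, self_mem_chart _⟩ : chartF A q (coordB A q z p.1)) - cstB A q _ a ∈ I →
        polyB (coordB A q z p.1) P - cstB A q _ (P.eval a) ∈ I := fun I hI => by
      rw [cstB_eq, ← map_sub]
      obtain ⟨R, hR⟩ := X_sub_C_dvd_sub_C_eval (a := a) (p := P)
      rw [hR, map_mul]
      refine I.mul_mem_right _ ?_
      convert hI using 1
      exact Subtype.ext (by
        rw [coe_polyB, AddSubgroupClass.coe_sub, coe_cstB, eval₂_sub, eval₂_X, eval₂_C])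
    have hPev : resO A q (P.eval a) = 0 := by
      rw [← cstB_mem_iff hC hp]
      have h := sub_mem hres (hPa _ ha)
      rwa [sub_sub_cancel] at h
    have hmem' : polyB (coordB A q z p.1) P ∈ p' := by
      have h1 : cstB A q (coordB A q z p.1) (P.eval a) ∈ p' := by
        obtain ⟨d, hd⟩ := (resO_eq_zero_iff hC).1 hPev
        rw [hd, map_mul]
        exact p'.mul_mem_right _ hϖ
      have h := add_mem (hPa _ ha') h1
      rwa [sub_add_cancel] at h
    rw [← hP] at hmem'
    obtain ⟨g, -, hg⟩ := hp'.prod_mem_iff.1 hmem'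
    exact Set.mem_biUnion (Finset.mem_coe.2 (Finset.mem_univ g)) hg
  obtain ⟨g, -, hg⟩ := (Ideal.subset_union_prime (1 : galLvl (N := N) A q ℓ) 1 fun g _ _ _ =>
    Ideal.comap_isPrime _ _).1 hsub
  exact ⟨g.1, g.2, fun x => by
    rw [hp.1.eq_of_le (Ideal.comap_isPrime _ _).ne_top hg]; rfl⟩

/-- Components are translates of one of them, so they are finitely many. -/
theorem finite_verts : {W | IsVertF A q ϖ z W}.Finite := by
  haveI := finite_galLvl (A := A) (q := q) (N := N) (ℓ := ℓ)
  refine (Set.finite_range fun g : galLvl (N := N) A q ℓ => (inftyVal hz hC).comap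
    ((g.1 : flN N (constK A q) ≃+* flN N (constK A q)) :
      flN N (constK A q) →+* flN N (constK A q))).subset fun W hW => ?_
  obtain ⟨g, hg, e⟩ := exists_translate_infty hC hz hW
  exact ⟨⟨g, hg⟩, e⟩

theorem scaled_vert {W : ValuationSubring (flN N (constK A q))} (hW : IsVertF A q ϖ z W) :
    Scaled (cF A q N ϖ) W := by
  obtain ⟨g, hg, e⟩ := exists_translate_infty hC hz hW
  exact e ▸ (scaled_inftyVal hC hz).translate (galLvl_cF hg ϖ)

theorem isVertF_comap {g : flN N (constK A q) ≃+* flN N (constK A q)} (hg : g ∈ galLvl A q ℓ)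
    {W : ValuationSubring (flN N (constK A q))} (hW : IsVertF A q ϖ z W) :
    IsVertF A q ϖ z (W.comap (g : flN N (constK A q) →+* flN N (constK A q))) := by
  refine ⟨val_comap_lt.2 ?_, fun P hP => val_comap_eq.2 ?_⟩
  · show W.valuation (g (cF A q N ϖ)) < 1
    rw [galLvl_cF hg]
    exact hW.1
  · show W.valuation (g (P.eval₂ (cF A q N) z)) = 1
    rw [galLvl_eval hz hg]
    exact hW.2 P hP

/-- An element of a chart divisible enough on every component is divisible. -/
theorem div_mem_chart (b : Bool) {y : flN N (constK A q)}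
    (hy : y ∈ chartF A q (coordB A q z b)) (k : ℕ)
    (h : ∀ W, IsVertF A q ϖ z W → W.valuation (y / cF A q N ϖ ^ k) ≤ 1) :
    y / cF A q N ϖ ^ k ∈ chartF A q (coordB A q z b) := by
  classical
  haveI := finite_galLvl (A := A) (q := q) (N := N) (ℓ := ℓ)
  haveI := Fintype.ofFinite (galLvl (N := N) A q ℓ)
  set π := cF A q N ϖ with hπ
  have hπ0 : π ≠ 0 := cF_pi_ne_zero hC
  set x := y / π ^ k
  set S : (flN N (constK A q))[X] := ∏ g : galLvl (N := N) A q ℓ, (X - C (g.1 x)) with hSdef
  have hSm : S.Monic := monic_prod_of_monic _ _ fun g _ => monic_X_sub_C _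
  have hroot : S.eval x = 0 := by
    rw [hSdef, eval_prod]
    exact Finset.prod_eq_zero (Finset.mem_univ (1 : galLvl (N := N) A q ℓ)) (by simp)
  have hfix : ∀ g ∈ galLvl A q ℓ, ∀ i, g (S.coeff i) = S.coeff i := fun g hg i => by
    have : S.map ((g : flN N (constK A q) ≃+* flN N (constK A q)) :
        flN N (constK A q) →+* flN N (constK A q)) = S := by
      rw [hSdef, Polynomial.map_prod]
      refine Fintype.prod_equiv (Equiv.mulLeft (⟨g, hg⟩ : galLvl A q ℓ)) _ _ fun g' => ?_
      simp
    conv_rhs => rw [← this, coeff_map]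
    rfl
  set n := k * Fintype.card (galLvl (N := N) A q ℓ)
  have hscale : ∀ i, π ^ n * S.coeff i ∈ chartF A q (coordB A q z b) := fun i => by
    have e : C (π ^ n) * S = (∏ g : galLvl (N := N) A q ℓ,
        (C (cstB A q (coordB A q z b) ϖ ^ k) * X - C (galB hz g.2 b ⟨y, hy⟩))).map
          (chartF A q (coordB A q z b)).subtype := by
      rw [Polynomial.map_prod, hSdef,
        show π ^ n = (π ^ k) ^ (Finset.univ : Finset (galLvl (N := N) A q ℓ)).card by
          simp only [n, Finset.card_univ, pow_mul],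
        map_pow C (π ^ k), ← Finset.prod_const, ← Finset.prod_mul_distrib]
      refine Finset.prod_congr rfl fun g _ => ?_
      have hg : g.1 x = g.1 y / π ^ k := by
        rw [map_div₀, map_pow, hπ, galLvl_cF g.2]
      simp only [Polynomial.map_sub, Polynomial.map_mul, Polynomial.map_C, Polynomial.map_X,
        Polynomial.map_pow, map_pow, Subring.subtype_apply, coe_cstB, coe_galB]
      rw [mul_sub, hg, ← map_pow C, ← map_mul C (π ^ k), mul_div_cancel₀ _ (pow_ne_zero k hπ0)]
    have h1 := congrArg (fun T : (flN N (constK A q))[X] => T.coeff i) e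
    simp only [coeff_C_mul, coeff_map] at h1
    rw [h1]
    exact SetLike.coe_mem _
  have hcoef : ∀ i, ∃ P : (baseO A (constL A q).toSubfield)[X],
      S.coeff i = P.eval₂ (cF A q N) (coordB A q z b) := fun i => by
    obtain ⟨P, hP⟩ := fixed_mem_range hz hC b (fun g hg => by
      rw [map_mul, map_pow, hπ, galLvl_cF hg, hfix g hg i]) (hscale i)
    rcases eq_or_ne P 0 with rfl | hP0
    · rw [eval₂_zero, mul_eq_zero] at hP
      exact ⟨0, by rw [eval₂_zero, hP.resolve_left (pow_ne_zero _ hπ0)]⟩
    obtain ⟨j, P', hP', hunit⟩ := exists_poly_content hC (fun _ : Unit => P) ⟨(), hP0⟩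
    obtain ⟨⟨⟩, l, hl⟩ := hunit
    rw [show P = C (ϖ ^ j) * P' () from hP' (), eval₂_mul, eval₂_C, map_pow, ← hπ] at hP
    obtain ⟨W, hW⟩ := exists_isVert hz hC
    have hW1 : W.valuation (S.coeff i) ≤ 1 := by
      have : S = (∏ g : galLvl (N := N) A q ℓ, (X - C (⟨g.1 x, (W.valuation_le_one_iff _).1 (by
          have h1 : x ∈ W.comap ((g.1 : flN N (constK A q) ≃+* flN N (constK A q)) :
              flN N (constK A q) →+* flN N (constK A q)) :=
            (ValuationSubring.valuation_le_one_iff _ _).1 (h _ (isVertF_comap hz hC g.2 hW))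
          exact (W.valuation_le_one_iff _).2 (ValuationSubring.mem_comap.1 h1))⟩ : W))).map
            W.subtype := by
        rw [hSdef, Polynomial.map_prod]
        simp
      rw [this, coeff_map]
      exact (W.valuation_le_one_iff _).2 (SetLike.coe_mem _)
    have hp1 : W.valuation π < 1 := hW.1
    have hp0 : (0 : _) < W.valuation π := zero_lt_iff.2 ((Valuation.ne_zero_iff _).2 hπ0)
    have hv := congrArg W.valuation hP
    rw [map_mul, map_mul, map_pow, map_pow, (vert_coordB hW b).2 _ ⟨l, hl⟩, mul_one] at hv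
    have hnj : n ≤ j := by
      have h2 : W.valuation π ^ j ≤ W.valuation π ^ n := by
        rw [← hv]; exact mul_le_of_le_one_right' hW1
      exact (pow_le_pow_iff_right_of_lt_one₀ hp0 hp1).1 h2
    refine ⟨C (ϖ ^ (j - n)) * P' (), mul_left_cancel₀ (pow_ne_zero n hπ0) ?_⟩
    rw [hP, eval₂_mul, eval₂_C, map_pow, ← hπ, ← mul_assoc, ← pow_add, Nat.add_sub_cancel' hnj]
  choose P hP using hcoef
  refine mem_chart_of_isIntegral ?_
  set d := S.natDegree
  refine ⟨X ^ d + ∑ i ∈ Finset.range d, C (polyB (coordB A q z b) (P i)) * X ^ i,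
    monic_X_pow_add ((degree_sum_le _ _).trans_lt
      ((Finset.sup_lt_iff (WithBot.bot_lt_coe d)).2 fun i hi =>
        (degree_C_mul_X_pow_le _ _).trans_lt (Nat.cast_lt.2 (Finset.mem_range.1 hi)))), ?_⟩
  rw [eval_eq_sum_range, Finset.sum_range_succ, hSm.coeff_natDegree, one_mul, add_comm] at hroot
  simp only [eval₂_add, eval₂_pow, eval₂_X, eval₂_finsetSum, eval₂_mul, eval₂_C]
  convert hroot using 3 with i
  rw [hP i]
  rfl

/-- **A divisor of a power of the uniformiser which is a unit on the components through a point is a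
unit there.** -/
theorem ptRes_ne_zero_of_verts {p : Pt A q z} (hp : IsPtF ϖ p) (x y : locPt hp) (n : ℕ)
    (hxy : (x : flN N (constK A q)) * y = cF A q N ϖ ^ n)
    (h : ∀ W ∈ vertsAt A q ϖ z p, W.valuation (x : flN N (constK A q)) = 1) :
    ptRes hC hp x ≠ 0 := by
  classical
  have hπ0 : cF A q N ϖ ≠ 0 := cF_pi_ne_zero hC
  set s := (finite_verts hz hC).toFinset
  obtain ⟨a, c, hc, hac⟩ := y.2
  have key : ∀ W ∈ s, ∃ e : chartF A q (coordB A q z p.1), e ∉ p.2 ∧
      W.valuation ((e : flN N (constK A q)) * (a / cF A q N ϖ ^ n)) ≤ 1 := fun W hW => by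
    have hWv : IsVertF A q ϖ z W := (finite_verts hz hC).mem_toFinset.1 hW
    by_cases hT : Thru p W
    · refine ⟨c, hc, ?_⟩
      have hcW : W.valuation (c : flN N (constK A q)) = 1 :=
        le_antisymm ((W.valuation_le_one_iff _).2 (vert_mem_chart hC hWv p.1 c.2))
          (not_lt.1 fun hlt => hc (hT c hlt))
      have hyW : W.valuation (y : flN N (constK A q)) = W.valuation (cF A q N ϖ ^ n) := by
        rw [← hxy, map_mul, h W ⟨hWv, hT⟩, one_mul]
      rw [← hac, map_mul, map_div₀, map_mul, hcW, one_mul, mul_one, hyW, div_self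
        ((Valuation.ne_zero_iff _).2 (pow_ne_zero n hπ0))]
    · simp only [Thru, not_forall] at hT
      obtain ⟨e, he, hep⟩ := hT
      obtain ⟨M, hM⟩ := (scaled_vert hz hC hWv).arch he ((a : flN N (constK A q)) / cF A q N ϖ ^ n)
      refine ⟨e ^ M, fun hm => hep (hp.1.isPrime.mem_of_pow_mem M hm), ?_⟩
      push_cast
      exact (hM M le_rfl).le
  choose e he heW using key
  set E : chartF A q (coordB A q z p.1) := ∏ W : {W // W ∈ s}, e W.1 W.2
  have hE : E ∉ p.2 := fun hm => by
    obtain ⟨W, -, hW⟩ := hp.1.isPrime.prod_mem_iff.1 hm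
    exact he W.1 W.2 hW
  have hdiv := div_mem_chart hz hC p.1 ((a * E : chartF A q (coordB A q z p.1)).2) n fun W hW => by
    have hWs : W ∈ s := (finite_verts hz hC).mem_toFinset.2 hW
    push_cast
    rw [show E = e W hWs * ∏ V ∈ Finset.univ.erase (⟨W, hWs⟩ : {W // W ∈ s}), e V.1 V.2 from
      (Finset.mul_prod_erase _ _ (Finset.mem_univ _)).symm]
    push_cast
    rw [show ((a : flN N (constK A q)) * ((e W hWs : flN N (constK A q)) *
        ∏ V ∈ Finset.univ.erase (⟨W, hWs⟩ : {W // W ∈ s}), (e V.1 V.2 : flN N (constK A q)))) /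
        cF A q N ϖ ^ n = ((e W hWs : flN N (constK A q)) * ((a : flN N (constK A q)) /
          cF A q N ϖ ^ n)) * ∏ V ∈ Finset.univ.erase (⟨W, hWs⟩ : {W // W ∈ s}),
            (e V.1 V.2 : flN N (constK A q)) by ring, map_mul, map_prod]
    exact mul_le_one' (heW W hWs) (Finset.prod_le_one' fun V _ =>
      (W.valuation_le_one_iff _).2 (vert_mem_chart hC hW p.1 (e V.1 V.2).2))
  intro hx
  set a' : chartF A q (coordB A q z p.1) := ⟨_, hdiv⟩
  have e1 : x * ⟨_, chart_le_loc hp a'.2⟩ = ⟨_, chart_le_loc hp (c * E).2⟩ := Subtype.ext (by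
    show (x : flN N (constK A q)) * (((a * E : chartF A q (coordB A q z p.1)) : flN N (constK A q)) /
      cF A q N ϖ ^ n) = ((c * E : chartF A q (coordB A q z p.1)) : flN N (constK A q))
    rw [eq_comm, ← mul_div_assoc, eq_div_iff (pow_ne_zero n hπ0), ← hxy]
    push_cast
    rw [← hac]
    ring)
  have e2 := congrArg (ptRes hC hp) e1
  rw [map_mul, hx, zero_mul, ptRes_chart, eq_comm, ptResB_eq_zero] at e2
  exact (hp.1.isPrime.mem_or_mem e2).elim hc hE

end FA.Carayol.OddP

end
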