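import Fermat.Agent.Carayol.OddPts.Torsion
import Fermat.Agent.Carayol.OddPts.Gauss

/-!
# The kernel of the reduction on the points of order `q`

It is read off from the residues of the parameters; the division polynomial gives the product of the
parameters in it, and, where its top coefficient is a unit, that it is a line.
-/

set_option autoImplicit false
set_option linter.unusedSectionVars false
set_option linter.style.haveILetI false

noncomputable section

namespace FA.Carayol.OddP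

open CongruenceSubgroup ModularCurve FA.Level
open scoped MatrixGroups

local notation "Qb" => AlgebraicClosure ℚ

variable [Algebra Qb ℂ] {A : ValuationSubring Qb} {q : ℕ} [hq : Fact q.Prime] {N g : ℕ} [NeZero N]
  {hN : N = 4 * g} {hζ : ∀ b : ℤ, FA.Mazur.Wp.eta N b ∈ constK A q}
  {ϖ : baseO A (constL A q).toSubfield}

namespace OddCtx

variable {m : ℕ} {p : Pt A q (lamF hN hζ)} (C : OddCtx (hN := hN) (hζ := hζ) m p ϖ)

/-- The parameter of a point of order `q` in the local ring. -/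
def zq (u : ZMod q × ZMod q) : locPt C.hp :=
  ⟨zF hN hζ (tq q m u), C.zF_mem_loc (tq_order C.hNqm u)⟩

theorem coe_zq (u : ZMod q × ZMod q) :
    (C.zq u : flN N (constK A q)) = zF hN hζ (tq q m u) := rfl

include C in
theorem zq_zero : zF hN hζ (tq q m (0 : ZMod q × ZMod q)) = 0 :=
  zF_of_not fun h => (isVec_tq C.hNqm).1 h rfl

variable {R : ValuationSubring (flN N (constK A q))} (hR : AbovePt C.hp R)
include C hR

/-- The points of order `q` reducing to the origin. -/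
def kerR : AddSubgroup (ZMod q × ZMod q) where
  carrier := {u | InKer hN hζ R (tq q m u)}
  zero_mem' := fun h => absurd rfl ((isVec_tq C.hNqm).1 h)
  add_mem' := fun {u u'} hu hu' =>
    (inKer_congr (tq_add C.hNqm u u')).2 ((C.kerFacts hR).add_mem _ _ hu hu')
  neg_mem' := fun {u} hu =>
    (inKer_congr (tq_neg C.hNqm u)).2 ((C.kerSub hR).neg_mem hu)

theorem mem_kerR {u : ZMod q × ZMod q} : u ∈ C.kerR hR ↔ InKer hN hζ R (tq q m u) := Iff.rfl

theorem mem_kerR_iff_lt {u : ZMod q × ZMod q} :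
    u ∈ C.kerR hR ↔ R.valuation (C.zq u : flN N (constK A q)) < 1 := by
  rcases eq_or_ne u 0 with rfl | hu
  · rw [coe_zq, C.zq_zero, map_zero]
    exact iff_of_true (zero_mem _) zero_lt_one
  refine ⟨fun h => (C.ker_zF_sq hR ((isVec_tq C.hNqm).2 hu) h).2, fun h => ?_⟩
  by_contra hk
  rw [coe_zq, C.zF_unit hR (tq_order C.hNqm u) hk] at h
  exact lt_irrefl _ h

theorem res_zero_of_mem {u : ZMod q × ZMod q} (hu : u ∈ C.kerR hR) :
    ptRes C.hC C.hp (C.zq u) = 0 :=
  ptRes_eq_zero_of_lt C.hC C.hp hR ((C.mem_kerR_iff_lt hR).1 hu)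

omit hR in
theorem mem_kerR_iff_res {V : ValuationSubring (flN N (constK A q))}
    (hV : CentredPt C.hC C.hp V) {u : ZMod q × ZMod q} :
    u ∈ C.kerR hV.1 ↔ ptRes C.hC C.hp (C.zq u) = 0 := by
  rw [C.mem_kerR_iff_lt hV.1, hV.lt_iff]

/-- Multiples have the same valuation. -/
theorem val_zq_smul {u : ZMod q × ZMod q} (hu : u ∈ C.kerR hR) (hu0 : u ≠ 0) {a : ZMod q}
    (ha : a ≠ 0) :
    R.valuation (C.zq (a • u) : flN N (constK A q)) = R.valuation (C.zq u : flN N (constK A q)) := by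
  have hv : IsVec N (tq q m u) := (isVec_tq C.hNqm).2 hu0
  have hs := tq_smul C.hNqm ((a.val : ℕ) : ℤ) u
  rw [Int.cast_natCast, ZMod.natCast_zmod_val] at hs
  have h := (C.kerFacts hR).zF_mul _ hu hv ((a.val : ℕ) : ℤ)
  rw [← zF_congr hs] at h
  have ha' : ¬ q ∣ a.val := fun hd => ha ((ZMod.val_eq_zero a).1
    (Nat.eq_zero_of_dvd_of_lt hd a.val_lt))
  have h1 : R.valuation ((((a.val : ℕ) : ℤ) : flN N (constK A q)) * zF hN hζ (tq q m u)) =
      R.valuation (zF hN hζ (tq q m u)) := by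
    rw [Int.cast_natCast, map_mul, val_natCast C.hC C.hp hR C.hA ha', one_mul]
  rw [coe_zq, coe_zq, ← h1]
  refine Valuation.map_eq_of_sub_lt _ ?_
  rwa [h1]

/-- The half of the kernel. -/
def halfKer (C : OddCtx (hN := hN) (hζ := hζ) m p ϖ) (_ : AbovePt C.hp R) : Finset (ℤ × ℤ) :=
  letI := Classical.decPred fun v => InKer hN hζ R v
  (qHalf q m).filter fun v => InKer hN hζ R v

theorem mem_halfKer {v : ℤ × ℤ} : v ∈ C.halfKer hR ↔ v ∈ qHalf q m ∧ InKer hN hζ R v := by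
  simp [halfKer]

theorem exists_of_halfKer {v : ℤ × ℤ} (hv : v ∈ C.halfKer hR) :
    ∃ u, u ≠ 0 ∧ u ∈ C.kerR hR ∧ v = tq q m u := by
  obtain ⟨hv, hk⟩ := (C.mem_halfKer hR).1 hv
  obtain ⟨u, hu, rfl⟩ := exists_tq_of_qHalf C.hNqm C.hq2 hv
  exact ⟨u, hu, hk, rfl⟩

omit hR in
include C in
theorem card_half : (qHalf q m).card = (q ^ 2 - 1) / 2 :=
  card_qHalf (hq.out.odd_of_ne_two C.hq2)
    (Nat.pos_of_ne_zero fun h0 => NeZero.ne N (by rw [C.hNqm, h0, mul_zero]))

theorem bigRoots_eq : bigRoots R (qHalf q m) (xF hN hζ) = C.halfKer hR := by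
  ext v
  rw [mem_bigRoots, mem_halfKer]
  refine and_congr_right fun hv => ⟨fun h _ => h, fun h => h ?_⟩
  obtain ⟨u, hu, rfl⟩ := exists_tq_of_qHalf C.hNqm C.hq2 hv
  exact (isVec_tq C.hNqm).2 hu

/-- **The product of the parameters in the kernel.** -/
theorem ker_prod :
    R.valuation (q : flN N (constK A q)) =
      ∏ v ∈ C.halfKer hR, R.valuation (zF hN hζ v) ^ 2 := by
  have h := gauss_prod R (qHalf q m) (xF hN hζ)
    ((psiHolds hN hζ q m hq.out C.hq2 C.hNqm C.hqm).2) (C.psi_le hR) (C.psi_exists_unit hR)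
  rw [C.bigRoots_eq hR] at h
  have h1 : (∏ v ∈ C.halfKer hR, R.valuation (zF hN hζ v) ^ 2) *
      ∏ v ∈ C.halfKer hR, R.valuation (xF hN hζ v) = 1 := by
    rw [← Finset.prod_mul_distrib]
    refine Finset.prod_eq_one fun v hv => ?_
    obtain ⟨u, hu, hk, rfl⟩ := C.exists_of_halfKer hR hv
    exact (C.ker_zF_sq hR ((isVec_tq C.hNqm).2 hu) hk).1
  exact mul_right_cancel₀ (right_ne_zero_of_mul_eq_one h) (h.trans h1.symm)

omit hR in
include C in
theorem exists_q_eq : ∃ e : baseO A (constL A q).toSubfield, IsUnit e ∧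
    (q : baseO A (constL A q).toSubfield) = ϖ ^ (q - 1) * e := by
  have hϖ0 : (ϖ : Qb) ≠ 0 := fun h => C.hC.irreducible.ne_zero (Subtype.ext h)
  have hq0 : (q : Qb) ≠ 0 := Nat.cast_ne_zero.2 hq.out.ne_zero
  have hval : A.valuation ((q : Qb) / (ϖ : Qb) ^ (q - 1)) = 1 := by
    rw [map_div₀, map_pow, C.hϖ, div_self ((Valuation.ne_zero_iff _).2 hq0)]
  have hL : (q : Qb) / (ϖ : Qb) ^ (q - 1) ∈ (constL A q).toSubfield :=
    div_mem (natCast_mem _ q) (pow_mem ϖ.2.2 _)
  refine ⟨⟨_, (A.valuation_le_one_iff _).1 hval.le, hL⟩, isUnit_iff_exists_inv.2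
    ⟨⟨((q : Qb) / (ϖ : Qb) ^ (q - 1))⁻¹, (A.valuation_le_one_iff _).1 (by rw [map_inv₀, hval, inv_one]),
      (constL A q).toSubfield.inv_mem hL⟩, Subtype.ext ?_⟩, Subtype.ext ?_⟩
  · exact mul_inv_cancel₀ (div_ne_zero hq0 (pow_ne_zero _ hϖ0))
  · show (q : Qb) = (ϖ : Qb) ^ (q - 1) * ((q : Qb) / (ϖ : Qb) ^ (q - 1))
    rw [mul_div_cancel₀ _ (pow_ne_zero _ hϖ0)]

theorem val_q : R.valuation (q : flN N (constK A q)) = R.valuation (cF A q N ϖ) ^ (q - 1) := by
  obtain ⟨e, he, h⟩ := C.exists_q_eq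
  rw [← map_natCast (cF A q N), h, map_mul, map_pow, map_mul, map_pow,
    val_cF_unit C.hC C.hp hR he, mul_one]

theorem card_halfKer (hπ : R.valuation (cF A q N ϖ) < 1)
    (htop : R.valuation (((legendre (lamF hN hζ)).preΨ' q).coeff C.top) = 1) :
    (C.halfKer hR).card = (q - 1) / 2 ∧
      R.valuation (((legendre (lamF hN hζ)).preΨ' q).coeff C.top -
        (q : flN N (constK A q)) * ∏ v ∈ C.halfKer hR, -xF hN hζ v) < 1 := by
  obtain ⟨h1, -, h3⟩ := gauss_split R (qHalf q m) (xF hN hζ)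
    ((psiHolds hN hζ q m hq.out C.hq2 C.hNqm C.hqm).2) (C.psi_le hR) htop
    fun j hj => C.psi_high hR hπ hj
  rw [C.bigRoots_eq hR] at h1 h3
  refine ⟨?_, h3⟩
  obtain ⟨k, hk⟩ := hq.out.odd_of_ne_two C.hq2
  rw [C.card_half] at h1
  have e1 : q ^ 2 = 2 * (q * k + k) + 1 := by rw [hk]; ring
  have e2 : (q - 1) / 2 = k := by omega
  rw [top, e1, e2] at h1
  omega

/-- The kernel is the line `l`. -/
def IsKerLine (l : Option (ZMod q)) : Prop :=
  ∀ u, u ∈ C.kerR hR ↔ ∃ a : ZMod q, u = a • lineVec l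

theorem exists_kerLine (hπ : R.valuation (cF A q N ϖ) < 1)
    (htop : R.valuation (((legendre (lamF hN hζ)).preΨ' q).coeff C.top) = 1) :
    ∃ l, C.IsKerLine hR l := by
  obtain ⟨hcard, -⟩ := C.card_halfKer hR hπ htop
  obtain ⟨k, hk⟩ := hq.out.odd_of_ne_two C.hq2
  have hk1 : 1 ≤ k := by
    have := hq.out.two_le
    omega
  have hk' : (q - 1) / 2 = k := by omega
  obtain ⟨v, hv⟩ := Finset.card_pos.1 (by omega : 0 < (C.halfKer hR).card)
  obtain ⟨u, hu0, hu, -⟩ := C.exists_of_halfKer hR hv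
  obtain ⟨l, a, ha, rfl⟩ := exists_line_eq hu0
  have hl : lineVec l ∈ C.kerR hR := by
    have := smul_mem_addSubgroup (C.kerR hR) a⁻¹ hu
    rwa [smul_smul, inv_mul_cancel₀ ha, one_smul] at this
  have htop' : C.kerR hR ≠ ⊤ := fun htp => by
    have hall : C.halfKer hR = qHalf q m := Finset.ext fun w => by
      rw [mem_halfKer, and_iff_left_iff_imp]
      intro hw
      obtain ⟨u, -, rfl⟩ := exists_tq_of_qHalf C.hNqm C.hq2 hw
      exact (C.mem_kerR hR).1 (htp ▸ AddSubgroup.mem_top u)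
    rw [hall, C.card_half, hk'] at hcard
    have e1 : q ^ 2 = 2 * (q * k + k) + 1 := by rw [hk]; ring
    have e3 : 1 ≤ q * k := Nat.one_le_iff_ne_zero.2 (mul_ne_zero hq.out.ne_zero (by omega))
    omega
  refine ⟨l, fun w => ⟨fun hw => ?_, ?_⟩⟩
  · rcases eq_or_ne w 0 with rfl | hw0
    · exact ⟨0, (zero_smul _ _).symm⟩
    obtain ⟨l', b, hb, rfl⟩ := exists_line_eq hw0
    have hl' : lineVec l' ∈ C.kerR hR := by
      have := smul_mem_addSubgroup (C.kerR hR) b⁻¹ hw
      rwa [smul_smul, inv_mul_cancel₀ hb, one_smul] at this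
    exact ⟨b, by rw [line_unique_of_ne_top htop' hl hl']⟩
  · rintro ⟨b, rfl⟩
    exact smul_mem_addSubgroup _ b hl

theorem IsKerLine.mem {l : Option (ZMod q)} (h : C.IsKerLine hR l) : lineVec l ∈ C.kerR hR :=
  (h _).2 ⟨1, (one_smul _ _).symm⟩

theorem IsKerLine.val_eq {l : Option (ZMod q)} (h : C.IsKerLine hR l) {v : ℤ × ℤ}
    (hv : v ∈ C.halfKer hR) :
    R.valuation (zF hN hζ v) = R.valuation (C.zq (lineVec l) : flN N (constK A q)) := by
  obtain ⟨u, hu0, hu, rfl⟩ := C.exists_of_halfKer hR hv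
  obtain ⟨a, rfl⟩ := (h u).1 hu
  have ha : a ≠ 0 := fun h0 => hu0 (by rw [h0, zero_smul])
  exact C.val_zq_smul hR (h.mem C hR) (lineVec_ne_zero l) ha

/-- **The parameters on the line have the valuation of the uniformiser.** -/
theorem IsKerLine.val_line {l : Option (ZMod q)} (h : C.IsKerLine hR l)
    (hcard : (C.halfKer hR).card = (q - 1) / 2) :
    R.valuation (C.zq (lineVec l) : flN N (constK A q)) = R.valuation (cF A q N ϖ) := by
  have h1 := C.ker_prod hR
  rw [Finset.prod_congr rfl fun v hv => by rw [h.val_eq C hR hv], Finset.prod_const, hcard,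
    C.val_q hR, ← pow_mul] at h1
  obtain ⟨k, hk⟩ := hq.out.odd_of_ne_two C.hq2
  have hq2 := hq.out.two_le
  rw [show 2 * ((q - 1) / 2) = q - 1 by omega] at h1
  exact ((pow_left_inj₀ zero_le zero_le (by omega)).1 h1).symm

end OddCtx

end FA.Carayol.OddP

end
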