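import Fermat.Agent.Carayol.OddPts.Kernel
import Fermat.Agent.Carayol.OddPts.Invariant
import Fermat.Agent.Carayol.OddInf.Line

/-!
# The stabiliser of a point away from the cusps

It preserves the residues of the abscissae of the points of order prime to `q`, so it comes from
`Γ(m)`, and it is read off modulo `q`.
-/

set_option autoImplicit false
set_option linter.unusedSectionVars false
set_option linter.style.haveILetI false

noncomputable section

namespace FA.Carayol.OddP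

open CongruenceSubgroup ModularCurve FA.Level
open scoped MatrixGroups

local notation "Qb" => AlgebraicClosure ℚ

section action

variable {N g : ℕ} [NeZero N] {K : Subfield ℂ} (hN : N = 4 * g)
  (hζ : ∀ b : ℤ, FA.Mazur.Wp.eta N b ∈ K)

theorem flAct_neg (γ : SL(2, ℤ)) (x : flN N K) : flAct (-γ) x = flAct γ x :=
  Subtype.ext (RingHom.congr_fun
    (merComp_congr (isGoodMap_smul (-γ)) (isGoodMap_smul γ)
      (funext fun z => ModularGroup.SL_neg_smul γ z)) (x : Mer))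

theorem isVec_vmul_iff {v : ℤ × ℤ} (γ : SL(2, ℤ)) : IsVec N (vmul v γ) ↔ IsVec N v :=
  ⟨fun h => by simpa [← vmul_mul, vmul_one] using h.vmul γ⁻¹, fun h => h.vmul γ⟩

theorem actX {γ : SL(2, ℤ)} (hγ : γ ∈ Gamma 2) (v : ℤ × ℤ) :
    flAct γ (xF hN hζ v) = xF hN hζ (vmul v γ) := by
  by_cases hv : IsVec N v
  · exact flAct_xF hN hζ hγ hv
  · rw [xF_of_not hN hζ hv, map_zero, xF_of_not hN hζ fun h => hv ((isVec_vmul_iff γ).1 h)]

variable {m : ℕ}

include hN in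
theorem vmul_qV (h4 : 4 ∣ m) {γ : SL(2, ℤ)} (hγ : γ ∈ Gamma m) :
    ¬ IsVec N (vmul (qV g) γ - qV g) := by
  obtain ⟨-, -, h10, h11⟩ := Gamma_mem.1 hγ
  have h4' : (4 : ℤ) ∣ (m : ℤ) := by exact_mod_cast h4
  obtain ⟨k, hk⟩ := h4'.trans ((ZMod.intCast_zmod_eq_zero_iff_dvd _ m).1 h10)
  obtain ⟨l, hl⟩ := h4'.trans ((ZMod.intCast_eq_intCast_iff_dvd_sub 1 _ m).1 (by rw [h11]; simp))
  rw [IsVec, not_not]
  refine ⟨⟨k, ?_⟩, ⟨l, ?_⟩⟩
  · simp [vmul, qV, hN, hk]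
    ring
  · simp only [vmul, qV, Prod.snd_sub, zero_mul, zero_add, hN]
    push_cast
    linear_combination (g : ℤ) * hl

theorem gamma_two_of_four (h4 : 4 ∣ m) {γ : SL(2, ℤ)} (hγ : γ ∈ Gamma m) : γ ∈ Gamma 2 :=
  gamma_le_of_dvd ((show 2 ∣ 4 by norm_num).trans h4) hγ

theorem actZ (h4 : 4 ∣ m) {γ : SL(2, ℤ)} (hγ : γ ∈ Gamma m) (v : ℤ × ℤ) :
    flAct γ (zF hN hζ v) = zF hN hζ (vmul v γ) := by
  have hγ2 := gamma_two_of_four h4 hγ
  have hQ := vmul_qV hN h4 hγ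
  have hadd : ¬ IsVec N (vmul (v + qV g) γ - (vmul v γ + qV g)) := by
    rwa [vmul_add, add_sub_add_left_eq_sub]
  have hsub : ¬ IsVec N (vmul (v - qV g) γ - (vmul v γ - qV g)) := by
    rw [vmul_sub, sub_sub_sub_cancel_left, ← neg_sub, isVec_neg]
    exact hQ
  have hd : flAct γ (dF hN hζ) = dF hN hζ := by
    simp only [dF, map_mul, map_sub, map_one, actX hN hζ hγ2, xF_congr hN hζ hQ]
    rw [show flAct γ (lamF hN hζ) = lamF hN hζ from
      (flAct_toFl γ _).trans (congrArg toFl (rAct_lam_gamma_two (two_g hN) K hζ hγ2))]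
  have hy : flAct γ (yF hN hζ v) = yF hN hζ (vmul v γ) := by
    have h1 : IsVec N (v - qV g) ↔ IsVec N (vmul v γ - qV g) := by
      rw [← isVec_congr hsub, isVec_vmul_iff]
    have h2 : IsVec N (v + qV g) ↔ IsVec N (vmul v γ + qV g) := by
      rw [← isVec_congr hadd, isVec_vmul_iff]
    by_cases a1 : IsVec N (v - qV g)
    · by_cases a2 : IsVec N (v + qV g)
      · rw [yF, if_pos a1, if_pos a2, yF, if_pos (h1.1 a1), if_pos (h2.1 a2)]
        simp only [map_div₀, map_neg, map_mul, map_sub, map_pow, map_ofNat, hd, actX hN hζ hγ2,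
          xF_congr hN hζ hadd, xF_congr hN hζ hsub, xF_congr hN hζ hQ]
      · rw [yF, if_pos a1, if_neg a2, yF, if_pos (h1.1 a1), if_neg fun h => a2 (h2.2 h),
          map_neg, map_one]
    · rw [yF, if_neg a1, yF, if_neg fun h => a1 (h1.2 h), map_one]
  rw [zF, zF, map_div₀, map_neg, actX hN hζ hγ2, hy]

end action

variable [Algebra Qb ℂ] {A : ValuationSubring Qb} {q : ℕ} [hq : Fact q.Prime] {N g : ℕ} [NeZero N]
  {hN : N = 4 * g} {hζ : ∀ b : ℤ, FA.Mazur.Wp.eta N b ∈ constK A q}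
  {ϖ : baseO A (constL A q).toSubfield}

section residue

variable {z : flN N (constK A q)} {ℓ : ℕ} (hz : Coord A q ℓ z)
  (hC : ConstHyp A (constL A q).toSubfield ϖ) {p : Pt A q z} (hp : IsPtF ϖ p)
  {σ : flN N (constK A q) ≃+* flN N (constK A q)} (hσ : σ ∈ stabSet (galLvl A q ℓ) (ptSet p))
include hz hC hp hσ

theorem galB_mem_iff (x : chartF A q (coordB A q z p.1)) : galB hz hσ.1 p.1 x ∈ p.2 ↔ x ∈ p.2 := by
  have key : ∀ y : chartF A q (coordB A q z p.1),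
      (y : flN N (constK A q)) ∈ ptSet p ↔ y ∈ p.2 := fun y =>
    ⟨fun ⟨y', h, e⟩ => (Subtype.ext e : y' = y) ▸ h, fun h => ⟨y, h, rfl⟩⟩
  rw [← key, ← key, coe_galB]
  exact hσ.2 x

theorem ptResB_galB (x : chartF A q (coordB A q z p.1)) :
    ptResB hC hp (galB hz hσ.1 p.1 x) = ptResB hC hp x := by
  obtain ⟨a, ha⟩ := exists_pt_residue hC hp x
  have hgc : galB hz hσ.1 p.1 (cstB A q _ a) = cstB A q _ a :=
    Subtype.ext (galLvl_cF hσ.1 a)
  have h := (galB_mem_iff hz hC hp hσ _).2 ha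
  rw [map_sub, hgc, ← ptResB_eq_zero hC hp, map_sub, sub_eq_zero] at h
  rw [← ptResB_eq_zero hC hp, map_sub, sub_eq_zero] at ha
  rw [h, ha]

theorem stab_loc (x : locPt hp) :
    ∃ h : σ (x : flN N (constK A q)) ∈ locPt hp, ptRes hC hp ⟨_, h⟩ = ptRes hC hp x := by
  obtain ⟨a, c, hc, hac⟩ := x.2
  have hc' : galB hz hσ.1 p.1 c ∉ p.2 := fun h => hc ((galB_mem_iff hz hC hp hσ c).1 h)
  have e : σ (x : flN N (constK A q)) * (galB hz hσ.1 p.1 c : flN N (constK A q)) =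
      galB hz hσ.1 p.1 a := by
    rw [coe_galB, coe_galB, ← map_mul, hac]
  refine ⟨⟨_, _, hc', e⟩, ?_⟩
  rw [locRes_eq hC hp hc hac, locRes_eq hC hp hc' (x := ⟨_, ⟨_, _, hc', e⟩⟩) e,
    ptResB_galB hz hC hp hσ, ptResB_galB hz hC hp hσ]

end residue

namespace OddCtx

variable {m : ℕ} {p : Pt A q (lamF hN hζ)} (C : OddCtx (hN := hN) (hζ := hζ) m p ϖ)
include C

theorem exists_centred : ∃ V, CentredPt C.hC C.hp V := by
  obtain ⟨V, -, hV⟩ := exists_centred_le C.hC C.hp (R := ⊤) fun x _ => Subring.mem_top x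
  exact ⟨V, hV⟩

theorem xF_mem_loc {v : ℤ × ℤ} (hm : ¬ IsVec N ((m : ℤ) • v)) :
    xF hN hζ v ∈ locPt C.hp := by
  by_cases hv : IsVec N v
  · exact mem_loc_of_forall C.hp fun R hR =>
      (R.valuation_le_one_iff _).1 (C.xF_le hR (C.mtor_not_inKer hR hv hm))
  · rw [xF_of_not hN hζ hv]
    exact zero_mem _

theorem xF_vmul_mtor {γ : SL(2, ℤ)} {v : ℤ × ℤ} (hm : ¬ IsVec N ((m : ℤ) • v)) :
    ¬ IsVec N ((m : ℤ) • vmul v γ) := by
  rw [show (m : ℤ) • vmul v γ = vmul ((m : ℤ) • v) γ by simp [vmul, mul_add, mul_assoc]]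
  exact fun h => hm ((isVec_vmul_iff γ).1 h)

/-- The residues of the abscissae of the points of order prime to `q` are kept. -/
def KeepsRes (C : OddCtx (hN := hN) (hζ := hζ) m p ϖ) (γ : SL(2, ℤ)) : Prop :=
  ∀ (v : ℤ × ℤ) (hv : ¬ IsVec N ((m : ℤ) • v)),
    ptRes C.hC C.hp ⟨xF hN hζ (vmul v γ), C.xF_mem_loc (C.xF_vmul_mtor hv)⟩ =
      ptRes C.hC C.hp ⟨xF hN hζ v, C.xF_mem_loc hv⟩

theorem keepsRes_of_stab {γ : SL(2, ℤ)} (hγ : γ ∈ Gamma 2)
    (hs : flEquiv γ ∈ stabSet (galLvl A q 2) (ptSet p)) : C.KeepsRes γ := fun v hv => by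
  obtain ⟨hl, he⟩ := stab_loc C.hz C.hC C.hp hs ⟨_, C.xF_mem_loc hv⟩
  rw [← he]
  exact congrArg _ (Subtype.ext (actX hN hζ hγ v).symm)

theorem vmul_fix {γ : SL(2, ℤ)} (hs : C.KeepsRes γ) {v : ℤ × ℤ} (hv : IsVec N v)
    (hm : ¬ IsVec N ((m : ℤ) • v)) :
    ¬ IsVec N (v - vmul v γ) ∨ ¬ IsVec N (v + vmul v γ) := by
  obtain ⟨V, hV⟩ := C.exists_centred
  have hw : IsVec N (vmul v γ) := hv.vmul γ
  have hwm : ¬ IsVec N ((m : ℤ) • vmul v γ) := C.xF_vmul_mtor hm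
  have he := hs v hm
  rw [← sub_eq_zero, ← map_sub, ← hV.lt_iff] at he
  have h1 := (C.kerFacts hV.1).separated (C.val_lam hV.1) (C.val_one_sub_lam hV.1) (C.val_two hV.1)
    _ _ (C.mtor_not_inKer hV.1 hw hwm) (C.mtor_not_inKer hV.1 hv hm) he
  rcases h1 with h | h
  · refine Or.inl fun h' => C.mtor_not_inKer hV.1 ?_ ?_ h
    · rwa [← isVec_neg, neg_sub]
    · rw [smul_sub, sub_eq_add_neg, isVec_add_iff hwm, isVec_neg]; exact hm
  · refine Or.inr fun h' => C.mtor_not_inKer hV.1 ?_ ?_ h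
    · rwa [add_comm]
    · rw [smul_add, isVec_add_iff hwm]; exact hm

theorem vec_level_m {a b : ℤ} (hab : ¬ ((m : ℤ) ∣ a ∧ (m : ℤ) ∣ b)) :
    IsVec N ((q : ℤ) * a, (q : ℤ) * b) ∧ ¬ IsVec N ((m : ℤ) • ((q : ℤ) * a, (q : ℤ) * b)) := by
  have hq0 : (q : ℤ) ≠ 0 := Int.natCast_ne_zero.2 hq.out.ne_zero
  refine ⟨fun h => hab ?_, ?_⟩
  · rw [C.hNqm, Nat.cast_mul] at h
    exact ⟨(mul_dvd_mul_iff_left hq0).1 h.1, (mul_dvd_mul_iff_left hq0).1 h.2⟩
  · rw [IsVec, not_not, C.hNqm, Nat.cast_mul]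
    exact ⟨⟨a, by simp; ring⟩, ⟨b, by simp; ring⟩⟩

theorem gamma_pm {γ : SL(2, ℤ)} (hs : C.KeepsRes γ) : γ ∈ Gamma m ∨ -γ ∈ Gamma m := by
  have hq0 : (q : ℤ) ≠ 0 := Int.natCast_ne_zero.2 hq.out.ne_zero
  have h1m : ¬ (m : ℤ) ∣ 1 := fun h => by
    have h4 := C.h4m
    rw [Nat.dvd_one.1 (Int.natCast_dvd_natCast.1 (show (m : ℤ) ∣ ((1 : ℕ) : ℤ) from h))] at h4
    omega
  have key : ∀ a b : ℤ, ¬ ((m : ℤ) ∣ a ∧ (m : ℤ) ∣ b) → ∃ s : ℤ, (s = 1 ∨ s = -1) ∧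
      ((a * γ 0 0 + b * γ 1 0 : ℤ) : ZMod m) = (s * a : ℤ) ∧
      ((a * γ 0 1 + b * γ 1 1 : ℤ) : ZMod m) = (s * b : ℤ) := fun a b hab => by
    obtain ⟨hv, hm⟩ := C.vec_level_m hab
    have hd : ∀ x : ℤ, (N : ℤ) ∣ (q : ℤ) * x → (m : ℤ) ∣ x := fun x hx => by
      rw [C.hNqm, Nat.cast_mul] at hx
      exact (mul_dvd_mul_iff_left hq0).1 hx
    rcases C.vmul_fix hs hv hm with h | h <;> [refine ⟨1, Or.inl rfl, ?_⟩; refine ⟨-1, Or.inr rfl, ?_⟩] <;>
      refine ⟨?_, ?_⟩ <;> rw [ZMod.intCast_eq_intCast_iff_dvd_sub] <;> apply hd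
    · have := (not_not.1 h).1
      simp only [vmul, Prod.fst_sub] at this
      convert this using 1; ring
    · have := (not_not.1 h).2
      simp only [vmul, Prod.snd_sub] at this
      convert this using 1; ring
    · have := (not_not.1 h).1
      simp only [vmul, Prod.fst_add] at this
      rw [← Int.dvd_neg]
      convert this using 1; ring
    · have := (not_not.1 h).2
      simp only [vmul, Prod.snd_add] at this
      rw [← Int.dvd_neg]
      convert this using 1; ring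
  obtain ⟨s1, h1, a00, a01⟩ := key 1 0 fun h => h1m h.1
  obtain ⟨s2, h2, b10, b11⟩ := key 0 1 fun h => h1m h.2
  obtain ⟨s3, h3, c0, c1⟩ := key 1 1 fun h => h1m h.1
  push_cast at a00 a01 b10 b11 c0 c1
  simp only [one_mul, zero_mul, add_zero, zero_add, mul_one, mul_zero] at a00 a01 b10 b11 c0 c1
  rw [a00, b10, add_zero] at c0
  rw [a01, b11, zero_add] at c1
  have he : (s1 : ZMod m) = (s2 : ZMod m) := c0.trans c1.symm
  rcases h1 with rfl | rfl
  · left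
    rw [Gamma_mem]
    exact ⟨by simpa using a00, by simpa using a01, by simpa using b10,
      by rw [b11, ← he, Int.cast_one]⟩
  · right
    rw [Gamma_mem]
    simp only [Matrix.SpecialLinearGroup.coe_neg, Matrix.neg_apply, Int.cast_neg]
    exact ⟨by rw [a00]; simp, by simpa using a01, by simpa using b10,
      by rw [b11, ← he]; simp⟩

/-- **The stabiliser comes from `Γ(m)`.** -/
theorem exists_gamma {σ : flN N (constK A q) ≃+* flN N (constK A q)}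
    (hσ : σ ∈ stabSet (galLvl A q 2) (ptSet p)) : ∃ γ ∈ Gamma m, σ = flEquiv γ := by
  obtain ⟨δ, hδ, rfl⟩ := hσ.1
  have e : flHom N (constK A q) δ = flEquiv δ⁻¹ := rfl
  rw [e] at hσ ⊢
  rcases C.gamma_pm (C.keepsRes_of_stab (inv_mem hδ) hσ) with h | h
  · exact ⟨_, h, rfl⟩
  · exact ⟨_, h, RingEquiv.ext fun x => (flAct_neg δ⁻¹ x).symm⟩

theorem flEquiv_eq_of_red {γ γ' : SL(2, ℤ)} (hγ : γ ∈ Gamma m) (hγ' : γ' ∈ Gamma m)
    (h : redSL (q := q) γ = redSL γ') :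
    flEquiv (N := N) (K := constK A q) γ = flEquiv γ' := by
  have hq1 : γ * γ'⁻¹ ∈ Gamma q := by
    rw [Gamma_mem']
    show redSL (γ * γ'⁻¹) = 1
    rw [redSL, map_mul, map_inv]
    exact mul_inv_eq_one.2 h
  have hm1 : γ * γ'⁻¹ ∈ Gamma m := mul_mem hγ (inv_mem hγ')
  have hN1 : γ * γ'⁻¹ ∈ Gamma N := by
    rw [Gamma_mem] at hq1 hm1 ⊢
    have hco : IsCoprime (q : ℤ) (m : ℤ) := Int.isCoprime_iff_nat_coprime.2 (by
      simpa using (Nat.Prime.coprime_iff_not_dvd hq.out).2 C.hqm)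
    have key : ∀ x e : ℤ, (x : ZMod q) = e → (x : ZMod m) = e → (x : ZMod N) = e := fun x e h1 h2 => by
      rw [ZMod.intCast_eq_intCast_iff_dvd_sub] at h1 h2 ⊢
      rw [C.hNqm, Nat.cast_mul]
      exact hco.mul_dvd h1 h2
    exact ⟨by simpa using key _ 1 (by simpa using hq1.1) (by simpa using hm1.1),
      by simpa using key _ 0 (by simpa using hq1.2.1) (by simpa using hm1.2.1),
      by simpa using key _ 0 (by simpa using hq1.2.2.1) (by simpa using hm1.2.2.1),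
      by simpa using key _ 1 (by simpa using hq1.2.2.2) (by simpa using hm1.2.2.2)⟩
  refine RingEquiv.ext fun x => ?_
  rw [flEquiv_apply, flEquiv_apply, show γ = γ * γ'⁻¹ * γ' by rw [inv_mul_cancel_right], flAct_mul,
    show flAct (γ * γ'⁻¹) x = x from Subtype.ext (merSL_eq_self hN1 x.2)]

/-- The stabiliser is no larger than the set of its reductions. -/
theorem card_le (H : Subgroup (flN N (constK A q) ≃+* flN N (constK A q)))
    (hH : H ≤ stabSet (galLvl A q 2) (ptSet p))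
    (T : Set (Matrix.SpecialLinearGroup (Fin 2) (ZMod q)))
    (hT : ∀ γ ∈ Gamma m, flEquiv γ ∈ H → redSL γ ∈ T) : Nat.card H ≤ Nat.card T := by
  choose γ hγ he using fun σ : H => C.exists_gamma (hH σ.2)
  refine Nat.card_le_card_of_injective
    (fun σ => (⟨redSL (γ σ), hT _ (hγ σ) (he σ ▸ σ.2)⟩ : T)) fun σ σ' h => ?_
  have h1 : redSL (q := q) (γ σ) = redSL (γ σ') := congrArg Subtype.val h
  exact Subtype.ext (by rw [he σ, he σ', C.flEquiv_eq_of_red (hγ σ) (hγ σ') h1])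

theorem act_zq {γ : SL(2, ℤ)} (hγ : γ ∈ Gamma m) (u : ZMod q × ZMod q) :
    flAct γ (C.zq u : flN N (constK A q)) = C.zq (rowMul u (redSL γ)) := by
  rw [coe_zq, coe_zq, actZ hN hζ C.h4m hγ, zF_congr (tq_vmul C.hNqm u γ)]

/-- The stabiliser keeps the residues of the parameters. -/
theorem res_rowMul {γ : SL(2, ℤ)} (hγ : γ ∈ Gamma m)
    (hs : flEquiv γ ∈ stabSet (galLvl A q 2) (ptSet p)) (u : ZMod q × ZMod q) :
    ptRes C.hC C.hp (C.zq (rowMul u (redSL γ))) = ptRes C.hC C.hp (C.zq u) := by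
  obtain ⟨hl, he⟩ := stab_loc C.hz C.hC C.hp hs (C.zq u)
  rw [← he]
  exact congrArg _ (Subtype.ext (C.act_zq hγ u).symm)

/-- An automorphism preserving a component preserves its kernel. -/
theorem ker_rowMul {W : ValuationSubring (flN N (constK A q))} (hW : AbovePt C.hp W)
    {γ : SL(2, ℤ)} (hγ : γ ∈ Gamma m)
    (hs : ∀ x, flEquiv γ x ∈ W ↔ x ∈ W) (u : ZMod q × ZMod q) :
    rowMul u (redSL γ) ∈ C.kerR hW ↔ u ∈ C.kerR hW := by
  have hiff : ∀ x, W.valuation (flEquiv γ x) < 1 ↔ W.valuation x < 1 := fun x => by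
    rw [val_lt_one_iff_inv, val_lt_one_iff_inv, ← map_inv₀, hs, map_eq_zero_iff _ (RingEquiv.injective _)]
  rw [mem_kerR_iff_lt, mem_kerR_iff_lt, ← hiff (C.zq u), flEquiv_apply, C.act_zq hγ]

end OddCtx

end FA.Carayol.OddP

end
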