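import Fermat.Agent.Carayol.OddPts.Branches
import Fermat.Agent.Carayol.Model.CountDefs

/-!
# A point where the Hasse invariant vanishes: one component for each line
-/

set_option autoImplicit false
set_option linter.unusedSectionVars false
set_option linter.style.haveILetI false

noncomputable section

namespace FA.Carayol.OddP

open CongruenceSubgroup ModularCurve FA.Level Polynomial
open scoped MatrixGroups

local notation "Qb" => AlgebraicClosure ℚ

section plane

variable {q : ℕ} [hq : Fact q.Prime]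

theorem exists_smul_of_det2 {e u : ZMod q × ZMod q} (he : e ≠ 0) (h : det2 e u = 0) :
    ∃ a : ZMod q, u = a • e := by
  obtain ⟨f, hf⟩ := exists_frame he
  exact ⟨det2 u f, by conv_lhs => rw [frame_expand hf u, h, zero_smul, add_zero]⟩

theorem exists_decomp {e u₀ u : ZMod q × ZMod q} (he : e ≠ 0)
    (hu₀ : ¬ ∃ a : ZMod q, u₀ = a • e) (hu : ¬ ∃ a : ZMod q, u = a • e) :
    ∃ a c : ZMod q, a ≠ 0 ∧ u = a • u₀ + c • e := by
  have hD : det2 e u₀ ≠ 0 := fun h => hu₀ (exists_smul_of_det2 he h)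
  refine ⟨det2 e u / det2 e u₀, det2 u u₀ / det2 e u₀,
    div_ne_zero (fun h => hu (exists_smul_of_det2 he h)) hD, ?_⟩
  rw [Prod.ext_iff]
  simp only [Prod.fst_add, Prod.snd_add, Prod.smul_fst, Prod.smul_snd, smul_eq_mul]
  constructor <;> field_simp <;> simp only [det2] <;> ring

end plane

variable [Algebra Qb ℂ] {A : ValuationSubring Qb} {q : ℕ} [hq : Fact q.Prime] {N g : ℕ} [NeZero N]
  {hN : N = 4 * g} {hζ : ∀ b : ℤ, FA.Mazur.Wp.eta N b ∈ constK A q}
  {ϖ : baseO A (constL A q).toSubfield}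

namespace OddCtx

variable {m : ℕ} {p : Pt A q (lamF hN hζ)} (C : OddCtx (hN := hN) (hζ := hζ) m p ϖ)
  (hss : (hasse q (IsLocalRing.ResidueField A)).eval C.val = 0)
include C hss

theorem kerR_top {V : ValuationSubring (flN N (constK A q))} (hV : CentredPt C.hC C.hp V) :
    C.kerR hV.1 = ⊤ := by
  obtain ⟨hz, h0⟩ := C.hasseFacts.of_root _ C.val_spec.1 C.val_spec.2 hss
  obtain ⟨hcard, -, -⟩ := gauss_split V (qHalf q m) (xF hN hζ)
    ((psiHolds hN hζ q m hq.out C.hq2 C.hNqm C.hqm).2) (C.psi_le hV.1) (d := 0)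
    (by rw [← C.coe_psiP]; exact val_eq_one_of_ptRes_ne C.hC C.hp hV.1 (by rwa [ptRes_psiP]))
    (fun j hj => by
      rw [← C.coe_psiP]
      exact hV.2 _ (by rw [ptRes_psiP]; exact hz j hj.ne'))
  rw [C.bigRoots_eq hV.1, add_zero] at hcard
  classical
  have hall : C.halfKer hV.1 = qHalf q m :=
    Finset.eq_of_subset_of_card_le (fun v hv => ((C.mem_halfKer hV.1).1 hv).1) hcard.ge
  rw [eq_top_iff]
  intro u _
  rcases eq_or_ne u 0 with rfl | hu
  · exact zero_mem _
  obtain ⟨v, hv, h | h⟩ := exists_qHalf C.hNqm C.hq2 hu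
  · exact (inKer_congr h).2 ((C.mem_halfKer hV.1).1 (hall.symm ▸ hv)).2
  · exact (inKer_congr h).2 ((C.kerSub hV.1).neg_mem
      ((C.mem_kerSub hV.1).2 ((C.mem_halfKer hV.1).1 (hall.symm ▸ hv)).2))

/-- Every point of order `q` reduces to the origin at the point. -/
theorem res_zq_zero (u : ZMod q × ZMod q) : ptRes C.hC C.hp (C.zq u) = 0 := by
  obtain ⟨V, hV⟩ := C.exists_centred
  rw [← C.mem_kerR_iff_res hV, C.kerR_top hss hV]
  exact AddSubgroup.mem_top u

section component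

variable {W : ValuationSubring (flN N (constK A q))}
  (hW : W ∈ vertsAt A q ϖ (lamF hN hζ) p)
  {V : ValuationSubring (flN N (constK A q))} (hle : V ≤ W) (hV : CentredPt C.hC C.hp V)
include hW hle hV

/-- Off the line of the component the parameters have one valuation. -/
theorem val_off_line {u₀ u : ZMod q × ZMod q} (hu₀ : u₀ ∉ C.kerR (C.above hW))
    (hu : u ∉ C.kerR (C.above hW)) :
    V.valuation (C.zq u : flN N (constK A q)) = V.valuation (C.zq u₀ : flN N (constK A q)) := by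
  set e := lineVec (C.lineOf hW)
  have hl := C.lineOf_spec hW
  obtain ⟨a, c, ha, rfl⟩ := exists_decomp (lineVec_ne_zero _) (fun h => hu₀ ((hl _).2 h))
    (fun h => hu ((hl _).2 h))
  have hu₀0 : u₀ ≠ 0 := fun h => hu₀ (h ▸ zero_mem _)
  have hau₀ : a • u₀ ∉ C.kerR (C.above hW) := fun h => hu₀ (by
    have := smul_mem_addSubgroup (C.kerR (C.above hW)) a⁻¹ h
    rwa [smul_smul, inv_mul_cancel₀ ha, one_smul] at this)
  have hW1 : W.valuation (C.zq (a • u₀) : flN N (constK A q)) = 1 :=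
    le_antisymm ((W.valuation_le_one_iff _).2 (C.above hW _ (C.zq _).2))
      (not_lt.1 fun h => hau₀ ((C.mem_kerR_iff_lt (C.above hW)).2 h))
  have hlt : V.valuation (C.zq (c • e) : flN N (constK A q)) <
      V.valuation (C.zq (a • u₀) : flN N (constK A q)) := by
    refine lt_of_le_of_lt_val hle ?_
    rw [hW1]
    exact (C.mem_kerR_iff_lt (C.above hW)).1 ((hl _).2 ⟨c, rfl⟩)
  have hmem : ∀ w, w ∈ C.kerR hV.1 := fun w => C.kerR_top hss hV ▸ AddSubgroup.mem_top w
  have hadd := (C.kerFacts hV.1).zF_add _ _ (hmem (a • u₀)) (hmem (c • e))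
    (Or.inl ((isVec_tq C.hNqm).2 fun h => hau₀ (h ▸ zero_mem _)))
  rw [← zF_congr (tq_add C.hNqm (a • u₀) (c • e)), ← coe_zq C, ← coe_zq C, ← coe_zq C,
    max_eq_left hlt.le] at hadd
  have h2 := V.valuation.map_add_lt hadd hlt
  rw [show ((C.zq (a • u₀ + c • e) : flN N (constK A q)) - C.zq (a • u₀) - C.zq (c • e)) +
    C.zq (c • e) = (C.zq (a • u₀ + c • e) : flN N (constK A q)) - C.zq (a • u₀) by ring] at h2
  rw [Valuation.map_eq_of_sub_lt _ h2, C.val_zq_smul hV.1 (hmem u₀) hu₀0 ha]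

/-- The top coefficient on the component at the point. -/
theorem val_top {u₀ : ZMod q × ZMod q} (hu₀ : u₀ ∉ C.kerR (C.above hW)) :
    V.valuation C.topF = V.valuation (C.zq u₀ : flN N (constK A q)) ^ (q * (q - 1)) := by
  classical
  obtain ⟨hcard, htop⟩ := C.card_halfKer (C.above hW) hW.1.1 (C.vert_top hW.1)
  set P := (q : flN N (constK A q)) * ∏ v ∈ C.halfKer (C.above hW), -xF hN hζ v
  have hP : W.valuation P = 1 := by
    rw [← C.vert_top hW.1]
    refine Valuation.map_eq_of_sub_lt _ ?_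
    rw [Valuation.map_sub_swap, C.vert_top hW.1]
    exact htop
  rw [eq_of_sub_small hle hP htop]
  have hall : C.halfKer hV.1 = qHalf q m := Finset.ext fun v => by
    rw [C.mem_halfKer hV.1, and_iff_left_iff_imp]
    intro hv
    obtain ⟨u, -, rfl⟩ := exists_tq_of_qHalf C.hNqm C.hq2 hv
    exact (C.mem_kerR hV.1).1 (C.kerR_top hss hV ▸ AddSubgroup.mem_top u)
  have hsub : C.halfKer (C.above hW) ⊆ qHalf q m := fun v hv => ((C.mem_halfKer _).1 hv).1
  have hq' := C.ker_prod hV.1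
  rw [hall, ← Finset.prod_sdiff hsub] at hq'
  have hin : (∏ v ∈ C.halfKer (C.above hW), V.valuation (zF hN hζ v) ^ 2) *
      ∏ v ∈ C.halfKer (C.above hW), V.valuation (xF hN hζ v) = 1 := by
    rw [← Finset.prod_mul_distrib]
    refine Finset.prod_eq_one fun v hv => ?_
    obtain ⟨u, hu, -, rfl⟩ := C.exists_of_halfKer (C.above hW) hv
    exact (C.ker_zF_sq hV.1 ((isVec_tq C.hNqm).2 hu)
      ((C.mem_kerR hV.1).1 (C.kerR_top hss hV ▸ AddSubgroup.mem_top u))).1
  have hout : ∀ v ∈ qHalf q m \ C.halfKer (C.above hW),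
      V.valuation (zF hN hζ v) = V.valuation (C.zq u₀ : flN N (constK A q)) := fun v hv => by
    obtain ⟨hvq, hvk⟩ := Finset.mem_sdiff.1 hv
    obtain ⟨u, -, rfl⟩ := exists_tq_of_qHalf C.hNqm C.hq2 hvq
    exact C.val_off_line hss hW hle hV hu₀ fun h => hvk ((C.mem_halfKer _).2 ⟨hvq, h⟩)
  simp only [P, map_mul, map_prod, Valuation.map_neg]
  rw [hq', mul_assoc, hin, mul_one, Finset.prod_congr rfl fun v hv => by rw [hout v hv],
    Finset.prod_const, Finset.card_sdiff_of_subset hsub, hcard, C.card_half, ← pow_mul]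
  congr 1
  obtain ⟨k, hk⟩ := hq.out.odd_of_ne_two C.hq2
  have e1 : q ^ 2 = 2 * (q * k + k) + 1 := by rw [hk]; ring
  rw [e1, show q - 1 = 2 * k by omega, show 2 * k / 2 = k by omega,
    show (2 * (q * k + k) + 1 - 1) / 2 = q * k + k by omega, Nat.add_sub_cancel]
  ring

omit hle hV in
/-- The coordinate at the point against the top coefficient. -/
theorem val_top_coord {a : baseO A (constL A q).toSubfield}
    (ha : (⟨_, self_mem_chart _⟩ : chartF A q (coordB A q (lamF hN hζ) p.1)) - cstB A q _ a ∈ p.2)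
    {V : ValuationSubring (flN N (constK A q))} (hle : V ≤ W) (hV : CentredPt C.hC C.hp V) :
    V.valuation (coordB A q (lamF hN hζ) p.1 - cF A q N a) = V.valuation C.topF := by
  obtain ⟨c, hc⟩ := resO_surjective C.hC C.val
  set P := C.psiP C.top with hPdef
  have hPc : resO A q (P.eval c) = 0 := by
    rw [← eval_map_apply, hPdef, C.psiP_top_map, hc, hss]
  obtain ⟨U, hU⟩ := X_sub_C_dvd_sub_C_eval (a := c) (p := P)
  have hUc : ((U.map (resO A q)).eval C.val) ≠ 0 := by
    have h := congrArg (fun T => (derivative (T.map (resO A q))).eval C.val) hU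
    simp only [Polynomial.map_sub, Polynomial.map_mul, Polynomial.map_X, Polynomial.map_C,
      derivative_sub, derivative_mul, derivative_X, derivative_C, sub_zero, eval_add, eval_mul,
      eval_sub, eval_X, eval_C, eval_one, hc, sub_self, zero_mul, add_zero, one_mul] at h
    rw [← h, hPdef, C.psiP_top_map]
    obtain ⟨s, t, hst⟩ := C.hasseFacts.separable
    have h1 := congrArg (fun T => T.eval C.val) hst
    simp only [eval_add, eval_mul, hss, mul_zero, zero_add, eval_one] at h1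
    exact right_ne_zero_of_mul_eq_one h1
  have hUV : V.valuation (U.eval₂ (cF A q N) (lamF hN hζ)) = 1 := by
    rw [← C.coe_evalLam]
    exact val_eq_one_of_ptRes_ne C.hC C.hp hV.1 (by rwa [ptRes_evalLam])
  have h1 : W.valuation (lamF hN hζ - cF A q N c) = 1 := C.vert_coord_sub hW.1 false c
  have htop : C.topF = (lamF hN hζ - cF A q N c) * U.eval₂ (cF A q N) (lamF hN hζ) +
      cF A q N (P.eval c) := by
    have h := congrArg (fun T => T.eval₂ (cF A q N) (lamF hN hζ)) hU
    simp only [eval₂_sub, eval₂_mul, eval₂_X, eval₂_C] at h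
    rw [← h, sub_add_cancel, topF, ← C.coe_psiP, C.coe_evalLam]
  have hT : W.valuation ((lamF hN hζ - cF A q N c) * U.eval₂ (cF A q N) (lamF hN hζ)) = 1 := by
    rw [← C.vert_top hW.1]
    refine Valuation.map_eq_of_sub_lt _ ?_
    rw [C.vert_top hW.1, htop, sub_add_cancel_left, Valuation.map_neg]
    exact C.vert_small hW.1 hPc
  have hlam : V.valuation (lamF hN hζ - cF A q N c) = V.valuation C.topF := by
    rw [eq_of_sub_small hle hT (x := C.topF) (by
      rw [htop, add_sub_cancel_left]; exact C.vert_small hW.1 hPc), map_mul, hUV, mul_one]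
  have hra : resO A q a = ptResB C.hC C.hp ⟨_, self_mem_chart _⟩ := by
    rw [← ptResB_eq_zero C.hC C.hp, map_sub, sub_eq_zero, ptResB_cstB] at ha
    exact ha.symm
  obtain ⟨_ | _, P'⟩ := p
  · rw [← hlam]
    refine eq_of_sub_small hle h1 ?_
    show W.valuation (lamF hN hζ - cF A q N a - (lamF hN hζ - cF A q N c)) < 1
    rw [sub_sub_sub_cancel_left, ← map_sub (cF A q N)]
    refine C.vert_small hW.1 ?_
    rw [map_sub, hc, hra, sub_eq_zero]
    exact ptRes_chart C.hC C.hp ⟨_, self_mem_chart _⟩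
  · have hrel : resO A q a * resO A q c = 1 := by
      rw [hra, hc, ← ptRes_chart C.hC C.hp ⟨_, self_mem_chart _⟩, val, ← map_mul,
        ← map_one (ptRes C.hC C.hp)]
      exact congrArg _ (Subtype.ext (inv_mul_cancel₀ (lamF_ne_zero hN hζ)))
    have hVa : V.valuation (cF A q N a) = 1 :=
      val_cF_unit C.hC C.hp hV.1 (isUnit_of_resO_ne C.hC (left_ne_zero_of_mul_eq_one hrel))
    have hWa : W.valuation (cF A q N a) = 1 :=
      val_cF_unit C.hC C.hp (C.above hW) (isUnit_of_resO_ne C.hC (left_ne_zero_of_mul_eq_one hrel))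
    have e : (coordB A q (lamF hN hζ) true - cF A q N a) * lamF hN hζ =
        cF A q N (1 - a * c) + -(cF A q N a * (lamF hN hζ - cF A q N c)) := by
      show ((lamF hN hζ)⁻¹ - cF A q N a) * lamF hN hζ = _
      rw [sub_mul, inv_mul_cancel₀ (lamF_ne_zero hN hζ), map_sub, map_one, map_mul]
      ring
    have h2 : W.valuation (-(cF A q N a * (lamF hN hζ - cF A q N c))) = 1 := by
      rw [Valuation.map_neg, map_mul, hWa, h1, one_mul]
    have h3 := congrArg V.valuation e
    rw [map_mul, C.val_lam hV.1, mul_one, eq_of_sub_small hle h2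
      (x := cF A q N (1 - a * c) + -(cF A q N a * (lamF hN hζ - cF A q N c))) (by
      rw [add_sub_cancel_right]
      exact C.vert_small hW.1 (by rw [map_sub, map_one, map_mul, hrel, sub_self])),
      Valuation.map_neg, map_mul, hVa, one_mul, hlam] at h3
    exact h3

end component

variable (hI : OddInfty A q hN hζ ϖ)
include hI

theorem exists_ss_par {W : ValuationSubring (flN N (constK A q))}
    (hW : W ∈ vertsAt A q ϖ (lamF hN hζ) p) :
    ∃ r π c' V, BrPar A q (lamF hN hζ) p W (q - 1) r π c' V := by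
  obtain ⟨a, ha⟩ := exists_coord_residue C.hC C.hp
  obtain ⟨r, c', h1, -, h3, h4⟩ := C.exists_frob hW (hI.frob p.1 W hW.1) ha
  obtain ⟨V, hle, hVc⟩ := exists_centred_le C.hC C.hp (C.above hW)
  obtain ⟨u₀, hu₀⟩ : ∃ u₀, u₀ ∉ C.kerR (C.above hW) := by
    by_contra h
    simp only [not_exists, not_not] at h
    have e1 := C.line_eq_of_mem (C.above hW) (C.lineOf_spec hW) (h (lineVec none))
    have e2 := C.line_eq_of_mem (C.above hW) (C.lineOf_spec hW) (h (lineVec (some 0)))
    exact absurd (e1.trans e2.symm) (by simp)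
  obtain ⟨π, d, hd, hπd⟩ := (C.zq u₀).2
  have hπp : π ∈ p.2 := by
    have h := locRes_eq C.hC C.hp hd hπd
    rw [C.res_zq_zero hss, eq_comm, div_eq_zero_iff] at h
    exact (ptResB_eq_zero C.hC C.hp).1 (h.resolve_right (mt (ptResB_eq_zero C.hC C.hp).1 hd))
  have hunit : ∀ R, AbovePt C.hp R → R.valuation (π : flN N (constK A q)) =
      R.valuation (C.zq u₀ : flN N (constK A q)) := fun R hR => by
    rw [← hπd, map_mul, val_eq_one_of_ptRes_ne C.hC C.hp hR
      (x := ⟨d, chart_le_loc C.hp d.2⟩) (by rw [ptRes_chart]; exact mt (ptResB_eq_zero C.hC C.hp).1 hd),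
      mul_one]
  refine ⟨r, π, c', V,
    { frob := h1
      le := hle
      mem := fun x hx => hVc.1 _ (chart_le_loc C.hp hx)
      centre := fun x => hVc.centre _ _ x
      par_mem := hπp
      par_unit := by
        rw [hunit W (C.above hW)]
        exact le_antisymm ((W.valuation_le_one_iff _).2 (C.above hW _ (C.zq _).2))
          (not_lt.1 fun h => hu₀ ((C.mem_kerR_iff_lt (C.above hW)).2 h))
      rho := (hVc.centre _ _ _).2 h3
      order := ?_ }⟩
  refine (pow_left_inj₀ zero_le zero_le hq.out.ne_zero).1 ?_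
  rw [hunit V hVc.1, h4 V hle, C.val_top_coord hss hW ha hle hVc,
    C.val_top hss hW hle hVc hu₀, ← pow_mul, mul_comm]

variable (hCnt : CountHolds A q ϖ (lamF hN hζ) 2)
  (hV : ∃ W₀, VertFacts A q 2 ϖ (lamF hN hζ) W₀)
include hCnt hV

theorem ss_line_exists (l : Option (ZMod q)) :
    ∃ W, ∃ hW : W ∈ vertsAt A q ϖ (lamF hN hζ) p, C.lineOf hW = l := by
  by_contra hne
  simp only [not_exists] at hne
  obtain ⟨y, hy⟩ := C.exists_cofactor (lineVec_ne_zero l)
  refine ptRes_ne_zero_of_verts C.hz C.hC C.hp (C.zq (lineVec l)) y (q - 1) hy (fun W hW => ?_)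
    (C.res_zq_zero hss _)
  refine le_antisymm ((W.valuation_le_one_iff _).2 (C.above hW _ (C.zq _).2))
    (not_lt.1 fun h => hne W hW ?_)
  exact (C.line_eq_of_mem (C.above hW) (C.lineOf_spec hW)
    ((C.mem_kerR_iff_lt (C.above hW)).2 h)).symm

theorem ss_count :
    (∀ W ∈ vertsAt A q ϖ (lamF hN hζ) p,
      ∀ π r c' V, BrPar A q (lamF hN hζ) p W (q - 1) r π c' V →
        RegularAt A q (lamF hN hζ) p W π) ∧
    (∀ W W', ∀ hW : W ∈ vertsAt A q ϖ (lamF hN hζ) p,
      ∀ hW' : W' ∈ vertsAt A q ϖ (lamF hN hζ) p, C.lineOf hW = C.lineOf hW' → W = W') ∧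
    (∀ γ ∈ Gamma m, flEquiv γ ∈ stabSet (galLvl A q 2) (ptSet p)) ∧
    ∀ W ∈ vertsAt A q ϖ (lamF hN hζ) p, ∀ W' ∈ vertsAt A q ϖ (lamF hN hζ) p,
      ∃ g ∈ stabSet (galLvl A q 2) (ptSet p), ∀ x, g x ∈ W' ↔ x ∈ W := by
  classical
  obtain ⟨hne, hrest⟩ := hCnt C.hC C.hz hV p C.hp
  obtain ⟨W, hW⟩ := hne
  have hq1 : 0 < q - 1 := Nat.sub_pos_of_lt hq.out.one_lt
  haveI := finite_galLvl (A := A) (q := q) (N := N) (ℓ := 2)
  haveI : Finite (stabSet (galLvl (N := N) A q 2) (ptSet p)) :=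
    Finite.of_injective _ (Subgroup.inclusion_injective (fun x hx => hx.1 :
      stabSet (galLvl (N := N) A q 2) (ptSet p) ≤ galLvl A q 2))
  haveI : Finite (Matrix.SpecialLinearGroup (Fin 2) (ZMod q)) := inferInstance
  set e := lineVec (C.lineOf hW)
  have hb : Nat.card ↥(stabSet (galLvl A q 2) (ptSet p) ⊓ stabVal (galLvl A q 2) W) ≤ (q - 1) * q := by
    refine (C.card_le _ inf_le_left {M | ∃ a : ZMod q, rowMul e M = a • e} fun γ hγ hs => ?_).trans
      ((card_stab_le (lineVec_ne_zero _) _ fun M hM => hM).trans_eq (mul_comm _ _))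
    exact (C.lineOf_spec hW _).1 ((C.ker_rowMul (C.above hW) hγ hs.2.2 e).2
      (IsKerLine.mem C (C.above hW) (C.lineOf_spec hW)))
  obtain ⟨-, htrans, hcount, hreg⟩ := hrest (q - 1) hq1 W hW (C.exists_ss_par hss hI hW) hb
  haveI : Finite (vertsAt A q ϖ (lamF hN hζ) p) :=
    ((finite_verts C.hz C.hC).subset fun x hx => hx.1).to_subtype
  set n := Nat.card (vertsAt A q ϖ (lamF hN hζ) p)
  let f : vertsAt A q ϖ (lamF hN hζ) p → Option (ZMod q) := fun W => C.lineOf W.2
  have hf : Function.Surjective f := fun l => by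
    obtain ⟨W', hW', h⟩ := C.ss_line_exists hss hI hCnt hV l
    exact ⟨⟨W', hW'⟩, h⟩
  have hopt : Nat.card (Option (ZMod q)) = q + 1 := by
    rw [Finite.card_option, Nat.card_zmod]
  have hge : q + 1 ≤ n := hopt ▸ Nat.card_le_card_of_surjective f hf
  have hD := C.card_le _ le_rfl Set.univ fun γ _ _ => trivial
  rw [Nat.card_univ] at hD
  have hle : n * ((q - 1) * q) ≤ (q + 1) * ((q - 1) * q) := by
    refine (hcount.trans_le (hD.trans card_SL_le)).trans_eq ?_
    rw [← mul_assoc]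
    congr 1
    obtain ⟨k, hk⟩ : ∃ k, q = k + 1 := ⟨q - 1, by omega⟩
    rw [hk]
    simp only [Nat.add_sub_cancel]
    rw [show (k + 1) * (k + 1) = (k + 1 + 1) * k + 1 by ring, Nat.add_sub_cancel]
  have hn : n = q + 1 := le_antisymm
    (Nat.le_of_mul_le_mul_right hle (Nat.mul_pos hq1 hq.out.pos)) hge
  have hinj : Function.Injective f :=
    (Nat.bijective_iff_surjective_and_card f).2 ⟨hf, hn.trans hopt.symm⟩ |>.1
  refine ⟨fun W' hW' π r c' V h => hreg W' hW' r π c' V h,
    fun W₁ W₂ h₁ h₂ h => congrArg Subtype.val (hinj (show f ⟨W₁, h₁⟩ = f ⟨W₂, h₂⟩ from h)),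
    fun γ hγ => ?_, fun W₁ h₁ W₂ h₂ => ?_⟩
  choose γ' hγ' he using fun σ : stabSet (galLvl (N := N) A q 2) (ptSet p) => C.exists_gamma σ.2
  let r : stabSet (galLvl (N := N) A q 2) (ptSet p) → Matrix.SpecialLinearGroup (Fin 2) (ZMod q) :=
    fun σ => redSL (γ' σ)
  have hr : Function.Injective r := fun σ σ' h =>
    Subtype.ext (by rw [he σ, he σ', C.flEquiv_eq_of_red (hγ' σ) (hγ' σ') h])
  have hcard : Nat.card (Matrix.SpecialLinearGroup (Fin 2) (ZMod q)) ≤
      Nat.card (stabSet (galLvl (N := N) A q 2) (ptSet p)) := by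
    rw [← hcount]
    refine card_SL_le.trans (le_of_eq ?_)
    rw [show n = q + 1 from hn, ← mul_assoc]
    congr 1
    obtain ⟨k, hk⟩ : ∃ k, q = k + 1 := ⟨q - 1, by omega⟩
    rw [hk]
    simp only [Nat.add_sub_cancel]
    rw [show (k + 1) * (k + 1) = (k + 1 + 1) * k + 1 by ring, Nat.add_sub_cancel]
  · obtain ⟨σ, hσ⟩ := ((Nat.bijective_iff_injective_and_card r).2
      ⟨hr, le_antisymm (Nat.card_le_card_of_injective r hr) hcard⟩).2 (redSL γ)
    rw [C.flEquiv_eq_of_red hγ (hγ' σ) hσ.symm, ← he σ]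
    exact σ.2
  · obtain ⟨g₁, hg₁, e₁⟩ := htrans W₁ h₁
    obtain ⟨g₂, hg₂, e₂⟩ := htrans W₂ h₂
    exact ⟨g₂ * g₁⁻¹, mul_mem hg₂ (inv_mem hg₁), fun x => (e₂ (g₁⁻¹ x)).trans
      ((e₁ (g₁⁻¹ x)).symm.trans (by
        rw [show g₁ (g₁⁻¹ x) = x from g₁.apply_symm_apply x]))⟩

theorem ss_local (hL : LocalHolds A q ϖ (lamF hN hζ) 2) : PtLocal ϖ p := by
  obtain ⟨hreg, hinj, -, -⟩ := C.ss_count hss hI hCnt hV
  refine hL C.hC C.hz hV p C.hp (hCnt C.hC C.hz hV p C.hp).1 fun W hW => ?_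
  obtain ⟨r, π, c', V, hpar⟩ := C.exists_ss_par hss hI hW
  obtain ⟨t, d, hd, htd⟩ := (C.zq (lineVec (C.lineOf hW))).2
  have hdR : ∀ R, AbovePt C.hp R → R.valuation (d : flN N (constK A q)) = 1 := fun R hR =>
    val_eq_one_of_ptRes_ne C.hC C.hp hR (x := ⟨d, chart_le_loc C.hp d.2⟩)
      (by rw [ptRes_chart]; exact mt (ptResB_eq_zero C.hC C.hp).1 hd)
  refine ⟨t, π, ?_, fun W' hW' hne => ?_, ?_, hpar.par_mem, hpar.par_unit,
    hreg W hW π r c' V hpar⟩
  · rw [← htd, map_mul, hdR W (C.above hW), mul_one, C.val_line_vert hW]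
  · rw [← htd, map_mul, hdR W' (C.above hW'), mul_one]
    refine le_antisymm ((W'.valuation_le_one_iff _).2 (C.above hW' _ (C.zq _).2))
      (not_lt.1 fun h => hne (hinj W' W hW' hW ?_))
    exact (C.line_eq_of_mem (C.above hW') (C.lineOf_spec hW')
      ((C.mem_kerR_iff_lt (C.above hW')).2 h)).symm
  · obtain ⟨y, hy⟩ := C.exists_cofactor (lineVec_ne_zero (C.lineOf hW))
    obtain ⟨s, d', hd', hyd⟩ := y.2
    refine ⟨q - 1, s, d * d', fun h => (C.hp.1.isPrime.mem_or_mem h).elim hd hd', ?_⟩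
    rw [Subring.coe_mul, ← hy, ← htd, ← hyd]
    ring

end OddCtx

end FA.Carayol.OddP

end
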