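import Fermat.Agent.Carayol.Curve.Field
import Fermat.Agent.Carayol.Curve.Psi
import Fermat.Agent.Carayol.Group.Orbit
import Fermat.Agent.Carayol.Group.Lines

/-!
# Vectors of order `q`, their lines, and groups fixing lines
-/

set_option autoImplicit false
set_option linter.unusedSectionVars false
set_option linter.style.haveILetI false

noncomputable section

namespace FA.Carayol.OddP

open CongruenceSubgroup
open scoped MatrixGroups

/-- The vector of level `q` times `m`. -/
def tq (q m : ℕ) (u : ZMod q × ZMod q) : ℤ × ℤ :=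
  (((m * u.1.val : ℕ) : ℤ), ((m * u.2.val : ℕ) : ℤ))

variable {q m N : ℕ} [hq : Fact q.Prime] [NeZero N] (hNqm : N = q * m)
include hNqm

theorem dvd_m_mul (x : ℤ) : (N : ℤ) ∣ (m : ℤ) * x ↔ (x : ZMod q) = 0 := by
  have hm : 0 < m := Nat.pos_of_ne_zero fun h0 => NeZero.ne N (by rw [hNqm, h0, mul_zero])
  rw [hNqm, Nat.cast_mul, mul_comm (q : ℤ), ZMod.intCast_zmod_eq_zero_iff_dvd]
  exact mul_dvd_mul_iff_left (Int.natCast_ne_zero.2 hm.ne')

theorem isVec_tq {u : ZMod q × ZMod q} : IsVec N (tq q m u) ↔ u ≠ 0 := by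
  rw [IsVec, not_iff_not]
  simp only [tq, Nat.cast_mul, dvd_m_mul hNqm, Int.cast_natCast, ZMod.natCast_zmod_val,
    Prod.ext_iff, Prod.fst_zero, Prod.snd_zero]

/-- Congruence from congruence modulo `q` after dividing by `m`. -/
theorem congr_of_zmod {a b c d : ℤ} (h1 : (a : ZMod q) = c) (h2 : (b : ZMod q) = d) :
    ¬ IsVec N (((m : ℤ) * a, (m : ℤ) * b) - ((m : ℤ) * c, (m : ℤ) * d)) := by
  rw [IsVec, not_not]
  simp only [Prod.mk_sub_mk, ← mul_sub, dvd_m_mul hNqm, Int.cast_sub, h1, h2, sub_self, and_self]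

theorem tq_eq (u : ZMod q × ZMod q) :
    tq q m u = ((m : ℤ) * (u.1.val : ℤ), (m : ℤ) * (u.2.val : ℤ)) := by
  simp [tq]

theorem tq_add (u u' : ZMod q × ZMod q) :
    ¬ IsVec N (tq q m (u + u') - (tq q m u + tq q m u')) := by
  simp only [tq_eq hNqm, Prod.mk_add_mk, ← mul_add]
  exact congr_of_zmod hNqm (by simp [ZMod.natCast_zmod_val]) (by simp [ZMod.natCast_zmod_val])

theorem tq_neg (u : ZMod q × ZMod q) : ¬ IsVec N (tq q m (-u) - -tq q m u) := by
  simp only [tq_eq hNqm, Prod.neg_mk, ← mul_neg]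
  exact congr_of_zmod hNqm (by simp [ZMod.natCast_zmod_val]) (by simp [ZMod.natCast_zmod_val])

theorem tq_smul (a : ℤ) (u : ZMod q × ZMod q) :
    ¬ IsVec N (tq q m ((a : ZMod q) • u) - a • tq q m u) := by
  simp only [tq_eq hNqm, Prod.smul_mk, smul_eq_mul, mul_left_comm a (m : ℤ)]
  exact congr_of_zmod hNqm (by simp [ZMod.natCast_zmod_val]) (by simp [ZMod.natCast_zmod_val])

theorem tq_order (u : ZMod q × ZMod q) : ¬ IsVec N ((q : ℤ) • tq q m u) := by
  have h := tq_smul hNqm (q : ℤ) u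
  rw [show ((q : ℤ) : ZMod q) • u = 0 by simp] at h
  intro hv
  have h0 : ¬ IsVec N (tq q m 0) := fun h' => (isVec_tq hNqm).1 h' rfl
  exact h0 ((isVec_congr h).2 hv)

omit hNqm in
theorem tq_natCast {a b : ℕ} (ha : a < q) (hb : b < q) :
    tq q m ((a : ZMod q), (b : ZMod q)) = (((m * a : ℕ) : ℤ), ((m * b : ℕ) : ℤ)) := by
  simp only [tq, ZMod.val_natCast_of_lt ha, ZMod.val_natCast_of_lt hb]

/-- An element of `qHalf` is a vector of level `q`. -/
theorem exists_tq_of_qHalf {v : ℤ × ℤ} (hq2 : q ≠ 2) (hv : v ∈ qHalf q m) :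
    ∃ u : ZMod q × ZMod q, u ≠ 0 ∧ v = tq q m u := by
  obtain ⟨k, hk⟩ := hq.out.odd_of_ne_two hq2
  obtain ⟨a, b, hab, rfl⟩ := mem_qHalf.1 hv
  have hlt : a < q ∧ b < q := by rcases hab with h | h <;> omega
  refine ⟨((a : ZMod q), (b : ZMod q)), ?_, (tq_natCast hlt.1 hlt.2).symm⟩
  intro h0
  simp only [Prod.ext_iff, Prod.fst_zero, Prod.snd_zero, ZMod.natCast_eq_zero_iff] at h0
  rcases hab with ⟨-, h1, -⟩ | ⟨h1, -, -⟩
  · exact absurd (Nat.le_of_dvd h1 h0.2) (by omega)
  · exact absurd (Nat.le_of_dvd h1 h0.1) (by omega)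

/-- Every nonzero vector is an element of `qHalf` up to sign. -/
theorem exists_qHalf {u : ZMod q × ZMod q} (hq2 : q ≠ 2) (hu : u ≠ 0) :
    ∃ v ∈ qHalf q m, ¬ IsVec N (tq q m u - v) ∨ ¬ IsVec N (tq q m u - -v) := by
  obtain ⟨k, hk⟩ := hq.out.odd_of_ne_two hq2
  obtain ⟨a, b⟩ := u
  have hh : (q - 1) / 2 = k := by omega
  have hpos : ∀ x : ZMod q, x ≠ 0 → 0 < x.val := fun x hx =>
    Nat.pos_of_ne_zero fun h => hx ((ZMod.val_eq_zero x).1 h)
  have hlt : ∀ x : ZMod q, x.val < q := fun x => ZMod.val_lt x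
  have self : ∀ w : ZMod q × ZMod q, IsHalfPair q w.1.val w.2.val → tq q m w ∈ qHalf q m := fun w hw =>
    mem_qHalf.2 ⟨_, _, hw, rfl⟩
  have pos : ∀ w : ZMod q × ZMod q, IsHalfPair q w.1.val w.2.val →
      ∃ v ∈ qHalf q m, ¬ IsVec N (tq q m w - v) ∨ ¬ IsVec N (tq q m w - -v) := fun w hw =>
    ⟨_, self w hw, Or.inl (by simp [IsVec])⟩
  have neg : ∀ w : ZMod q × ZMod q, IsHalfPair q (-w).1.val (-w).2.val →
      ∃ v ∈ qHalf q m, ¬ IsVec N (tq q m w - v) ∨ ¬ IsVec N (tq q m w - -v) := fun w hw =>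
    ⟨_, self _ hw, Or.inr (by
      have h := tq_neg hNqm (-w)
      rwa [neg_neg] at h)⟩
  rcases eq_or_ne a 0 with rfl | ha
  · have hb : b ≠ 0 := fun h => hu (by rw [h]; rfl)
    haveI : NeZero b := ⟨hb⟩
    rcases le_or_gt b.val k with h | h
    · exact pos _ (Or.inl ⟨ZMod.val_zero, hpos b hb, hh ▸ h⟩)
    · refine neg _ (Or.inl ⟨by simp, ?_, ?_⟩) <;>
      · show _ ≤ _
        rw [Prod.neg_mk, ZMod.val_neg_of_ne_zero]
        have := hlt b
        omega
  · haveI : NeZero a := ⟨ha⟩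
    rcases le_or_gt a.val k with h | h
    · exact pos _ (Or.inr ⟨hpos a ha, hh ▸ h, hlt b⟩)
    · refine neg _ (Or.inr ⟨?_, ?_, hlt _⟩) <;>
      · show _ ≤ _
        rw [Prod.neg_mk, ZMod.val_neg_of_ne_zero]
        have := hlt a
        omega

omit hNqm

/-! ### Linear algebra -/

/-- The row vector times a matrix modulo `q`. -/
def rowMul (u : ZMod q × ZMod q) (M : Matrix.SpecialLinearGroup (Fin 2) (ZMod q)) :
    ZMod q × ZMod q :=
  (u.1 * M 0 0 + u.2 * M 1 0, u.1 * M 0 1 + u.2 * M 1 1)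

/-- Reduction of a matrix. -/
def redSL (γ : SL(2, ℤ)) : Matrix.SpecialLinearGroup (Fin 2) (ZMod q) :=
  Matrix.SpecialLinearGroup.map (Int.castRingHom (ZMod q)) γ

theorem redSL_apply (γ : SL(2, ℤ)) (i j : Fin 2) : redSL (q := q) γ i j = (γ i j : ZMod q) := rfl

include hNqm in
theorem tq_vmul (u : ZMod q × ZMod q) (γ : SL(2, ℤ)) :
    ¬ IsVec N (tq q m (rowMul u (redSL γ)) - vmul (tq q m u) γ) := by
  simp only [tq_eq hNqm, vmul, mul_assoc, ← mul_add]
  exact congr_of_zmod hNqm
    (by simp [rowMul, redSL_apply, ZMod.natCast_zmod_val, mul_comm])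
    (by simp [rowMul, redSL_apply, ZMod.natCast_zmod_val, mul_comm])

/-- The vector of a line. -/
def lineVec : Option (ZMod q) → ZMod q × ZMod q
  | none => (0, 1)
  | some t => (1, t)

theorem lineVec_ne_zero (l : Option (ZMod q)) : lineVec l ≠ 0 := by
  rcases l with _ | t <;> simp [lineVec, Prod.ext_iff]

theorem exists_line_eq {u : ZMod q × ZMod q} (hu : u ≠ 0) :
    ∃ (l : Option (ZMod q)) (a : ZMod q), a ≠ 0 ∧ u = a • lineVec l := by
  obtain ⟨a, b⟩ := u
  rcases eq_or_ne a 0 with rfl | ha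
  · exact ⟨none, b, fun h => hu (by rw [h]; rfl), by simp [lineVec]⟩
  · exact ⟨some (a⁻¹ * b), a, ha, by simp [lineVec, mul_inv_cancel_left₀ ha]⟩

theorem lineVec_inj {l l' : Option (ZMod q)} {a : ZMod q} (h : lineVec l = a • lineVec l') :
    l = l' := by
  rcases l with _ | t <;> rcases l' with _ | t' <;>
    simp only [lineVec, Prod.smul_mk, smul_eq_mul, mul_one, mul_zero, Prod.mk.injEq] at h
  · rfl
  · obtain ⟨h1, h2⟩ := h
    rw [← h1, zero_mul] at h2
    exact absurd h2 one_ne_zero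
  · exact absurd h.1 one_ne_zero
  · obtain ⟨h1, h2⟩ := h
    rw [← h1, one_mul] at h2
    rw [h2]

theorem smul_mem_addSubgroup (H : AddSubgroup (ZMod q × ZMod q)) (a : ZMod q)
    {u : ZMod q × ZMod q} (hu : u ∈ H) : a • u ∈ H := by
  rw [← ZMod.natCast_zmod_val a, Nat.cast_smul_eq_nsmul]
  exact nsmul_mem hu _

/-- A proper subgroup contains at most one line. -/
theorem line_unique_of_ne_top {H : AddSubgroup (ZMod q × ZMod q)} (hH : H ≠ ⊤)
    {l l' : Option (ZMod q)} (h : lineVec l ∈ H) (h' : lineVec l' ∈ H) : l = l' := by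
  by_contra hne
  apply hH
  rw [eq_top_iff]
  rintro ⟨x, y⟩ -
  rcases l with _ | t <;> rcases l' with _ | t'
  · exact absurd rfl hne
  · have e : ((x, y) : ZMod q × ZMod q) = (y - x * t') • lineVec none + x • lineVec (some t') := by
      simp [lineVec]
    rw [e]
    exact add_mem (smul_mem_addSubgroup H _ h) (smul_mem_addSubgroup H _ h')
  · have e : ((x, y) : ZMod q × ZMod q) = (y - x * t) • lineVec none + x • lineVec (some t) := by
      simp [lineVec]
    rw [e]
    exact add_mem (smul_mem_addSubgroup H _ h') (smul_mem_addSubgroup H _ h)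
  · have ht : t - t' ≠ 0 := sub_ne_zero.2 fun e => hne (by rw [e])
    have e : ((x, y) : ZMod q × ZMod q) = ((y - x * t') / (t - t')) • lineVec (some t) +
        (x - (y - x * t') / (t - t')) • lineVec (some t') := by
      simp [lineVec, Prod.ext_iff]
      field_simp
      ring
    rw [e]
    exact add_mem (smul_mem_addSubgroup H _ h) (smul_mem_addSubgroup H _ h')

theorem exists_scaleLine (t : ZMod q) (ht : t ≠ 0) (l : Option (ZMod q)) :
    ∃ a : ZMod q, ((lineVec l).1, t⁻¹ * (lineVec l).2) = a • lineVec (scaleLine t ht l) := by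
  rcases l with _ | u
  · exact ⟨t⁻¹, by simp [lineVec, scaleLine]⟩
  · exact ⟨1, by simp [lineVec, scaleLine, mul_comm]⟩

theorem exists_upLine (γ : SL(2, ℤ)) (k : ℤ) (h : γ = upU k) (l : Option (ZMod q)) :
    ∃ a : ZMod q, rowMul (lineVec l) (redSL γ) = a • lineVec (upLine (k : ZMod q) l) := by
  subst h
  rcases l with _ | u
  · exact ⟨1, by simp [lineVec, upLine, rowMul, redSL_apply, upU]⟩
  · exact ⟨1, by simp [lineVec, upLine, rowMul, redSL_apply, upU, add_comm]⟩

theorem exists_lowLine (γ : SL(2, ℤ)) (k : ℤ) (h : γ = lowU k) (l : Option (ZMod q)) :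
    ∃ a : ZMod q, rowMul (lineVec l) (redSL γ) = a • lineVec (lowLine (k : ZMod q) l) := by
  subst h
  rcases l with _ | u
  · rcases eq_or_ne (k : ZMod q) 0 with hk | hk
    · exact ⟨1, by simp [lineVec, lowLine, upLine, swapLine, rowMul, redSL_apply, lowU, hk]⟩
    · exact ⟨(k : ZMod q), by
        simp [lineVec, lowLine, upLine, swapLine, rowMul, redSL_apply, lowU, hk]⟩
  · rcases eq_or_ne u 0 with rfl | hu
    · exact ⟨1, by simp [lineVec, lowLine, upLine, swapLine, rowMul, redSL_apply, lowU]⟩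
    · rcases eq_or_ne (u⁻¹ + (k : ZMod q)) 0 with hk | hk
      · refine ⟨u, ?_⟩
        have h1 : 1 + u * (k : ZMod q) = 0 := by
          have := congrArg (u * ·) hk
          simpa [mul_add, mul_inv_cancel₀ hu] using this
        simp [lineVec, lowLine, upLine, swapLine, rowMul, redSL_apply, lowU, hu, hk, h1]
      · refine ⟨1 + u * (k : ZMod q), ?_⟩
        have h1 : 1 + u * (k : ZMod q) = u * (u⁻¹ + (k : ZMod q)) := by
          rw [mul_add, mul_inv_cancel₀ hu]
        simp [lineVec, lowLine, upLine, swapLine, rowMul, redSL_apply, lowU, hu, hk, h1]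

/-! ### Counting -/

/-- The determinant of two row vectors. -/
def det2 (u v : ZMod q × ZMod q) : ZMod q := u.1 * v.2 - u.2 * v.1

theorem exists_frame {e : ZMod q × ZMod q} (he : e ≠ 0) : ∃ f, det2 e f = 1 := by
  obtain ⟨a, b⟩ := e
  rcases eq_or_ne a 0 with rfl | ha
  · have hb : b ≠ 0 := fun h => he (by rw [h]; rfl)
    exact ⟨(-b⁻¹, 0), by simp [det2, hb]⟩
  · exact ⟨(0, a⁻¹), by simp [det2, ha]⟩

theorem det2_rowMul (u v : ZMod q × ZMod q) (M : Matrix.SpecialLinearGroup (Fin 2) (ZMod q)) :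
    det2 (rowMul u M) (rowMul v M) = det2 u v := by
  have h := M.det_coe
  rw [Matrix.det_fin_two] at h
  simp only [det2, rowMul]
  linear_combination (u.1 * v.2 - u.2 * v.1) * h

theorem frame_expand {e f : ZMod q × ZMod q} (h : det2 e f = 1) (v : ZMod q × ZMod q) :
    v = det2 v f • e + det2 e v • f := by
  simp only [det2] at h ⊢
  ext <;> simp <;> [linear_combination (-v.1) * h; linear_combination (-v.2) * h]

theorem rowMul_frame_inj {e f : ZMod q × ZMod q} (h : det2 e f = 1)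
    {M M' : Matrix.SpecialLinearGroup (Fin 2) (ZMod q)} (he : rowMul e M = rowMul e M')
    (hf : rowMul f M = rowMul f M') : M = M' := by
  have key : ∀ v, rowMul v M = rowMul v M' := fun v => by
    have hv : ∀ X : Matrix.SpecialLinearGroup (Fin 2) (ZMod q), rowMul v X =
        det2 v f • rowMul e X + det2 e v • rowMul f X := fun X => by
      conv_lhs => rw [frame_expand h v]
      simp only [rowMul, Prod.smul_mk, Prod.mk_add_mk, Prod.fst_add, Prod.snd_add, Prod.smul_fst,
        Prod.smul_snd, smul_eq_mul]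
      ext <;> simp <;> ring
    rw [hv, hv, he, hf]
  refine Matrix.SpecialLinearGroup.ext _ _ fun i j => ?_
  have h1 := key (1, 0)
  have h2 := key (0, 1)
  simp only [rowMul, one_mul, zero_mul, add_zero, zero_add, Prod.mk.injEq] at h1 h2
  fin_cases i <;> fin_cases j
  exacts [h1.1, h1.2, h2.1, h2.2]

/-- At most `q` elements fix a nonzero vector. -/
theorem card_fix_le {e : ZMod q × ZMod q} (he : e ≠ 0)
    (S : Set (Matrix.SpecialLinearGroup (Fin 2) (ZMod q))) (hS : ∀ M ∈ S, rowMul e M = e) :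
    Nat.card S ≤ q := by
  obtain ⟨f, hf⟩ := exists_frame he
  have hinj : Function.Injective fun M : S => det2 (rowMul f M.1) f := fun M M' h => by
    refine Subtype.ext (rowMul_frame_inj hf (by rw [hS _ M.2, hS _ M'.2]) ?_)
    have h1 := det2_rowMul e f M.1
    have h2 := det2_rowMul e f M'.1
    rw [hS _ M.2, hf] at h1
    rw [hS _ M'.2, hf] at h2
    rw [frame_expand hf (rowMul f M.1), frame_expand hf (rowMul f M'.1), h1, h2]
    exact congrArg (· • e + _) h
  simpa using Nat.card_le_card_of_injective _ hinj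

/-- At most `q (q - 1)` elements fix a line. -/
theorem card_stab_le {e : ZMod q × ZMod q} (he : e ≠ 0)
    (S : Set (Matrix.SpecialLinearGroup (Fin 2) (ZMod q)))
    (hS : ∀ M ∈ S, ∃ a : ZMod q, rowMul e M = a • e) : Nat.card S ≤ q * (q - 1) := by
  obtain ⟨f, hf⟩ := exists_frame he
  have key : ∀ M ∈ S, rowMul e M = det2 (rowMul e M) f • e ∧
      det2 (rowMul e M) f * det2 e (rowMul f M) = 1 := fun M hM => by
    obtain ⟨a, ha⟩ := hS M hM
    have h0 : det2 (rowMul e M) f = a := by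
      rw [ha]
      simp only [det2, Prod.smul_fst, Prod.smul_snd, smul_eq_mul] at hf ⊢
      linear_combination a * hf
    refine ⟨by rw [h0, ha], ?_⟩
    have h1 := det2_rowMul e f M
    rw [hf] at h1
    rw [h0, ← h1, ha]
    simp only [det2, Prod.smul_fst, Prod.smul_snd, smul_eq_mul]
    ring
  have hinj : Function.Injective fun M : S => ((det2 (rowMul f M.1) f,
      Units.mkOfMulEqOne _ _ (key _ M.2).2) : ZMod q × (ZMod q)ˣ) := fun M M' h => by
    simp only [Prod.mk.injEq] at h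
    obtain ⟨h0, h1⟩ := h
    have h1' : det2 (rowMul e M.1) f = det2 (rowMul e M'.1) f := congrArg Units.val h1
    refine Subtype.ext (rowMul_frame_inj hf (by rw [(key _ M.2).1, (key _ M'.2).1, h1']) ?_)
    have h2 := (key _ M.2).2
    rw [h1', ← (key _ M'.2).2] at h2
    have h2' := mul_left_cancel₀ (left_ne_zero_of_mul_eq_one (key _ M'.2).2) h2
    rw [frame_expand hf (rowMul f M.1), frame_expand hf (rowMul f M'.1), h0, h2']
  have hle := Nat.card_le_card_of_injective _ hinj
  rwa [Nat.card_prod, Nat.card_eq_fintype_card (α := ZMod q), ZMod.card,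
    Nat.card_eq_fintype_card (α := (ZMod q)ˣ), ZMod.card_units] at hle

/-- The group has at most `q (q² - 1)` elements. -/
theorem card_SL_le :
    Nat.card (Matrix.SpecialLinearGroup (Fin 2) (ZMod q)) ≤ (q * q - 1) * q := by
  classical
  have hrow : ∀ M : Matrix.SpecialLinearGroup (Fin 2) (ZMod q),
      ((M 0 0, M 0 1) : ZMod q × ZMod q) ≠ 0 := fun M h0 => by
    have h := M.det_coe
    simp only [Prod.ext_iff, Prod.fst_zero, Prod.snd_zero] at h0
    rw [Matrix.det_fin_two, h0.1, h0.2] at h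
    simp at h
  have hinj : Function.Injective fun M : Matrix.SpecialLinearGroup (Fin 2) (ZMod q) =>
      (((⟨(M 0 0, M 0 1), hrow M⟩ : {u : ZMod q × ZMod q // u ≠ 0})),
        if M 0 0 ≠ 0 then M 1 0 else M 1 1) := fun M M' h => by
    simp only [Prod.mk.injEq, Subtype.mk.injEq] at h
    obtain ⟨⟨h0, h1⟩, h2⟩ := h
    have d := M.det_coe
    have d' := M'.det_coe
    rw [Matrix.det_fin_two] at d d'
    rw [← h0, ← h1] at d'
    rw [← h0] at h2
    refine Matrix.SpecialLinearGroup.ext _ _ fun i j => ?_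
    by_cases hz : M 0 0 = 0
    · rw [if_neg (not_not.2 hz), if_neg (not_not.2 hz)] at h2
      rw [hz, zero_mul, zero_sub] at d d'
      have h3 : M 1 0 = M' 1 0 := by
        have hb : M 0 1 ≠ 0 := fun e => by rw [e, zero_mul, neg_zero] at d; exact zero_ne_one d
        exact mul_left_cancel₀ hb (by linear_combination d' - d)
      fin_cases i <;> fin_cases j
      exacts [h0, h1, h3, h2]
    · rw [if_pos hz, if_pos hz] at h2
      have h3 : M 1 1 = M' 1 1 := by
        refine mul_left_cancel₀ hz ?_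
        rw [← h2] at d'
        linear_combination d - d'
      fin_cases i <;> fin_cases j
      exacts [h0, h1, h2, h3]
  refine (Nat.card_le_card_of_injective _ hinj).trans (le_of_eq ?_)
  rw [Nat.card_prod, Nat.card_eq_fintype_card (α := ZMod q), ZMod.card,
    Nat.card_eq_fintype_card (α := {u : ZMod q × ZMod q // u ≠ 0}),
    Fintype.card_subtype_compl, Fintype.card_subtype_eq, Fintype.card_prod, ZMod.card]

end FA.Carayol.OddP

end
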