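import Fermat.Agent.Carayol.OddPts.Base
import Fermat.Agent.Carayol.OddPts.Vectors

/-!
# The points of order `q` and of order prime to `q` at a point away from the cusps

Outside the kernel of the reduction the abscissae are units apart from the branch points; inside it
the square of the parameter is the inverse of the abscissa.
-/

set_option autoImplicit false
set_option linter.unusedSectionVars false
set_option linter.style.haveILetI false

noncomputable section

namespace FA.Carayol.OddP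

open CongruenceSubgroup ModularCurve FA.Level
open scoped MatrixGroups

local notation "Qb" => AlgebraicClosure ℚ

variable [Algebra Qb ℂ] {A : ValuationSubring Qb} {q : ℕ} [hq : Fact q.Prime] {N g : ℕ} [NeZero N]
  {hN : N = 4 * g} {hζ : ∀ b : ℤ, FA.Mazur.Wp.eta N b ∈ constK A q}
  {ϖ : baseO A (constL A q).toSubfield}

theorem zF_of_not {v : ℤ × ℤ} (hv : ¬ IsVec N v) : zF hN hζ v = 0 := by
  rw [zF, xF_of_not hN hζ hv, neg_zero, zero_div]

theorem zF_congr {v w : ℤ × ℤ} (h : ¬ IsVec N (v - w)) : zF hN hζ v = zF hN hζ w := by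
  rw [zF, zF, xF_congr hN hζ h, yF_congr hN hζ h]

theorem inKer_congr {V : ValuationSubring (flN N (constK A q))} {v w : ℤ × ℤ}
    (h : ¬ IsVec N (v - w)) : InKer hN hζ V v ↔ InKer hN hζ V w := by
  rw [InKer, InKer, xF_congr hN hζ h, isVec_congr h]

theorem not_isVec_zero : ¬ IsVec N (0 : ℤ × ℤ) := fun h => h ⟨dvd_zero _, dvd_zero _⟩

namespace OddCtx

variable {m : ℕ} {p : Pt A q (lamF hN hζ)} (C : OddCtx (hN := hN) (hζ := hζ) m p ϖ)
  {R : ValuationSubring (flN N (constK A q))} (hR : AbovePt C.hp R)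
include C hR

/-- The kernel of the reduction. -/
def kerSub : AddSubgroup (ℤ × ℤ) where
  carrier := {v | InKer hN hζ R v}
  zero_mem' := fun h => absurd h not_isVec_zero
  add_mem' := fun {v w} hv hw => (C.kerFacts hR).add_mem v w hv hw
  neg_mem' := fun {v} hv hvec => by rw [xF_neg]; exact hv (isVec_neg.1 hvec)

theorem mem_kerSub {v : ℤ × ℤ} : v ∈ C.kerSub hR ↔ InKer hN hζ R v := Iff.rfl

theorem inKer_zsmul {v : ℤ × ℤ} (hv : InKer hN hζ R v) (k : ℤ) : InKer hN hζ R (k • v) :=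
  AddSubgroup.zsmul_mem (C.kerSub hR) hv k

/-- A point of order prime to `q` does not reduce to the origin. -/
theorem mtor_not_inKer {v : ℤ × ℤ} (hv : IsVec N v) (hm : ¬ IsVec N ((m : ℤ) • v)) :
    ¬ InKer hN hζ R v := fun hk => by
  have h := (C.kerFacts hR).zF_mul v hk hv (m : ℤ)
  rw [zF_of_not hm, zero_sub, Valuation.map_neg, Int.cast_natCast, map_mul, C.val_m hR,
    one_mul] at h
  exact lt_irrefl _ h

theorem xF_le {v : ℤ × ℤ} (hv : ¬ InKer hN hζ R v) : R.valuation (xF hN hζ v) ≤ 1 :=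
  not_lt.1 fun h => hv fun _ => h

theorem sep {v w : ℤ × ℤ} (hv : ¬ InKer hN hζ R v) (hw : ¬ InKer hN hζ R w)
    (hs : ¬ InKer hN hζ R (v - w)) (ha : ¬ InKer hN hζ R (v + w)) :
    R.valuation (xF hN hζ v - xF hN hζ w) = 1 :=
  le_antisymm (R.valuation.map_sub_le (C.xF_le hR hv) (C.xF_le hR hw)) (not_lt.1 fun h =>
    ((C.kerFacts hR).separated (C.val_lam hR) (C.val_one_sub_lam hR) (C.val_two hR) v w hv hw
      h).elim hs ha)

omit hR in
theorem m_even : ∃ k : ℕ, m = 2 * k := by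
  obtain ⟨k, hk⟩ := C.h4m
  exact ⟨2 * k, by omega⟩

omit hR in
theorem half_mtor {w : ℤ × ℤ} (hw : ∀ x, x = w.1 ∨ x = w.2 → x = 0 ∨ x = ((2 * g : ℕ) : ℤ)) :
    ¬ IsVec N ((m : ℤ) • w) := by
  obtain ⟨k, hk⟩ := C.m_even
  have h : ∀ x : ℤ, x = 0 ∨ x = ((2 * g : ℕ) : ℤ) → (N : ℤ) ∣ (m : ℤ) * x := by
    rintro x (rfl | rfl)
    · simp
    · exact ⟨(k : ℤ), by rw [hN, hk]; push_cast; ring⟩
  rw [IsVec, not_not]
  exact ⟨h _ (hw _ (Or.inl rfl)), h _ (hw _ (Or.inr rfl))⟩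

omit hR in
theorem qV_mtor : ¬ IsVec N ((m : ℤ) • qV g) := by
  obtain ⟨k, hk⟩ := C.h4m
  rw [IsVec, not_not]
  exact ⟨by simp [qV], ⟨(k : ℤ), by simp [qV, hN, hk]; ring⟩⟩

/-- Outside the kernel and away from the branch points everything is a unit. -/
theorem xF_units {v : ℤ × ℤ} (hv : ¬ InKer hN hζ R v)
    (hsep : ∀ w, IsVec N w → ¬ IsVec N ((m : ℤ) • w) →
      (w = tA (2 * g) ∨ w = tB (2 * g) ∨ w = tC (2 * g)) →
        ¬ InKer hN hζ R (v - w) ∧ ¬ InKer hN hζ R (v + w)) :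
    R.valuation (xF hN hζ v) = 1 ∧ R.valuation (xF hN hζ v - 1) = 1 ∧
      R.valuation (xF hN hζ v - lamF hN hζ) = 1 := by
  have key : ∀ w, IsVec N w → (w = tA (2 * g) ∨ w = tB (2 * g) ∨ w = tC (2 * g)) →
      R.valuation (xF hN hζ v - xF hN hζ w) = 1 := fun w hw h3 => by
    have hm' : ¬ IsVec N ((m : ℤ) • w) := by
      refine C.half_mtor ?_
      rcases h3 with rfl | rfl | rfl <;> simp [tA, tB, tC]
    obtain ⟨h1, h2⟩ := hsep w hw hm' h3
    exact C.sep hR hv (C.mtor_not_inKer hR hw hm') h1 h2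
  have hA := key _ (isVec_tA (two_g hN)) (Or.inl rfl)
  have hB := key _ (isVec_tB (two_g hN)) (Or.inr (Or.inl rfl))
  have hC := key _ (isVec_tC (two_g hN)) (Or.inr (Or.inr rfl))
  have eA : xF hN hζ (tA (2 * g)) = 1 := by
    rw [xF_of_isVec hN hζ (isVec_tA (two_g hN)), ← map_one (toFl (N := N) (K := constK A q))]
    refine congrArg toFl (rN_ext fun τ => ?_)
    rw [rEv_xR, map_one, xAt]
    exact div_self (delta_ne_zero τ (two_g hN))
  have eB : xF hN hζ (tB (2 * g)) = 0 := by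
    rw [xF_of_isVec hN hζ (isVec_tB (two_g hN)), ← map_zero (toFl (N := N) (K := constK A q))]
    refine congrArg toFl (rN_ext fun τ => ?_)
    rw [rEv_xR, map_zero, xAt, sub_self, zero_div]
  have eC : xF hN hζ (tC (2 * g)) = lamF hN hζ := xF_of_isVec hN hζ (isVec_tC (two_g hN))
  rw [eA] at hA
  rw [eB, sub_zero] at hB
  rw [eC] at hC
  exact ⟨hB, hA, hC⟩

theorem dF_unit : R.valuation (dF hN hζ) = 1 := by
  have key : ∀ w, Apart N (qV g) w → ¬ IsVec N ((m : ℤ) • w) →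
      ¬ InKer hN hζ R (qV g - w) ∧ ¬ InKer hN hζ R (qV g + w) := fun w ha hw => by
    refine ⟨C.mtor_not_inKer hR ha.1 ?_, C.mtor_not_inKer hR ha.2 ?_⟩
    · rw [smul_sub, sub_eq_add_neg, isVec_add_iff C.qV_mtor, isVec_neg]
      exact hw
    · rw [smul_add, isVec_add_iff C.qV_mtor]
      exact hw
  obtain ⟨h1, h2, h3⟩ := C.xF_units hR (C.mtor_not_inKer hR (isVec_qV hN) C.qV_mtor)
    fun w _ hw h => key w (by
      rcases h with rfl | rfl | rfl
      exacts [apart_qV_A hN, apart_qV_B hN, apart_qV_C hN]) hw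
  rw [dF, map_mul, map_mul, h1, h2, h3, one_mul, one_mul]

/-- Inside the kernel. -/
theorem ker_zF_sq {v : ℤ × ℤ} (hv : IsVec N v) (hk : InKer hN hζ R v) :
    R.valuation (zF hN hζ v) ^ 2 * R.valuation (xF hN hζ v) = 1 ∧
      R.valuation (zF hN hζ v) < 1 := by
  set X := R.valuation (xF hN hζ v)
  have hX : 1 < X := hk hv
  have hX0 : X ≠ 0 := (zero_lt_one.trans hX).ne'
  have h1 : R.valuation (xF hN hζ v - 1) = X :=
    R.valuation.map_sub_eq_of_lt_left (by rwa [map_one])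
  have h2 : R.valuation (xF hN hζ v - lamF hN hζ) = X :=
    R.valuation.map_sub_eq_of_lt_left (by rwa [C.val_lam hR])
  have h := congrArg R.valuation (yF_sq hN hζ hv)
  rw [map_mul, map_mul, map_mul, map_pow, C.dF_unit hR, one_mul, h1, h2] at h
  have hz : R.valuation (zF hN hζ v) ^ 2 * X = 1 := by
    rw [zF, map_div₀, Valuation.map_neg, div_pow, h, div_mul_eq_mul_div,
      div_eq_one_iff_eq (mul_ne_zero (mul_ne_zero hX0 hX0) hX0), sq]
  refine ⟨hz, not_le.1 fun hle => ?_⟩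
  have h3 : X ≤ R.valuation (zF hN hζ v) ^ 2 * X := le_mul_of_one_le_left' (one_le_pow₀ hle)
  rw [hz] at h3
  exact not_lt.2 h3 hX

/-- Outside the kernel the parameter of a point of order `q` is a unit. -/
theorem zF_unit {v : ℤ × ℤ} (hv : ¬ IsVec N ((q : ℤ) • v)) (hk : ¬ InKer hN hζ R v) :
    R.valuation (zF hN hζ v) = 1 := by
  have hvec : IsVec N v := by
    by_contra h
    exact hk fun h' => absurd h' h
  obtain ⟨k, hk2⟩ : ∃ k : ℤ, (q : ℤ) ∣ k * m - 1 := by
    have hco : IsCoprime (q : ℤ) (m : ℤ) :=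
      Int.isCoprime_iff_nat_coprime.2 (by
        simpa using (Nat.Prime.coprime_iff_not_dvd hq.out).2 C.hqm)
    obtain ⟨a, b, hab⟩ := hco
    exact ⟨b, ⟨-a, by linear_combination hab⟩⟩
  have hkill : ∀ w : ℤ × ℤ, ¬ IsVec N ((m : ℤ) • w) → ∀ e : ℤ, e = 1 ∨ e = -1 →
      ¬ InKer hN hζ R (v + e • w) := fun w hw e _ hin => by
    refine hk ?_
    have h1 := C.inKer_zsmul hR hin (m : ℤ)
    rw [smul_add, smul_comm (m : ℤ) e] at h1
    have h2 : InKer hN hζ R ((m : ℤ) • v) := by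
      refine (inKer_congr ?_).1 h1
      rw [add_sub_cancel_left, IsVec, not_not]
      exact ⟨by simpa using ((not_not.1 hw).1).mul_left e, by simpa using ((not_not.1 hw).2).mul_left e⟩
    have h3 := C.inKer_zsmul hR h2 k
    refine (inKer_congr ?_).1 h3
    obtain ⟨j, hj⟩ := hk2
    rw [smul_smul, show (k * (m : ℤ)) • v - v = j • ((q : ℤ) • v) by
      rw [smul_smul, mul_comm j, ← hj, sub_smul, one_smul]]
    rw [IsVec, not_not]
    exact ⟨by simpa using ((not_not.1 hv).1).mul_left j, by simpa using ((not_not.1 hv).2).mul_left j⟩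
  obtain ⟨h1, h2, h3⟩ := C.xF_units hR hk fun w _ hw _ =>
    ⟨by simpa [sub_eq_add_neg] using hkill w hw (-1) (Or.inr rfl),
      by simpa using hkill w hw 1 (Or.inl rfl)⟩
  have h := congrArg R.valuation (yF_sq hN hζ hvec)
  rw [map_mul, map_mul, map_mul, map_pow, C.dF_unit hR, one_mul, h1, h2, h3, one_mul, one_mul] at h
  rw [zF, map_div₀, Valuation.map_neg, h1, (pow_eq_one_iff_of_nonneg zero_le two_ne_zero).1 h,
    div_one]

theorem zF_le {v : ℤ × ℤ} (hv : ¬ IsVec N ((q : ℤ) • v)) : R.valuation (zF hN hζ v) ≤ 1 := by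
  by_cases hk : InKer hN hζ R v
  · by_cases hvec : IsVec N v
    · exact (C.ker_zF_sq hR hvec hk).2.le
    · rw [zF_of_not hvec, map_zero]
      exact zero_le
  · exact (C.zF_unit hR hv hk).le

omit hR in
theorem zF_mem_loc {v : ℤ × ℤ} (hv : ¬ IsVec N ((q : ℤ) • v)) : zF hN hζ v ∈ locPt C.hp :=
  mem_loc_of_forall C.hp fun R' hR' => (R'.valuation_le_one_iff _).1 (C.zF_le hR' hv)

end OddCtx

end FA.Carayol.OddP

end
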