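import Fermat.Agent.Carayol.OddPts.Stab
import Fermat.Agent.Carayol.Model.CountDefs

/-!
# Automorphisms fixing a coordinate and the residues of the constants
-/

set_option autoImplicit false
set_option linter.unusedSectionVars false
set_option linter.style.haveILetI false

noncomputable section

namespace FA.Carayol.OddP

open CongruenceSubgroup ModularCurve FA.Level Polynomial
open scoped MatrixGroups

local notation "Qb" => AlgebraicClosure ℚ

variable [Algebra Qb ℂ] {A : ValuationSubring Qb} {q : ℕ} [hq : Fact q.Prime] {N : ℕ} [NeZero N]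
  {z : flN N (constK A q)} {ϖ : baseO A (constL A q).toSubfield}

/-- The constants go to constants with the same residue. -/
def MovesCst (ψ : flN N (constK A q) ≃+* flN N (constK A q)) : Prop :=
  ∀ a : baseO A (constL A q).toSubfield, ∃ a' : baseO A (constL A q).toSubfield,
    ψ (cF A q N a) = cF A q N a' ∧ resO A q a' = resO A q a

theorem movesCst_galLvl {ℓ : ℕ} {g : flN N (constK A q) ≃+* flN N (constK A q)}
    (hg : g ∈ galLvl A q ℓ) : MovesCst g := fun a => ⟨a, galLvl_cF hg a, rfl⟩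

theorem MovesCst.trans {ψ φ : flN N (constK A q) ≃+* flN N (constK A q)} (h : MovesCst ψ)
    (h' : MovesCst φ) : MovesCst (ψ.trans φ) := fun a => by
  obtain ⟨b, hb, hb'⟩ := h a
  obtain ⟨c, hc, hc'⟩ := h' b
  exact ⟨c, by rw [RingEquiv.trans_apply, hb, hc], hc'.trans hb'⟩

theorem fix_coordB {ψ : flN N (constK A q) ≃+* flN N (constK A q)} (hz : ψ z = z) (b : Bool) :
    ψ (coordB A q z b) = coordB A q z b := by
  cases b
  · exact hz
  · show ψ z⁻¹ = z⁻¹
    rw [map_inv₀, hz]

variable {ψ : flN N (constK A q) ≃+* flN N (constK A q)} (hc : MovesCst ψ) (hz : ψ z = z)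
include hc hz

theorem move_mem_chart (b : Bool) {x : flN N (constK A q)}
    (hx : x ∈ chartF A q (coordB A q z b)) : ψ x ∈ chartF A q (coordB A q z b) := by
  obtain ⟨P, hP, he⟩ := hx
  have hmem : ∀ Q : (baseO A (constL A q).toSubfield)[X],
      ψ (Q.eval₂ (cF A q N) (coordB A q z b)) ∈ chartF A q (coordB A q z b) := fun Q => by
    rw [eval₂_eq_sum_range, map_sum]
    refine sum_mem fun i _ => ?_
    obtain ⟨a', e, -⟩ := hc (Q.coeff i)
    rw [map_mul, map_pow, e, fix_coordB hz]
    exact mul_mem (cF_mem_chart _ _) (pow_mem (self_mem_chart _) _)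
  let f : (baseO A (constL A q).toSubfield)[X] →+* chartF A q (coordB A q z b) :=
    ((ψ : flN N (constK A q) →+* flN N (constK A q)).comp
      (eval₂RingHom (cF A q N) (coordB A q z b))).codRestrict _ hmem
  refine mem_chart_of_isIntegral ⟨P.map f, hP.map f, ?_⟩
  have h1 := congrArg ψ he
  rw [map_zero, ← RingEquiv.coe_toRingHom, hom_eval₂] at h1
  rw [eval₂_map]
  exact h1

/-- The restriction to a chart. -/
def moveB (b : Bool) : chartF A q (coordB A q z b) →+* chartF A q (coordB A q z b) :=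
  ((ψ : flN N (constK A q) →+* flN N (constK A q)).comp
    (chartF A q (coordB A q z b)).subtype).codRestrict _ fun x => move_mem_chart hc hz b x.2

theorem coe_moveB (b : Bool) (x : chartF A q (coordB A q z b)) :
    (moveB hc hz b x : flN N (constK A q)) = ψ x := rfl

variable (hC : ConstHyp A (constL A q).toSubfield ϖ) {p : Pt A q z} (hp : IsPtF ϖ p)
include hC hp

theorem moveB_cstB_sub (a : baseO A (constL A q).toSubfield) :
    moveB hc hz p.1 (cstB A q _ a) - cstB A q _ a ∈ p.2 := by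
  obtain ⟨a', e, e'⟩ := hc a
  rw [show moveB hc hz p.1 (cstB A q _ a) = cstB A q _ a' from Subtype.ext e, ← map_sub,
    cstB_mem_iff hC hp, map_sub, e', sub_self]

/-- An automorphism mapping the ideal of the point into itself fixes the residues. -/
theorem fixesPt_of_le (h : ∀ x ∈ p.2, moveB hc hz p.1 x ∈ p.2) : FixesPt ψ p := fun x => by
  refine ⟨moveB hc hz p.1 x, rfl, ?_⟩
  obtain ⟨a, ha⟩ := exists_pt_residue hC hp x
  have h1 := h _ ha
  rw [map_sub] at h1
  have h2 := moveB_cstB_sub hc hz hC hp a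
  have h3 := sub_mem (add_mem h1 h2) ha
  convert h3 using 1
  ring

omit hz hc hC hp in
theorem fixes_iff (hf : FixesPt ψ p) {x y : chartF A q (coordB A q z p.1)}
    (hy : (y : flN N (constK A q)) = ψ x) : y ∈ p.2 ↔ x ∈ p.2 := by
  obtain ⟨y', hy', hd⟩ := hf x
  obtain rfl : y' = y := Subtype.ext (hy'.trans hy.symm)
  exact ⟨fun h => by simpa using sub_mem h hd, fun h => by simpa using add_mem hd h⟩

theorem fixes_symm (hf : FixesPt ψ p) (hc' : MovesCst ψ.symm) : FixesPt ψ.symm p :=
  fixesPt_of_le hc' (by rw [RingEquiv.symm_apply_eq, hz]) hC hp fun x hx =>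
    (fixes_iff hf (x := moveB hc' (by rw [RingEquiv.symm_apply_eq, hz]) p.1 x) (y := x)
      (by rw [coe_moveB, RingEquiv.apply_symm_apply])).1 hx

theorem fixes_res (hf : FixesPt ψ p) (x : locPt hp) :
    ∃ h : ψ (x : flN N (constK A q)) ∈ locPt hp, ptRes hC hp ⟨_, h⟩ = ptRes hC hp x := by
  obtain ⟨a, c, hc0, hac⟩ := x.2
  obtain ⟨a', ea, ha'⟩ := hf a
  obtain ⟨c', ec, hcd⟩ := hf c
  have hc' : c' ∉ p.2 := fun h => hc0 ((fixes_iff hf ec).1 h)
  have e : ψ (x : flN N (constK A q)) * (c' : flN N (constK A q)) = a' := by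
    rw [ec, ea, ← map_mul, hac]
  rw [← ptResB_eq_zero hC hp, map_sub, sub_eq_zero] at ha' hcd
  refine ⟨⟨_, _, hc', e⟩, ?_⟩
  rw [locRes_eq hC hp hc0 hac, locRes_eq hC hp hc' (x := ⟨_, ⟨_, _, hc', e⟩⟩) e, ha', hcd]

omit hp in
theorem vert_comap {W : ValuationSubring (flN N (constK A q))} (hW : IsVertF A q ϖ z W) :
    IsVertF A q ϖ z (W.comap (ψ : flN N (constK A q) →+* flN N (constK A q))) := by
  refine ⟨val_comap_lt.2 ?_, fun P hP => val_comap_eq.2 ?_⟩
  · obtain ⟨a', e, e'⟩ := hc ϖ
    obtain ⟨d, hd⟩ := (resO_eq_zero_iff hC).1 (e'.trans (resO_pi hC))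
    show W.valuation (ψ (cF A q N ϖ)) < 1
    rw [e, hd, map_mul, map_mul]
    exact (mul_le_of_le_one_right' ((W.valuation_le_one_iff _).2
      (vert_mem_chart hC hW false (cF_mem_chart _ d)))).trans_lt hW.1
  · choose a' e e' using hc
    set P' : (baseO A (constL A q).toSubfield)[X] :=
      ∑ i ∈ Finset.range (P.natDegree + 1), monomial i (a' (P.coeff i)) with hP'
    have heval : ψ (P.eval₂ (cF A q N) z) = P'.eval₂ (cF A q N) z := by
      rw [hP', eval₂_finsetSum, eval₂_eq_sum_range, map_sum]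
      exact Finset.sum_congr rfl fun i _ => by rw [map_mul, map_pow, e, hz, eval₂_monomial]
    show W.valuation (ψ (P.eval₂ (cF A q N) z)) = 1
    rw [heval]
    obtain ⟨i, hi⟩ := hP
    refine hW.2 _ ⟨i, ?_⟩
    have hile : i ≤ P.natDegree := le_natDegree_of_ne_zero hi.ne_zero
    rw [hP', finsetSum_coeff]
    simp only [coeff_monomial, Finset.sum_ite_eq', Finset.mem_range, Nat.lt_succ_of_le hile, if_true]
    exact isUnit_of_resO_ne hC (by rw [e']; exact resO_ne_of_isUnit hi)

omit hC in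
theorem thru_comap (hf : FixesPt ψ p) {W : ValuationSubring (flN N (constK A q))} (hW : Thru p W) :
    Thru p (W.comap (ψ : flN N (constK A q) →+* flN N (constK A q))) := fun x hx =>
  (fixes_iff hf (coe_moveB hc hz p.1 x)).1 (hW _ (val_comap_lt.1 hx))

theorem verts_comap (hf : FixesPt ψ p) {W : ValuationSubring (flN N (constK A q))}
    (hW : W ∈ vertsAt A q ϖ z p) :
    W.comap (ψ : flN N (constK A q) →+* flN N (constK A q)) ∈ vertsAt A q ϖ z p :=
  ⟨vert_comap hc hz hC hW.1, thru_comap hc hz hp hf hW.2⟩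

end FA.Carayol.OddP

end
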